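/-
P-GATEWAY (d), S30 block, module Specs (helper3).

Interfaces of the reduction of the frozen statement S30 to the Tate module of `J₀(N)`:

* `TateMatrixData p N S`: the `p`-adic Tate module in coordinates: matrices over `ℤ_[p]` for the
  Galois action and for the Hecke action, with the Eichler-Shimura relation, unramifiedness
  outside `N p`, finite-level continuity and `p`-adic faithfulness of the Hecke action;
* `cyclo p`: the `p`-adic cyclotomic character of `Gal(ℚ̄/ℚ)`, and `CycloSpec p`;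
* the `Prop`-valued specifications of the work packages (`OccursSpec`, `QuadSpec`,
  `QuadraticRepSpec`, `LatticeDescentSpec`) and `S30For p N S`, the frozen statement S30 for
  fixed `p N S`.
-/
import Mathlib
import Fermat.Prelude.Def_CuspForm_HeckeGaloisRepDatum

set_option autoImplicit false

namespace Fermat.Agent.Gateway.Assembly

open Polynomial IsLocalRing

/-- `Gal(ℚ̄/ℚ)`. -/
abbrev GQ : Type := AlgebraicClosure ℚ ≃ₐ[ℚ] AlgebraicClosure ℚ

/-- The frozen statement S30 for fixed `p`, `N`, `S`. -/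
def S30For (p : ℕ) [Fact p.Prime] (N : ℕ) [NeZero N] (S : Finset ℕ) : Prop :=
    ∀ (𝒪' : Type) [CommRing 𝒪'] [IsDomain 𝒪'] [IsDiscreteValuationRing 𝒪']
      [IsAdicComplete (IsLocalRing.maximalIdeal 𝒪') 𝒪'] [Finite (IsLocalRing.ResidueField 𝒪')]
      [CharZero 𝒪'] (_hp𝒪' : (p : 𝒪') ∈ IsLocalRing.maximalIdeal 𝒪')
      (χ : CuspForm.heckeAlgebra N 2 (↑S : Set ℕ) →+* 𝒪'),
      ∃ (𝒪'' : Type) (_ : CommRing 𝒪'') (_ : IsDomain 𝒪'') (_ : IsDiscreteValuationRing 𝒪'')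
        (_ : IsAdicComplete (IsLocalRing.maximalIdeal 𝒪'') 𝒪'')
        (_ : Finite (IsLocalRing.ResidueField 𝒪'')) (_ : CharZero 𝒪'')
        (_ : Algebra 𝒪' 𝒪'') (_ : Module.Finite 𝒪' 𝒪'') (_ : IsLocalHom (algebraMap 𝒪' 𝒪'')),
      Function.Injective (algebraMap 𝒪' 𝒪'') ∧
      ∃ ρ : GaloisRepAdic 𝒪'',
        (∀ (ℓ : ℕ) (hℓ : ℓ.Prime) (hℓN : ¬ ℓ ∣ N) (hℓS : ℓ ∉ (↑S : Set ℕ)),
          ∀ A : ValuationSubring (AlgebraicClosure ℚ), A.LiesOverPrime ℓ →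
            ∀ σ : AlgebraicClosure ℚ ≃ₐ[ℚ] AlgebraicClosure ℚ, A.IsFrobeniusAt σ ℓ →
              LinearMap.charpoly (ρ.ρ σ) =
                X ^ 2 - C (algebraMap 𝒪' 𝒪'' (χ (CuspForm.heckeAlgebra.T hℓ hℓN hℓS))) * X
                  + C ((ℓ : 𝒪''))) ∧
        (∀ q : ℕ, q.Prime → ¬ q ∣ N → q ≠ p → ρ.IsUnramifiedAt q)

/-- The `p`-adic Tate module of `J₀(N)` in coordinates. -/
structure TateMatrixData (p : ℕ) [Fact p.Prime] (N : ℕ) [NeZero N] (S : Finset ℕ) : Type where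
  /-- the rank (`= 2g`) -/
  h : ℕ
  /-- the Galois action -/
  gal : GQ →* Matrix (Fin h) (Fin h) ℤ_[p]
  /-- the Hecke action -/
  hecke : CuspForm.heckeAlgebra N 2 (↑S : Set ℕ) →+* Matrix (Fin h) (Fin h) ℤ_[p]
  comm : ∀ (σ : GQ) (t : CuspForm.heckeAlgebra N 2 (↑S : Set ℕ)), Commute (gal σ) (hecke t)
  gal_level : ∀ n : ℕ, ∃ L : IntermediateField ℚ (AlgebraicClosure ℚ), FiniteDimensional ℚ L ∧
    ∀ σ : GQ, (∀ x ∈ L, σ x = x) →
      ∃ B : Matrix (Fin h) (Fin h) ℤ_[p], gal σ = 1 + (p : ℤ_[p]) ^ n • B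
  eichlerShimura : ∀ (ℓ : ℕ) (hℓ : ℓ.Prime) (hℓN : ¬ ℓ ∣ N) (hℓS : ℓ ∉ (↑S : Set ℕ))
    (A : ValuationSubring (AlgebraicClosure ℚ)), A.LiesOverPrime ℓ →
    ∀ σ : GQ, A.IsFrobeniusAt σ ℓ →
      gal σ * gal σ - hecke (CuspForm.heckeAlgebra.T hℓ hℓN hℓS) * gal σ
        + (ℓ : Matrix (Fin h) (Fin h) ℤ_[p]) = 0
  unram : ∀ q : ℕ, q.Prime → ¬ q ∣ N → q ≠ p →
    ∀ P : ValuationSubring (AlgebraicClosure ℚ), P.LiesOverPrime q →
      ∀ τ ∈ P.inertiaSubgroupIn ℚ, gal τ = 1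
  faithful : ∃ c0 : ℕ, ∀ (y : CuspForm.heckeAlgebra N 2 (↑S : Set ℕ)) (n : ℕ),
    (∃ B : Matrix (Fin h) (Fin h) ℤ_[p], hecke y = (p : ℤ_[p]) ^ (n + c0) • B) →
      ∃ y' : CuspForm.heckeAlgebra N 2 (↑S : Set ℕ), y = ((p : ℤ) ^ n) • y'

/-- The `p`-adic cyclotomic character of `Gal(ℚ̄/ℚ)`. -/
noncomputable def cyclo (p : ℕ) [Fact p.Prime] : GQ →* ℤ_[p]ˣ :=
  (cyclotomicCharacter (AlgebraicClosure ℚ) p).comp
    (MulSemiringAction.toRingAut GQ (AlgebraicClosure ℚ))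

/-- The three properties of the cyclotomic character that are used. -/
def CycloSpec (p : ℕ) [Fact p.Prime] : Prop :=
  (∀ n : ℕ, ∃ L : IntermediateField ℚ (AlgebraicClosure ℚ), FiniteDimensional ℚ L ∧
    ∀ σ : GQ, (∀ x ∈ L, σ x = x) → ∃ b : ℤ_[p], ((cyclo p σ : ℤ_[p]ˣ) : ℤ_[p]) = 1 + (p : ℤ_[p]) ^ n * b) ∧
  (∀ ℓ : ℕ, ℓ.Prime → ℓ ≠ p → ∀ A : ValuationSubring (AlgebraicClosure ℚ), A.LiesOverPrime ℓ →
    ∀ σ : GQ, A.IsFrobeniusAt σ ℓ → ((cyclo p σ : ℤ_[p]ˣ) : ℤ_[p]) = (ℓ : ℤ_[p])) ∧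
  (∀ q : ℕ, q.Prime → q ≠ p → ∀ P : ValuationSubring (AlgebraicClosure ℚ), P.LiesOverPrime q →
    ∀ τ ∈ P.inertiaSubgroupIn ℚ, cyclo p τ = 1)

/-- Every system of eigenvalues of the Hecke algebra occurs in the Tate module. -/
def OccursSpec (p : ℕ) [Fact p.Prime] (N : ℕ) [NeZero N] (S : Finset ℕ)
    (D : TateMatrixData p N S) : Prop :=
  ∀ (E : Type) [Field E] [CharZero E] (ι : ℤ_[p] →+* E)
    (lam : CuspForm.heckeAlgebra N 2 (↑S : Set ℕ) →+* E),
    ∃ v : Fin D.h → E, v ≠ 0 ∧ ∀ t, ((D.hecke t).map ι).mulVec v = lam t • v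

/-- Every element of the Galois group satisfies a quadratic relation with coefficients in the
(closure of the) Hecke algebra and constant term the cyclotomic character. -/
def QuadSpec (p : ℕ) [Fact p.Prime] (N : ℕ) [NeZero N] (S : Finset ℕ)
    (D : TateMatrixData p N S) : Prop :=
  ∀ g : GQ, ∃ y ∈ Submodule.span ℤ_[p] (Set.range D.hecke),
    D.gal g * D.gal g - y * D.gal g
      + ((cyclo p g : ℤ_[p]ˣ) : ℤ_[p]) • (1 : Matrix (Fin D.h) (Fin D.h) ℤ_[p]) = 0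

/-- Extraction of a representation of dimension at most two from a representation all of whose
elements satisfy a quadratic relation with constant term a character (algebraically closed
field of characteristic zero). -/
def QuadraticRepSpec : Prop :=
  ∀ (K : Type) [Field K] [IsAlgClosed K] [CharZero K] (G : Type) [Group G]
    (W : Type) [AddCommGroup W] [Module K W] [FiniteDimensional K W] [Nontrivial W]
    (ρ : G →* Module.End K W) (ε : G →* Kˣ) (a : G → K)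
    (_hq : ∀ g, ρ g * ρ g - a g • ρ g + ((ε g : Kˣ) : K) • (1 : Module.End K W) = 0),
    ∃ (U : Submodule K W) (hU : ∀ g, ∀ u ∈ U, ρ g u ∈ U),
      Module.finrank K U = 1 ∨
      (Module.finrank K U = 2 ∧
        ∀ g, LinearMap.charpoly ((ρ g).restrict (hU g))
          = X ^ 2 - C (a g) * X + C (((ε g : Kˣ) : K)))

end Fermat.Agent.Gateway.Assembly

namespace Fermat.Agent.Gateway.Assembly

open Polynomial IsLocalRing

/-- Descent of a Galois-stable subspace of `K̄ ^ h` to a finite extension and choice of a stable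
lattice (`𝒪'` a complete discrete valuation ring of characteristic zero, `K̄` an algebraic
closure of its fraction field). -/
def LatticeDescentSpec : Prop :=
  ∀ (𝒪' : Type) [CommRing 𝒪'] [IsDomain 𝒪'] [IsDiscreteValuationRing 𝒪']
    [IsAdicComplete (IsLocalRing.maximalIdeal 𝒪') 𝒪'] [Finite (IsLocalRing.ResidueField 𝒪')]
    [CharZero 𝒪'] (G : Type) [Group G] (h : ℕ) (A : G →* Matrix (Fin h) (Fin h) 𝒪')
    (U : Submodule (AlgebraicClosure (FractionRing 𝒪'))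
      (Fin h → AlgebraicClosure (FractionRing 𝒪')))
    (hU : ∀ g, ∀ u ∈ U, Matrix.toLin' ((A g).map
      (algebraMap 𝒪' (AlgebraicClosure (FractionRing 𝒪')))) u ∈ U),
    ∃ (𝒪'' : Type) (_ : CommRing 𝒪'') (_ : IsDomain 𝒪'') (_ : IsDiscreteValuationRing 𝒪'')
      (_ : IsAdicComplete (IsLocalRing.maximalIdeal 𝒪'') 𝒪'')
      (_ : Finite (IsLocalRing.ResidueField 𝒪'')) (_ : CharZero 𝒪'')
      (_ : Algebra 𝒪' 𝒪'') (_ : Module.Finite 𝒪' 𝒪'') (_ : IsLocalHom (algebraMap 𝒪' 𝒪'')),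
      Function.Injective (algebraMap 𝒪' 𝒪'') ∧
      ∃ j : 𝒪'' →+* AlgebraicClosure (FractionRing 𝒪'),
        Function.Injective j ∧
        (∀ x : 𝒪', j (algebraMap 𝒪' 𝒪'' x) =
          algebraMap 𝒪' (AlgebraicClosure (FractionRing 𝒪')) x) ∧
        ∃ (Λ : Type) (_ : AddCommGroup Λ) (_ : Module 𝒪'' Λ) (_ : Module.Free 𝒪'' Λ)
          (_ : Module.Finite 𝒪'' Λ) (r : G →* Module.End 𝒪'' Λ),
          Module.finrank 𝒪'' Λ = Module.finrank (AlgebraicClosure (FractionRing 𝒪')) U ∧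
          (∀ g, (LinearMap.charpoly (r g)).map j =
            LinearMap.charpoly ((Matrix.toLin' ((A g).map
              (algebraMap 𝒪' (AlgebraicClosure (FractionRing 𝒪'))))).restrict (hU g))) ∧
          (∀ (c : 𝒪') (g : G) (B : Matrix (Fin h) (Fin h) 𝒪'), A g = 1 + c • B →
            ∀ v : Λ, ∃ w : Λ, r g v - v = algebraMap 𝒪' 𝒪'' c • w)

end Fermat.Agent.Gateway.Assembly
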