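/-
P-GATEWAY (d), S30 block, package D-CYC (helper98).

The three properties `CycloSpec p` of the `p`-adic cyclotomic character `cyclo p` of
`Gal(ℚ̄/ℚ)`:
* it is trivial modulo `p ^ n` on the automorphisms fixing `ℚ(ζ_{p ^ n})`;
* a Frobenius lift at `ℓ ≠ p` is sent to `ℓ`;
* the inertia groups at `q ≠ p` are sent to `1`.
-/
import Mathlib
import Fermat.Agent.Gateway.S30.Specs
import Fermat.Agent.Gateway.S31.RootsOfUnity

set_option autoImplicit false

namespace Fermat.Agent.Gateway.Assembly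

open Fermat.Agent.Gateway.S31Red

/-- `ℚ̄` has all `p ^ i`-th roots of unity. -/
instance hasEnoughRootsOfUnity_Qbar (p : ℕ) [Fact p.Prime] (i : ℕ) :
    HasEnoughRootsOfUnity (AlgebraicClosure ℚ) (p ^ i) :=
  have : NeZero (p : ℚ) := ⟨by exact_mod_cast (Fact.out : p.Prime).ne_zero⟩
  AlgebraicClosure.hasEnoughRootsOfUnity_pow ℚ p i

/-- The value of `cyclo p σ` as an element of `ℤ_[p]`, unfolded. -/
theorem cyclo_apply (p : ℕ) [Fact p.Prime] (σ : GQ) :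
    cyclo p σ = cyclotomicCharacter (AlgebraicClosure ℚ) p
      (MulSemiringAction.toRingAut GQ (AlgebraicClosure ℚ) σ) := rfl

/-- The defining property of the cyclotomic character. -/
theorem cyclo_spec (p : ℕ) [Fact p.Prime] (σ : GQ) {n : ℕ} (t : AlgebraicClosure ℚ)
    (ht : t ^ p ^ n = 1) :
    σ t = t ^ (PadicInt.toZModPow n ((cyclo p σ : ℤ_[p]ˣ) : ℤ_[p])).val :=
  cyclotomicCharacter.spec p (MulSemiringAction.toRingAut GQ (AlgebraicClosure ℚ) σ) t ht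

/-- Characterisation of the reduction modulo `p ^ n` of the cyclotomic character. -/
theorem toZModPow_cyclo_eq (p : ℕ) [Fact p.Prime] (σ : GQ) (n : ℕ) (c : ZMod (p ^ n))
    (h : ∀ t : AlgebraicClosure ℚ, t ^ p ^ n = 1 → σ t = t ^ c.val) :
    PadicInt.toZModPow n ((cyclo p σ : ℤ_[p]ˣ) : ℤ_[p]) = c := by
  rw [cyclo_apply, cyclotomicCharacter.toZModPow]
  have := modularCyclotomicCharacter.unique (AlgebraicClosure ℚ)
    (HasEnoughRootsOfUnity.natCard_rootsOfUnity (AlgebraicClosure ℚ) (p ^ n))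
    (MulSemiringAction.toRingAut GQ (AlgebraicClosure ℚ) σ) (c := c) ?_
  · exact this.symm
  · intro t ht
    have ht' : ((t : (AlgebraicClosure ℚ)ˣ) : AlgebraicClosure ℚ) ^ p ^ n = 1 := by
      have := (mem_rootsOfUnity _ _).mp ht
      rw [← Units.val_pow_eq_pow_val, this, Units.val_one]
    exact h _ ht'

/-- Characterisation of the cyclotomic character. -/
theorem cyclo_eq_of_forall (p : ℕ) [Fact p.Prime] (σ : GQ) (c : ℤ_[p])
    (h : ∀ (n : ℕ) (t : AlgebraicClosure ℚ), t ^ p ^ n = 1 →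
      σ t = t ^ (PadicInt.toZModPow n c).val) :
    ((cyclo p σ : ℤ_[p]ˣ) : ℤ_[p]) = c :=
  PadicInt.ext_of_toZModPow.mp fun n => toZModPow_cyclo_eq p σ n _ (h n)

/-- `t ^ (a : ZMod m).val = t ^ a` for an `m`-th root of unity `t`. -/
theorem pow_val_natCast_eq {M : Type*} [Monoid M] {m : ℕ} [NeZero m] {t : M} (ht : t ^ m = 1)
    (a : ℕ) : t ^ ((a : ZMod m)).val = t ^ a := by
  rw [ZMod.val_natCast]
  conv_rhs => rw [← Nat.mod_add_div a m]
  rw [pow_add, pow_mul, ht, one_pow, mul_one]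

/-- Level: the automorphisms fixing `ℚ(ζ_{p ^ n})` have cyclotomic character `1` modulo
`p ^ n`. -/
theorem cyclo_level (p : ℕ) [Fact p.Prime] (n : ℕ) :
    ∃ L : IntermediateField ℚ (AlgebraicClosure ℚ), FiniteDimensional ℚ L ∧
      ∀ σ : GQ, (∀ x ∈ L, σ x = x) →
        ∃ b : ℤ_[p], ((cyclo p σ : ℤ_[p]ˣ) : ℤ_[p]) = 1 + (p : ℤ_[p]) ^ n * b := by
  obtain ⟨ζ, hζ⟩ := HasEnoughRootsOfUnity.exists_primitiveRoot (AlgebraicClosure ℚ) (p ^ n)
  have hpn : NeZero (p ^ n) := ⟨pow_ne_zero _ (Fact.out : p.Prime).ne_zero⟩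
  refine ⟨IntermediateField.adjoin ℚ {ζ}, IntermediateField.adjoin.finiteDimensional
    (hζ.isIntegral (Nat.pos_of_neZero _)).tower_top, fun σ hσ => ?_⟩
  have hσζ : σ ζ = ζ := hσ ζ (IntermediateField.mem_adjoin_simple_self ℚ ζ)
  have h1 : PadicInt.toZModPow n ((cyclo p σ : ℤ_[p]ˣ) : ℤ_[p]) = 1 := by
    refine toZModPow_cyclo_eq p σ n 1 fun t ht => ?_
    obtain ⟨i, -, rfl⟩ := hζ.eq_pow_of_pow_eq_one ht
    rw [map_pow, hσζ]
    have : (1 : ZMod (p ^ n)) = ((1 : ℕ) : ZMod (p ^ n)) := by simp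
    rw [this, pow_val_natCast_eq (by rw [← pow_mul, mul_comm, pow_mul, hζ.pow_eq_one, one_pow]),
      pow_one]
  have hker : ((cyclo p σ : ℤ_[p]ˣ) : ℤ_[p]) - 1 ∈ RingHom.ker (PadicInt.toZModPow (p := p) n) := by
    rw [RingHom.mem_ker, map_sub, h1, map_one, sub_self]
  rw [PadicInt.ker_toZModPow, Ideal.mem_span_singleton'] at hker
  obtain ⟨b, hb⟩ := hker
  exact ⟨b, by linear_combination -hb⟩

/-- Frobenius lifts at `ℓ ≠ p` have cyclotomic character `ℓ`. -/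
theorem cyclo_frob (p : ℕ) [Fact p.Prime] (ℓ : ℕ) (hℓ : ℓ.Prime) (hℓp : ℓ ≠ p)
    (A : ValuationSubring (AlgebraicClosure ℚ)) (hA : A.LiesOverPrime ℓ) (σ : GQ)
    (hσ : A.IsFrobeniusAt σ ℓ) : ((cyclo p σ : ℤ_[p]ˣ) : ℤ_[p]) = (ℓ : ℤ_[p]) := by
  have hp : p.Prime := Fact.out
  refine cyclo_eq_of_forall p σ _ fun n t ht => ?_
  have hpn : NeZero (p ^ n) := ⟨pow_ne_zero _ hp.ne_zero⟩
  have hdvd : ¬ ℓ ∣ p ^ n := fun h =>
    hℓp ((Nat.prime_dvd_prime_iff_eq hℓ hp).mp (hℓ.dvd_of_dvd_pow h))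
  rw [frob_apply_rootOfUnity hℓ hA hσ hdvd ht, map_natCast, pow_val_natCast_eq ht]

/-- Inertia at `q ≠ p` has trivial cyclotomic character. -/
theorem cyclo_inertia (p : ℕ) [Fact p.Prime] (q : ℕ) (hq : q.Prime) (hqp : q ≠ p)
    (P : ValuationSubring (AlgebraicClosure ℚ)) (hP : P.LiesOverPrime q) (τ : GQ)
    (hτ : τ ∈ P.inertiaSubgroupIn ℚ) : cyclo p τ = 1 := by
  have hp : p.Prime := Fact.out
  refine Units.ext ?_
  rw [Units.val_one]
  refine cyclo_eq_of_forall p τ _ fun n t ht => ?_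
  have hpn : NeZero (p ^ n) := ⟨pow_ne_zero _ hp.ne_zero⟩
  have hdvd : ¬ q ∣ p ^ n := fun h =>
    hqp ((Nat.prime_dvd_prime_iff_eq hq hp).mp (hq.dvd_of_dvd_pow h))
  rw [apply_rootOfUnity_of_mem_inertia hq hP hτ hdvd ht, map_one]
  have : (1 : ZMod (p ^ n)) = ((1 : ℕ) : ZMod (p ^ n)) := by simp
  rw [this, pow_val_natCast_eq ht, pow_one]

/-- Package D-CYC: the specification of the cyclotomic character. -/
theorem cycloSpec (p : ℕ) [Fact p.Prime] : CycloSpec p :=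
  ⟨cyclo_level p, cyclo_frob p, cyclo_inertia p⟩

end Fermat.Agent.Gateway.Assembly
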