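/-
P-GATEWAY (d), S30 block, package D-DIAG (helper15).

The `d = 1` case of the extraction step: from two characters `ψ, ε : Gal(ℚ̄/ℚ) →* 𝒪ˣ` which are
adically continuous (trivial modulo `𝔪 ^ n` on the absolute Galois group of a number field),
the diagonal representation `ψ ⊕ ε ψ⁻¹` on `𝒪 ^ 2` is a `GaloisRepAdic 𝒪` with characteristic
polynomial `X ^ 2 - (ψ + ε ψ⁻¹) X + ε`.
-/
import Mathlib
import Fermat.Agent.Gateway.S30.Specs

set_option autoImplicit false
set_option linter.unusedSectionVars false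

namespace Fermat.Agent.Gateway.Assembly

open Polynomial IsLocalRing

section Diag

variable {O : Type} [CommRing O] [IsLocalRing O]

/-- the diagonal matrix of the pair of characters `(ψ, ε ψ⁻¹)`. -/
noncomputable def diagMat (psi e : GQ →* Oˣ) (g : GQ) : Matrix (Fin 2) (Fin 2) O :=
  Matrix.diagonal ![((psi g : Oˣ) : O), ((e g : Oˣ) : O) * (((psi g)⁻¹ : Oˣ) : O)]

theorem diagMat_one (psi e : GQ →* Oˣ) : diagMat psi e 1 = 1 := by
  unfold diagMat
  rw [map_one, map_one, inv_one, Units.val_one, mul_one]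
  ext i j
  fin_cases i <;> fin_cases j <;> simp

theorem diagMat_mul (psi e : GQ →* Oˣ) (g h : GQ) :
    diagMat psi e (g * h) = diagMat psi e g * diagMat psi e h := by
  unfold diagMat
  rw [Matrix.diagonal_mul_diagonal, map_mul, map_mul, mul_inv, Units.val_mul, Units.val_mul,
    Units.val_mul]
  congr 1
  ext i
  fin_cases i
  · simp
  · simp only [Fin.mk_one, Matrix.cons_val_one, Matrix.cons_val_zero]
    ring

/-- the diagonal representation `ψ ⊕ ε ψ⁻¹` on `𝒪 ^ 2`. -/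
noncomputable def diagRho (psi e : GQ →* Oˣ) : GQ →* Module.End O (Fin 2 → O) where
  toFun g := Matrix.toLin' (diagMat psi e g)
  map_one' := by rw [diagMat_one, Matrix.toLin'_one]; rfl
  map_mul' g h := by rw [diagMat_mul, Matrix.toLin'_mul]; rfl

theorem diagRho_apply (psi e : GQ →* Oˣ) (g : GQ) :
    diagRho psi e g = Matrix.toLin' (diagMat psi e g) := rfl

theorem diagRho_apply_apply (psi e : GQ →* Oˣ) (g : GQ) (v : Fin 2 → O) (i : Fin 2) :
    diagRho psi e g v i =
      (![((psi g : Oˣ) : O), ((e g : Oˣ) : O) * (((psi g)⁻¹ : Oˣ) : O)] i) * v i := by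
  rw [diagRho_apply, Matrix.toLin'_apply, diagMat, Matrix.mulVec_diagonal]

/-- a vector all of whose coordinates lie in the ideal `I` lies in `I • ⊤`. -/
theorem diag_mem_smul_top_of_forall_mem {I : Ideal O} {v : Fin 2 → O} (hv : ∀ i, v i ∈ I) :
    v ∈ I • (⊤ : Submodule O (Fin 2 → O)) := by
  have h : v = ∑ i, v i • (Pi.single i (1 : O) : Fin 2 → O) := by
    ext j
    simp [Finset.sum_apply, Pi.single_apply]
  rw [h]
  exact Submodule.sum_mem _ fun i _ => Submodule.smul_mem_smul (hv i) Submodule.mem_top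

theorem charpoly_diagRho (psi e : GQ →* Oˣ) (g : GQ) :
    LinearMap.charpoly (diagRho psi e g) =
      X ^ 2 - C (((psi g : Oˣ) : O) + ((e g : Oˣ) : O) * (((psi g)⁻¹ : Oˣ) : O)) * X
        + C ((e g : Oˣ) : O) := by
  rw [diagRho_apply, Matrix.charpoly_toLin', Matrix.charpoly_fin_two]
  have htr : (diagMat psi e g).trace =
      ((psi g : Oˣ) : O) + ((e g : Oˣ) : O) * (((psi g)⁻¹ : Oˣ) : O) := by
    rw [diagMat, Matrix.trace_fin_two]
    simp
  have hdet : (diagMat psi e g).det = ((e g : Oˣ) : O) := by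
    rw [diagMat, Matrix.det_diagonal, Fin.prod_univ_two]
    simp only [Matrix.cons_val_zero, Matrix.cons_val_one]
    rw [mul_comm ((e g : Oˣ) : O), ← mul_assoc, ← Units.val_mul, mul_inv_cancel, Units.val_one,
      one_mul]
  rw [htr, hdet]

/-- **D-DIAG.**  The diagonal `GaloisRepAdic` attached to a pair of adically continuous
characters. -/
theorem exists_galoisRepAdic_of_characters (O : Type) [CommRing O] [IsLocalRing O]
    (psi e : GQ →* Oˣ)
    (hpsi : ∀ n : ℕ, ∃ L : IntermediateField ℚ (AlgebraicClosure ℚ), FiniteDimensional ℚ L ∧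
      ∀ s : GQ, (∀ x ∈ L, s x = x) → ((psi s : Oˣ) : O) - 1 ∈ maximalIdeal O ^ n)
    (he : ∀ n : ℕ, ∃ L : IntermediateField ℚ (AlgebraicClosure ℚ), FiniteDimensional ℚ L ∧
      ∀ s : GQ, (∀ x ∈ L, s x = x) → ((e s : Oˣ) : O) - 1 ∈ maximalIdeal O ^ n) :
    ∃ rho : GaloisRepAdic O,
      (∀ g, LinearMap.charpoly (rho.ρ g) =
        X ^ 2 - C (((psi g : Oˣ) : O) + ((e g : Oˣ) : O) * (((psi g)⁻¹ : Oˣ) : O)) * X
          + C ((e g : Oˣ) : O)) ∧
      (∀ g, psi g = 1 → e g = 1 → rho.ρ g = 1) := by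
  classical
  have hcont : GaloisActionIsAdicContinuous O (diagRho psi e) := by
    intro n
    obtain ⟨L₁, hL₁, h₁⟩ := hpsi n
    obtain ⟨L₂, hL₂, h₂⟩ := he n
    refine ⟨L₁ ⊔ L₂, IntermediateField.finiteDimensional_sup L₁ L₂, fun σ hσ v => ?_⟩
    have hp : ((psi σ : Oˣ) : O) - 1 ∈ maximalIdeal O ^ n :=
      h₁ σ fun x hx => hσ x ((le_sup_left : L₁ ≤ L₁ ⊔ L₂) hx)
    have hee : ((e σ : Oˣ) : O) - 1 ∈ maximalIdeal O ^ n :=
      h₂ σ fun x hx => hσ x ((le_sup_right : L₂ ≤ L₁ ⊔ L₂) hx)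
    have hinv : (((psi σ)⁻¹ : Oˣ) : O) - 1 ∈ maximalIdeal O ^ n := by
      have : (((psi σ)⁻¹ : Oˣ) : O) - 1 = -((((psi σ)⁻¹ : Oˣ) : O) * (((psi σ : Oˣ) : O) - 1)) := by
        rw [mul_sub, ← Units.val_mul, inv_mul_cancel, Units.val_one]
        ring
      rw [this]
      exact neg_mem (Ideal.mul_mem_left _ _ hp)
    have hprod : ((e σ : Oˣ) : O) * (((psi σ)⁻¹ : Oˣ) : O) - 1 ∈ maximalIdeal O ^ n := by
      have : ((e σ : Oˣ) : O) * (((psi σ)⁻¹ : Oˣ) : O) - 1 =
          (((e σ : Oˣ) : O) - 1) * (((psi σ)⁻¹ : Oˣ) : O) + ((((psi σ)⁻¹ : Oˣ) : O) - 1) := by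
        ring
      rw [this]
      exact add_mem (Ideal.mul_mem_right _ _ hee) hinv
    refine diag_mem_smul_top_of_forall_mem fun i => ?_
    rw [Pi.sub_apply, diagRho_apply_apply]
    fin_cases i
    · have : (![((psi σ : Oˣ) : O), ((e σ : Oˣ) : O) * (((psi σ)⁻¹ : Oˣ) : O)]
          ((⟨0, by decide⟩ : Fin 2))) * v ⟨0, by decide⟩ - v ⟨0, by decide⟩ =
          (((psi σ : Oˣ) : O) - 1) * v ⟨0, by decide⟩ := by
        simp only [Fin.zero_eta, Matrix.cons_val_zero]
        ring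
      rw [this]
      exact Ideal.mul_mem_right _ _ hp
    · have : (![((psi σ : Oˣ) : O), ((e σ : Oˣ) : O) * (((psi σ)⁻¹ : Oˣ) : O)]
          ((⟨1, by decide⟩ : Fin 2))) * v ⟨1, by decide⟩ - v ⟨1, by decide⟩ =
          (((e σ : Oˣ) : O) * (((psi σ)⁻¹ : Oˣ) : O) - 1) * v ⟨1, by decide⟩ := by
        simp only [Fin.mk_one, Matrix.cons_val_one, Matrix.cons_val_zero]
        ring
      rw [this]
      exact Ideal.mul_mem_right _ _ hprod
  refine ⟨{ V := Fin 2 → O
            finrank_eq := by rw [Module.finrank_fin_fun]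
            ρ := diagRho psi e
            isAdicContinuous := hcont }, fun g => charpoly_diagRho psi e g, fun g hg heg => ?_⟩
  show diagRho psi e g = 1
  rw [diagRho_apply, diagMat, hg, heg, inv_one, Units.val_one, mul_one]
  have : (Matrix.diagonal ![(1 : O), 1] : Matrix (Fin 2) (Fin 2) O) = 1 := by
    ext i j
    fin_cases i <;> fin_cases j <;> simp
  rw [this, Matrix.toLin'_one]
  rfl

end Diag

end Fermat.Agent.Gateway.Assembly
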