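/-
helper89 (P-GATEWAY, S30 block, package D-EXT).  Finite extensions of the coefficient ring:
for a complete discrete valuation ring `𝒪'` of characteristic zero with finite residue field,
`K' = Frac 𝒪'`, and a finite subextension `L` of an algebraic closure of `K'`, the integral closure
`B` of `𝒪'` in `L` is again a complete discrete valuation ring of characteristic zero with finite
residue field, finite over `𝒪'`, with fraction field `L`.

Everything except the finite residue field and `CharZero` is helper59's
`Lib/CFT/Local/Basic.lean`.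
-/
import Mathlib
import Fermat.Agent.Lib.CFT.Local.Basic

set_option autoImplicit false
set_option linter.unusedSectionVars false

namespace Fermat.Agent.Gateway.Assembly.FiniteExt

open IsLocalRing Fermat.Agent.Lib.CFT.Local

variable (𝒪' : Type) [CommRing 𝒪'] [IsDomain 𝒪'] [IsDiscreteValuationRing 𝒪']
  [IsAdicComplete (maximalIdeal 𝒪') 𝒪'] [Finite (ResidueField 𝒪')] [CharZero 𝒪']
  (L : IntermediateField (FractionRing 𝒪') (AlgebraicClosure (FractionRing 𝒪')))
  [FiniteDimensional (FractionRing 𝒪') L]

/-- The integral closure of `𝒪'` in the finite extension `L` of its fraction field. -/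
noncomputable abbrev extRing : Subalgebra 𝒪' L := integralClosure 𝒪' L

instance : Algebra.IsSeparable (FractionRing 𝒪') L := Algebra.IsSeparable.of_integral _ _

instance instIsDiscreteValuationRing : IsDiscreteValuationRing (extRing 𝒪' L) :=
  ext_isDiscreteValuationRing 𝒪' (FractionRing 𝒪') L (extRing 𝒪' L)

instance instIsAdicComplete : IsAdicComplete (maximalIdeal (extRing 𝒪' L)) (extRing 𝒪' L) :=
  ext_isAdicComplete 𝒪' (FractionRing 𝒪') L (extRing 𝒪' L)

instance instModuleFinite : Module.Finite 𝒪' (extRing 𝒪' L) :=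
  ext_finite 𝒪' (FractionRing 𝒪') L (extRing 𝒪' L)

instance instIsLocalHom : IsLocalHom (algebraMap 𝒪' (extRing 𝒪' L)) :=
  ext_isLocalHom 𝒪' (FractionRing 𝒪') L (extRing 𝒪' L)

theorem algebraMap_injective : Function.Injective (algebraMap 𝒪' (extRing 𝒪' L)) :=
  ext_algebraMap_injective 𝒪' (FractionRing 𝒪') L (extRing 𝒪' L)

instance instIsFractionRing : IsFractionRing (extRing 𝒪' L) L :=
  ext_isFractionRing 𝒪' (FractionRing 𝒪') L (extRing 𝒪' L)

instance instFiniteResidueField : Finite (ResidueField (extRing 𝒪' L)) :=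
  ResidueField.finite_of_finite (R := 𝒪') (S := extRing 𝒪' L) inferInstance

instance instCharZero : CharZero (extRing 𝒪' L) :=
  charZero_of_injective_algebraMap (algebraMap_injective 𝒪' L)

/-- The inclusion of `extRing` into the algebraic closure. -/
noncomputable def toClosure : extRing 𝒪' L →+* AlgebraicClosure (FractionRing 𝒪') :=
  (algebraMap L (AlgebraicClosure (FractionRing 𝒪'))).comp (algebraMap (extRing 𝒪' L) L)

theorem toClosure_injective : Function.Injective (toClosure 𝒪' L) :=
  (algebraMap L (AlgebraicClosure (FractionRing 𝒪'))).injective.comp Subtype.val_injective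

theorem toClosure_algebraMap (x : 𝒪') :
    toClosure 𝒪' L (algebraMap 𝒪' (extRing 𝒪' L) x) =
      algebraMap 𝒪' (AlgebraicClosure (FractionRing 𝒪')) x := rfl

theorem toClosure_apply (x : extRing 𝒪' L) :
    toClosure 𝒪' L x = ((x : L) : AlgebraicClosure (FractionRing 𝒪')) := rfl

/-- Every element of `L` is a quotient `b / a` with `b ∈ extRing` and `0 ≠ a ∈ 𝒪'`. -/
theorem exists_smul_mem (x : L) : ∃ a : 𝒪', a ≠ 0 ∧ (a • x) ∈ extRing 𝒪' L := by
  have halg : IsAlgebraic 𝒪' x := by
    have h1 : IsAlgebraic (FractionRing 𝒪') x := Algebra.IsAlgebraic.isAlgebraic x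
    exact (IsFractionRing.isAlgebraic_iff 𝒪' (FractionRing 𝒪') L).mpr h1
  obtain ⟨a, ha0, hint⟩ := halg.exists_integral_multiple
  exact ⟨a, ha0, hint⟩

/-- **D-EXT, bundled form** (the shape of the existential quantifiers of the frozen S30). -/
theorem exists_ext :
    ∃ (_ : IsDiscreteValuationRing (extRing 𝒪' L))
      (_ : IsAdicComplete (maximalIdeal (extRing 𝒪' L)) (extRing 𝒪' L))
      (_ : Finite (ResidueField (extRing 𝒪' L))) (_ : CharZero (extRing 𝒪' L))
      (_ : Module.Finite 𝒪' (extRing 𝒪' L)) (_ : IsLocalHom (algebraMap 𝒪' (extRing 𝒪' L))),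
      Function.Injective (algebraMap 𝒪' (extRing 𝒪' L)) ∧ IsFractionRing (extRing 𝒪' L) L :=
  ⟨inferInstance, inferInstance, inferInstance, inferInstance, inferInstance, inferInstance,
    algebraMap_injective 𝒪' L, inferInstance⟩

end Fermat.Agent.Gateway.Assembly.FiniteExt
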