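/-
helper62 (P-GATEWAY (d), package D-LAT).  Shared definitions for the lattice descent:
`R` a domain with an injective algebra map to a field `F`; for a subspace `U` of `F ^ h` the
saturated lattice `lattice h U = {v ∈ R ^ h | ext v ∈ U}`.
-/
import Mathlib

set_option autoImplicit false

namespace Fermat.Agent.Gateway.Assembly.Lattice

variable {R F : Type*} [CommRing R] [Field F] [Algebra R F] (h : ℕ)

/-- Coordinatewise extension of scalars `R ^ h → F ^ h`, as an `R`-linear map. -/
noncomputable def extL : (Fin h → R) →ₗ[R] (Fin h → F) :=
  (Algebra.linearMap R F).compLeft (Fin h)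

@[simp] theorem extL_apply (v : Fin h → R) (i : Fin h) : extL (F := F) h v i = algebraMap R F (v i) :=
  rfl

theorem extL_eq (v : Fin h → R) : extL (F := F) h v = algebraMap R F ∘ v := rfl

/-- The saturated lattice of a subspace `U` of `F ^ h`: the vectors of `R ^ h` lying in `U`. -/
noncomputable def lattice (U : Submodule F (Fin h → F)) : Submodule R (Fin h → R) :=
  (U.restrictScalars R).comap (extL h)

theorem mem_lattice {U : Submodule F (Fin h → F)} {v : Fin h → R} :
    v ∈ lattice h U ↔ extL (F := F) h v ∈ U := Iff.rfl

/-- WP-LAT-X (abstract core of the lattice descent): over a principal ideal domain `R` embedded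
in a field `F`, if the subspace `U` of `F ^ h` is spanned by vectors with coordinates in `R`, then
its saturated lattice has a finite `R`-basis which is also an `F`-basis of `U`. -/
def LatticeBasisSpec : Prop :=
  ∀ (R F : Type) [CommRing R] [IsDomain R] [IsPrincipalIdealRing R] [Field F] [Algebra R F]
    [FaithfulSMul R F] (h : ℕ) (U : Submodule F (Fin h → F)) (S : Set (Fin h → R)),
    U = Submodule.span F (extL (F := F) h '' S) →
    ∃ (n : ℕ) (b : Module.Basis (Fin n) R (lattice (R := R) h U)),
      LinearIndependent F (fun i => extL (F := F) h (b i).1) ∧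
      Submodule.span F (Set.range fun i => extL (F := F) h (b i).1) = U

end Fermat.Agent.Gateway.Assembly.Lattice
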