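/-
helper89 (P-GATEWAY (d), package WP-LAT-X of D-LAT).  Over a principal ideal domain `R` embedded
in a field `F`: if the subspace `U` of `F ^ h` is spanned by vectors with coordinates in `R`, then
its saturated lattice `lattice h U` has a finite `R`-basis which is also an `F`-basis of `U`.
-/
import Mathlib
import Fermat.Agent.Gateway.S30.LatticeDefs

set_option autoImplicit false

namespace Fermat.Agent.Gateway.Assembly.Lattice

theorem latticeBasisSpec : LatticeBasisSpec := by
  intro R F _ _ _ _ _ _ h U S hU
  -- (1) a basis of the lattice
  obtain ⟨n, ⟨b⟩⟩ := Submodule.nonempty_basis_of_pid (Pi.basisFun R (Fin h)) (lattice (R := R) h U)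
  refine ⟨n, b, ?_, ?_⟩
  · -- (2) linear independence over `F`
    have h1 : LinearIndependent R (fun i => ((b i : lattice (R := R) h U) : Fin h → R)) :=
      b.linearIndependent.map' (lattice (R := R) h U).subtype (Submodule.ker_subtype _)
    have h2 := (linearIndependent_algebraMap_comp_iff (R := R) (S := F)
      (v := fun i => ((b i : lattice (R := R) h U) : Fin h → R))).mpr h1
    exact h2
  · -- (3) the span
    apply le_antisymm
    · rw [Submodule.span_le]
      rintro _ ⟨i, rfl⟩
      exact (b i).2
    · have hSU : ∀ s ∈ S, extL (F := F) h s ∈ U := by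
        intro s hs
        rw [hU]
        exact Submodule.subset_span ⟨s, hs, rfl⟩
      have hle : Submodule.span F (extL (F := F) h '' S) ≤
          Submodule.span F (Set.range fun i => extL (F := F) h (b i).1) := by
        rw [Submodule.span_le]
        rintro _ ⟨s, hs, rfl⟩
        have hsU : s ∈ lattice (R := R) h U := hSU s hs
        have hrepr : s = ∑ i, (b.repr ⟨s, hsU⟩ i) • ((b i : lattice (R := R) h U) : Fin h → R) := by
          have := b.sum_repr ⟨s, hsU⟩
          have h3 := congrArg (lattice (R := R) h U).subtype this
          simp only [map_sum, map_smul, Submodule.subtype_apply] at h3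
          exact h3.symm
        rw [hrepr, map_sum]
        refine Submodule.sum_mem _ fun i _ => ?_
        rw [map_smul, ← algebraMap_smul F (b.repr ⟨s, hsU⟩ i)]
        exact Submodule.smul_mem _ _ (Submodule.subset_span ⟨i, rfl⟩)
      exact hU.le.trans hle

end Fermat.Agent.Gateway.Assembly.Lattice
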