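/-
helper62 (P-GATEWAY (d), package D-LAT).  Descent of a stable subspace `U ⊆ K̄ ^ h` to a finite
extension `𝒪''` of the coefficient ring and the saturated stable lattice `Λ = U ∩ 𝒪'' ^ h`:
`latticeDescentSpec_of : LatticeBasisSpec → LatticeDescentSpec`.

* abstract part: `extL`, `lattice` (LatticeDefs.lean), `latticeEnd` (the endomorphism of the lattice
  induced by a matrix over `R` stabilising `U`), `charpoly_latticeEnd` (an `R`-basis of the lattice
  which is an `F`-basis of `U` gives the same matrices, hence the same characteristic polynomial);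
* concrete part: `L` := the field generated by the coordinates of a basis of `U`,
  `𝒪'' := extRing 𝒪' L` (helper89, FiniteExt.lean), common denominators, the action, the
  congruence clause by saturation.
-/
import Mathlib
import Fermat.Agent.Gateway.S30.Specs
import Fermat.Agent.Gateway.S30.FiniteExt
import Fermat.Agent.Gateway.S30.LatticeDefs
import Fermat.Agent.Gateway.S30.LatticeBasis

set_option autoImplicit false
set_option linter.unusedSectionVars false

namespace Fermat.Agent.Gateway.Assembly.Lattice

open IsLocalRing Polynomial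
open Fermat.Agent.Gateway.Assembly.FiniteExt

section abstract

variable {R F : Type*} [CommRing R] [Field F] [Algebra R F] {h : ℕ}

theorem extL_mulVec (M : Matrix (Fin h) (Fin h) R) (v : Fin h → R) :
    extL (F := F) h (M.mulVec v) = (M.map (algebraMap R F)).mulVec (extL h v) := by
  ext i
  simp [Matrix.mulVec, dotProduct, map_sum]

theorem extL_smul' (c : R) (v : Fin h → R) :
    extL (F := F) h (c • v) = algebraMap R F c • extL h v := by
  ext i
  simp

variable {U : Submodule F (Fin h → F)}

/-- The endomorphism of the saturated lattice induced by a matrix over `R` whose extension of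
scalars `MF` stabilises `U`. -/
noncomputable def latticeEnd (M : Matrix (Fin h) (Fin h) R) (MF : Matrix (Fin h) (Fin h) F)
    (hMF : M.map (algebraMap R F) = MF) (hM : ∀ u ∈ U, Matrix.toLin' MF u ∈ U) :
    Module.End R (lattice (R := R) h U) :=
  (Matrix.toLin' M).restrict (p := lattice h U) (q := lattice h U) (fun v hv => by
    rw [mem_lattice, Matrix.toLin'_apply, extL_mulVec, hMF]
    exact hM _ hv)

@[simp] theorem latticeEnd_coe (M : Matrix (Fin h) (Fin h) R) (MF : Matrix (Fin h) (Fin h) F)
    (hMF : M.map (algebraMap R F) = MF) (hM : ∀ u ∈ U, Matrix.toLin' MF u ∈ U)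
    (v : lattice (R := R) h U) :
    ((latticeEnd M MF hMF hM v : lattice (R := R) h U) : Fin h → R) = M.mulVec v.1 := rfl

/-- Comparison of characteristic polynomials on the lattice and on the subspace. -/
theorem charpoly_latticeEnd [Module.Free R (lattice (R := R) h U)]
    [Module.Finite R (lattice (R := R) h U)] [FiniteDimensional F U]
    {n : ℕ} (b : Module.Basis (Fin n) R (lattice (R := R) h U))
    (hli : LinearIndependent F (fun i => extL (F := F) h (b i).1))
    (hspan : Submodule.span F (Set.range fun i => extL (F := F) h (b i).1) = U)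
    (M : Matrix (Fin h) (Fin h) R) (MF : Matrix (Fin h) (Fin h) F)
    (hMF : M.map (algebraMap R F) = MF) (hM : ∀ u ∈ U, Matrix.toLin' MF u ∈ U) :
    (LinearMap.charpoly (latticeEnd M MF hMF hM)).map (algebraMap R F) =
      LinearMap.charpoly ((Matrix.toLin' MF).restrict hM) := by
  classical
  -- the `F`-basis of `U`
  let w : Fin n → U := fun i => ⟨extL (F := F) h (b i).1, (b i).2⟩
  have hwli : LinearIndependent F w := by
    apply LinearIndependent.of_comp U.subtype
    exact hli
  have hwspan : ⊤ ≤ Submodule.span F (Set.range w) := by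
    intro u _
    have hu : (u : Fin h → F) ∈ Submodule.span F (Set.range fun i => extL (F := F) h (b i).1) := by
      rw [hspan]; exact u.2
    have : Submodule.span F (Set.range fun i => extL (F := F) h (b i).1)
        = (Submodule.span F (Set.range w)).map U.subtype := by
      rw [Submodule.map_span, ← Set.range_comp]
      rfl
    rw [this] at hu
    obtain ⟨u', hu', hu'u⟩ := hu
    have : u' = u := Subtype.ext hu'u
    rwa [← this]
  let B : Module.Basis (Fin n) F U := Module.Basis.mk hwli hwspan
  have hB : ∀ i, B i = w i := fun i => Module.Basis.mk_apply hwli hwspan i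
  set r := latticeEnd M MF hMF hM with hr
  set f := (Matrix.toLin' MF).restrict hM with hf
  have hmat : LinearMap.toMatrix B B f = (LinearMap.toMatrix b b r).map (algebraMap R F) := by
    ext k i
    rw [LinearMap.toMatrix_apply, Matrix.map_apply, LinearMap.toMatrix_apply]
    -- expand `r (b i)` in the basis `b`
    obtain ⟨c, hc⟩ : ∃ c : Fin n → R, ∀ k, c k = b.repr (r (b i)) k := ⟨_, fun _ => rfl⟩
    rw [← hc k]
    have h1 : r (b i) = ∑ k, c k • b k := by
      simp only [hc]
      exact (b.sum_repr (r (b i))).symm
    have h2 : f (B i) = ∑ k, algebraMap R F (c k) • B k := by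
      apply Subtype.ext
      rw [hB]
      have h3 : ((f (w i) : U) : Fin h → F) = extL (F := F) h (r (b i)).1 := by
        show Matrix.toLin' MF (extL (F := F) h (b i).1) = extL (F := F) h (M.mulVec (b i).1)
        rw [extL_mulVec, hMF, Matrix.toLin'_apply]
      rw [h3]
      have h4 : (r (b i)).1 = ∑ k, c k • (b k).1 := by
        have := congrArg (fun x : lattice (R := R) h U => (x : Fin h → R)) h1
        simpa using this
      rw [h4, map_sum]
      simp only [Submodule.coe_sum, Submodule.coe_smul, hB, w, extL_smul']
    rw [h2, map_sum, Finsupp.finsetSum_apply]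
    simp only [map_smul, Module.Basis.repr_self, Finsupp.smul_apply, Finsupp.single_apply,
      smul_eq_mul, mul_ite, mul_one, mul_zero, Finset.sum_ite_eq', Finset.mem_univ, if_true]
  rw [← LinearMap.charpoly_toMatrix r b, ← LinearMap.charpoly_toMatrix f B, hmat,
    Matrix.charpoly_map]

/-- The dimension of `U` is the rank of the lattice. -/
theorem finrank_eq_of_latticeBasis [FiniteDimensional F U]
    {n : ℕ} (b : Module.Basis (Fin n) R (lattice (R := R) h U))
    (hli : LinearIndependent F (fun i => extL (F := F) h (b i).1))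
    (hspan : Submodule.span F (Set.range fun i => extL (F := F) h (b i).1) = U) :
    Module.finrank F U = n := by
  have := finrank_span_eq_card hli
  rw [hspan] at this
  simpa using this

end abstract


section core

/-- The lattice descent over an abstract extension ring `R` of the coefficient ring `𝒪`. -/
theorem descent_core (hX : LatticeBasisSpec) {𝒪 : Type} [CommRing 𝒪] (R F : Type) [CommRing R]
    [IsDomain R] [IsPrincipalIdealRing R] [Field F] [Algebra 𝒪 R] [Algebra R F] [Algebra 𝒪 F]
    [IsScalarTower 𝒪 R F] [FaithfulSMul R F] (hinj : Function.Injective (algebraMap 𝒪 F))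
    {G : Type} [Group G] (h : ℕ) (A : G →* Matrix (Fin h) (Fin h) 𝒪)
    (U : Submodule F (Fin h → F))
    (hU : ∀ g, ∀ u ∈ U, Matrix.toLin' ((A g).map (algebraMap 𝒪 F)) u ∈ U)
    (S : Set (Fin h → R)) (hS : U = Submodule.span F (extL (F := F) h '' S)) :
    ∃ (Λ : Type) (_ : AddCommGroup Λ) (_ : Module R Λ) (_ : Module.Free R Λ)
      (_ : Module.Finite R Λ) (r : G →* Module.End R Λ),
      Module.finrank R Λ = Module.finrank F U ∧
      (∀ g, (LinearMap.charpoly (r g)).map (algebraMap R F) =
        LinearMap.charpoly ((Matrix.toLin' ((A g).map (algebraMap 𝒪 F))).restrict (hU g))) ∧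
      (∀ (c : 𝒪) (g : G) (B : Matrix (Fin h) (Fin h) 𝒪), A g = 1 + c • B →
        ∀ v : Λ, ∃ w : Λ, r g v - v = algebraMap 𝒪 R c • w) := by
  classical
  obtain ⟨n, b, hli, hspan⟩ := hX R F h U S hS
  have hfree : Module.Free R (lattice (R := R) h U) := Module.Free.of_basis b
  have hfin : Module.Finite R (lattice (R := R) h U) := Module.Finite.of_basis b
  let AR : G → Matrix (Fin h) (Fin h) R := fun g => (A g).map (algebraMap 𝒪 R)
  have hAR : ∀ g, (AR g).map (algebraMap R F) = (A g).map (algebraMap 𝒪 F) := by
    intro g
    ext i k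
    simp only [AR, Matrix.map_apply]
    exact (IsScalarTower.algebraMap_apply 𝒪 R F _).symm
  let r : G →* Module.End R (lattice (R := R) h U) :=
    { toFun := fun g => latticeEnd (AR g) _ (hAR g) (hU g)
      map_one' := by
        apply LinearMap.ext
        intro v
        apply Subtype.ext
        rw [latticeEnd_coe]
        simp only [AR, map_one]
        rw [Matrix.map_one _ (map_zero _) (map_one _), Matrix.one_mulVec]
        rfl
      map_mul' := fun g g' => by
        apply LinearMap.ext
        intro v
        apply Subtype.ext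
        rw [Module.End.mul_apply, latticeEnd_coe, latticeEnd_coe, latticeEnd_coe]
        simp only [AR, map_mul]
        rw [Matrix.map_mul, Matrix.mulVec_mulVec] }
  refine ⟨lattice (R := R) h U, inferInstance, inferInstance, hfree, hfin, r, ?_, ?_, ?_⟩
  · rw [Module.finrank_eq_card_basis b, Fintype.card_fin,
      finrank_eq_of_latticeBasis b hli hspan]
  · intro g
    exact charpoly_latticeEnd b hli hspan (AR g) _ (hAR g) (hU g)
  · intro c g B hAg v
    by_cases hc : c = 0
    · refine ⟨0, ?_⟩
      rw [smul_zero, sub_eq_zero]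
      apply Subtype.ext
      show (AR g).mulVec v.1 = v.1
      simp only [AR, hAg, hc, zero_smul, add_zero]
      rw [Matrix.map_one _ (map_zero _) (map_one _), Matrix.one_mulVec]
    · have hcK : algebraMap 𝒪 F c ≠ 0 := (map_ne_zero_iff _ hinj).mpr hc
      let BR : Matrix (Fin h) (Fin h) R := B.map (algebraMap 𝒪 R)
      have hdiff : (AR g).mulVec v.1 - v.1 = algebraMap 𝒪 R c • BR.mulVec v.1 := by
        simp only [AR, hAg]
        rw [Matrix.map_add _ (map_add _), Matrix.map_one _ (map_zero _) (map_one _),
          Matrix.add_mulVec, Matrix.one_mulVec, add_sub_cancel_left]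
        have : (c • B).map (algebraMap 𝒪 R) = algebraMap 𝒪 R c • BR := by
          ext i k
          simp only [BR, Matrix.map_apply, Matrix.smul_apply, smul_eq_mul, map_mul]
        rw [this, Matrix.smul_mulVec]
      have hmem : BR.mulVec v.1 ∈ lattice (R := R) h U := by
        rw [mem_lattice]
        have h1 : extL (F := F) h ((AR g).mulVec v.1 - v.1) ∈ U := by
          rw [map_sub]
          exact U.sub_mem ((r g v).2) v.2
        rw [hdiff, extL_smul', ← IsScalarTower.algebraMap_apply] at h1
        exact (U.smul_mem_iff hcK).mp h1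
      refine ⟨⟨BR.mulVec v.1, hmem⟩, ?_⟩
      apply Subtype.ext
      exact hdiff

end core

section concrete

variable (𝒪' : Type) [CommRing 𝒪'] [IsDomain 𝒪'] [IsDiscreteValuationRing 𝒪']
  [IsAdicComplete (maximalIdeal 𝒪') 𝒪'] [Finite (ResidueField 𝒪')] [CharZero 𝒪']


/-- A finite subextension containing the coordinates of finitely many vectors. -/
theorem exists_field_of_coords {h d : ℕ} (u : Fin d → (Fin h → (AlgebraicClosure (FractionRing 𝒪')))) :
    ∃ L : IntermediateField (FractionRing 𝒪') (AlgebraicClosure (FractionRing 𝒪')), FiniteDimensional (FractionRing 𝒪') L ∧ ∀ k i, u k i ∈ L := by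
  classical
  let C : Set (AlgebraicClosure (FractionRing 𝒪')) := Set.range (fun p : Fin d × Fin h => u p.1 p.2)
  have hC : C.Finite := Set.finite_range _
  refine ⟨IntermediateField.adjoin (FractionRing 𝒪') C, ?_, fun k i =>
    IntermediateField.subset_adjoin (FractionRing 𝒪') C ⟨(k, i), rfl⟩⟩
  have : Finite C := hC.to_subtype
  exact IntermediateField.finiteDimensional_adjoin
    (fun x _ => (Algebra.IsAlgebraic.isAlgebraic (R := FractionRing 𝒪') x).isIntegral)

variable (L : IntermediateField (FractionRing 𝒪') (AlgebraicClosure (FractionRing 𝒪'))) [FiniteDimensional (FractionRing 𝒪') L]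

/-- Clearing the denominators of finitely many elements of `L` simultaneously. -/
theorem exists_common_denominator {ι : Type*} [Fintype ι] (x : ι → L) :
    ∃ a : 𝒪', a ≠ 0 ∧ ∀ i, a • x i ∈ extRing 𝒪' L := by
  classical
  choose a ha0 ha using fun i => exists_smul_mem 𝒪' L (x i)
  refine ⟨∏ i, a i, Finset.prod_ne_zero_iff.mpr fun i _ => ha0 i, fun i => ?_⟩
  rw [← Finset.mul_prod_erase Finset.univ a (Finset.mem_univ i), mul_comm, mul_smul]
  exact Subalgebra.smul_mem _ (ha i) _

end concrete

/-- **Package D-LAT**, given the abstract lattice basis lemma. -/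
theorem latticeDescentSpec_of (hX : LatticeBasisSpec) : LatticeDescentSpec := by
  intro 𝒪' _ _ _ _ _ _ G _ h A U hU
  classical
  -- a basis of `U` and a finite extension containing its coordinates
  let bU : Module.Basis (Fin (Module.finrank (AlgebraicClosure (FractionRing 𝒪')) U))
      (AlgebraicClosure (FractionRing 𝒪')) U :=
    Module.finBasis (AlgebraicClosure (FractionRing 𝒪')) U
  obtain ⟨L, hLfd, hL⟩ := exists_field_of_coords 𝒪'
    (fun k => (bU k : Fin h → AlgebraicClosure (FractionRing 𝒪')))
  have := hLfd
  let x : Fin (Module.finrank (AlgebraicClosure (FractionRing 𝒪')) U) × Fin h → L :=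
    fun p => ⟨(bU p.1 : Fin h → AlgebraicClosure (FractionRing 𝒪')) p.2, hL p.1 p.2⟩
  obtain ⟨a, ha0, ha⟩ := exists_common_denominator 𝒪' L x
  let s : Fin (Module.finrank (AlgebraicClosure (FractionRing 𝒪')) U) → (Fin h → extRing 𝒪' L) :=
    fun k i => ⟨a • x (k, i), ha (k, i)⟩
  have hinj : Function.Injective (algebraMap 𝒪' (AlgebraicClosure (FractionRing 𝒪'))) := by
    intro y z hyz
    rw [← toClosure_algebraMap 𝒪' L, ← toClosure_algebraMap 𝒪' L] at hyz
    exact algebraMap_injective 𝒪' L (toClosure_injective 𝒪' L hyz)
  have haK : algebraMap 𝒪' (AlgebraicClosure (FractionRing 𝒪')) a ≠ 0 :=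
    (map_ne_zero_iff _ hinj).mpr ha0
  have hs : ∀ k, extL (F := AlgebraicClosure (FractionRing 𝒪')) h (s k)
      = algebraMap 𝒪' (AlgebraicClosure (FractionRing 𝒪')) a •
        (bU k : Fin h → AlgebraicClosure (FractionRing 𝒪')) := by
    intro k
    ext i
    show algebraMap L (AlgebraicClosure (FractionRing 𝒪')) (a • x (k, i)) = _
    rw [Algebra.smul_def, map_mul, Pi.smul_apply, smul_eq_mul]
    rfl
  have hspanU : U = Submodule.span (AlgebraicClosure (FractionRing 𝒪'))
      (extL (F := AlgebraicClosure (FractionRing 𝒪')) h '' Set.range s) := by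
    apply le_antisymm
    · have h1 : (Submodule.span (AlgebraicClosure (FractionRing 𝒪')) (Set.range bU)).map U.subtype
          = U := by
        rw [bU.span_eq, Submodule.map_subtype_top]
      calc U = (Submodule.span (AlgebraicClosure (FractionRing 𝒪')) (Set.range bU)).map
            U.subtype := h1.symm
        _ ≤ _ := by
          rw [Submodule.map_span, Submodule.span_le]
          rintro _ ⟨_, ⟨k, rfl⟩, rfl⟩
          have h2 : (bU k : Fin h → AlgebraicClosure (FractionRing 𝒪'))
              = (algebraMap 𝒪' (AlgebraicClosure (FractionRing 𝒪')) a)⁻¹ •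
                extL (F := AlgebraicClosure (FractionRing 𝒪')) h (s k) := by
            rw [hs, smul_smul, inv_mul_cancel₀ haK, one_smul]
          show (bU k : Fin h → AlgebraicClosure (FractionRing 𝒪')) ∈ _
          rw [h2]
          exact Submodule.smul_mem _ _ (Submodule.subset_span ⟨s k, ⟨k, rfl⟩, rfl⟩)
    · rw [Submodule.span_le]
      rintro _ ⟨_, ⟨k, rfl⟩, rfl⟩
      rw [hs]
      exact U.smul_mem _ (bU k).2
  have : IsScalarTower 𝒪' (extRing 𝒪' L) (AlgebraicClosure (FractionRing 𝒪')) :=
    IsScalarTower.of_algebraMap_eq fun y => (toClosure_algebraMap 𝒪' L y).symm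
  obtain ⟨Λ, i1, i2, i3, i4, r, hr1, hr2, hr3⟩ :=
    descent_core hX (extRing 𝒪' L) (AlgebraicClosure (FractionRing 𝒪')) hinj h A U hU
      (Set.range s) hspanU
  exact ⟨extRing 𝒪' L, inferInstance, inferInstance, inferInstance, inferInstance, inferInstance,
    inferInstance, inferInstance, inferInstance, inferInstance, algebraMap_injective 𝒪' L,
    toClosure 𝒪' L, toClosure_injective 𝒪' L, toClosure_algebraMap 𝒪' L,
    Λ, i1, i2, i3, i4, r, hr1, hr2, hr3⟩

end Fermat.Agent.Gateway.Assembly.Lattice

namespace Fermat.Agent.Gateway.Assembly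

/-- **Package D-LAT** (abstract PID lemma `latticeBasisSpec` by helper89). -/
theorem latticeDescentSpec : LatticeDescentSpec :=
  Lattice.latticeDescentSpec_of Lattice.latticeBasisSpec

end Fermat.Agent.Gateway.Assembly
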