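/-
P-GATEWAY (d), S30 block, D-OCC linear-algebra half (helper28; the arithmetic half is helper16's
`Gateway/S30/Occ.lean`).

* `Occurs.exists_mem_span_acts_as_one` : a commutative algebra `B` acting on a finite-dimensional
  space, a finite set `s ⊆ B` without common kernel vector on a stable subspace `W`: some element
  of the ideal generated by `s` acts as the identity on `W`.
* `exists_common_eigenvector_of_relations` : a ring homomorphism `M : T →+* Matrix (Fin h) (Fin h) E`
  and a character `lam : T →+* E` killing all `E`-linear relations between the matrices `M t`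
  have a common eigenvector.
-/
import Mathlib

set_option autoImplicit false

open Polynomial

namespace Fermat.Agent.Gateway.Assembly.Occurs

section CommonKernel

variable {E V B : Type*} [Field E] [AddCommGroup V] [Module E V] [FiniteDimensional E V]
  [CommRing B] [Algebra E B]

omit [FiniteDimensional E V] in
/-- auxiliary: if `q` kills `W ∩ ker n` then `q ^ j` kills `W ∩ ker (n ^ j)`. -/
theorem pow_kills_of_kills (φ : B →ₐ[E] Module.End E V) (W : Submodule E V)
    (hW : ∀ b : B, ∀ w ∈ W, φ b w ∈ W) (n q : B)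
    (hq : ∀ w ∈ W, φ n w = 0 → φ q w = 0) :
    ∀ (j : ℕ), ∀ w ∈ W, φ (n ^ j) w = 0 → φ (q ^ j) w = 0 := by
  intro j
  induction j with
  | zero =>
    intro w _ h
    simpa using h
  | succ j ih =>
    intro w hw h
    have h1 : φ n (φ (n ^ j) w) = 0 := by
      rw [← Module.End.mul_apply, ← map_mul, ← pow_succ']
      exact h
    have h2 : φ q (φ (n ^ j) w) = 0 := hq _ (hW _ _ hw) h1
    have h3 : φ (n ^ j) (φ q w) = 0 := by
      rw [← Module.End.mul_apply, ← map_mul, mul_comm, map_mul, Module.End.mul_apply]
      exact h2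
    have h4 := ih (φ q w) (hW _ _ hw) h3
    rw [pow_succ, map_mul, Module.End.mul_apply]
    exact h4

/-- **Common kernel lemma.** `B` a commutative `E`-algebra acting on a finite-dimensional space
`V`, `s` a finite subset of `B`, `W` a `B`-stable subspace on which the elements of `s` have no
common kernel vector. Then some element `b` of the ideal generated by `s` acts as the identity
on `W`. -/
theorem exists_mem_span_acts_as_one (φ : B →ₐ[E] Module.End E V) (s : Finset B) :
    ∀ (W : Submodule E V), (∀ b : B, ∀ w ∈ W, φ b w ∈ W) →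
      (∀ w ∈ W, (∀ n ∈ s, φ n w = 0) → w = 0) →
      ∃ b ∈ Ideal.span (s : Set B), ∀ w ∈ W, φ b w = w := by
  classical
  induction s using Finset.induction_on with
  | empty =>
    intro W _ h0
    refine ⟨0, Ideal.zero_mem _, fun w hw => ?_⟩
    rw [h0 w hw (by simp)]
    simp
  | insert n s hn ih =>
    intro W hW h0
    -- the subspace `W ∩ ker n`
    set W' : Submodule E V := W ⊓ LinearMap.ker (φ n) with hW'
    have hW's : ∀ b : B, ∀ w ∈ W', φ b w ∈ W' := by
      intro b w hw
      rw [hW', Submodule.mem_inf, LinearMap.mem_ker] at hw ⊢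
      refine ⟨hW b w hw.1, ?_⟩
      rw [← Module.End.mul_apply, ← map_mul, mul_comm, map_mul, Module.End.mul_apply, hw.2,
        map_zero]
    have h0' : ∀ w ∈ W', (∀ m ∈ s, φ m w = 0) → w = 0 := by
      intro w hw hm
      rw [hW', Submodule.mem_inf, LinearMap.mem_ker] at hw
      refine h0 w hw.1 fun m hm' => ?_
      rcases Finset.mem_insert.mp hm' with rfl | hm'
      · exact hw.2
      · exact hm m hm'
    obtain ⟨b', hb', hb'W⟩ := ih W' hW's h0'
    set q : B := 1 - b' with hq
    have hqk : ∀ w ∈ W, φ n w = 0 → φ q w = 0 := by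
      intro w hw hnw
      have : w ∈ W' := by
        rw [hW', Submodule.mem_inf, LinearMap.mem_ker]
        exact ⟨hw, hnw⟩
      rw [hq, map_sub, map_one, LinearMap.sub_apply, Module.End.one_apply, hb'W w this, sub_self]
    -- annihilating polynomial of `φ n`
    set μ : E[X] := (φ n).charpoly with hμ
    have hμ0 : μ ≠ 0 := (LinearMap.charpoly_monic (φ n)).ne_zero
    obtain ⟨g, hg, hgX⟩ := Polynomial.exists_eq_pow_rootMultiplicity_mul_and_not_dvd μ hμ0 0
    set e := Polynomial.rootMultiplicity 0 μ with he
    rw [C_0, sub_zero] at hg hgX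
    have hc : g.coeff 0 ≠ 0 := fun h => hgX (Polynomial.X_dvd_iff.mpr h)
    set c := g.coeff 0 with hcdef
    set u : B := Polynomial.aeval n g with hu
    -- `n ^ e * u` acts as zero
    have hnu : φ (n ^ e * u) = 0 := by
      have h1 : φ (n ^ e * u) = Polynomial.aeval (φ n) (X ^ e * g) := by
        rw [hu, map_mul, map_mul, map_pow, map_pow, Polynomial.aeval_X,
          Polynomial.aeval_algHom_apply]
      rw [h1, ← hg, hμ]
      exact LinearMap.aeval_self_charpoly (φ n)
    have hkill : ∀ w ∈ W, φ (q ^ e * u) w = 0 := by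
      intro w hw
      rw [map_mul, Module.End.mul_apply]
      refine pow_kills_of_kills φ W hW n q hqk e (φ u w) (hW _ _ hw) ?_
      rw [← Module.End.mul_apply, ← map_mul, hnu, LinearMap.zero_apply]
    refine ⟨1 - algebraMap E B c⁻¹ * (q ^ e * u), ?_, fun w hw => ?_⟩
    · -- membership in the ideal: work modulo the ideal
      set I : Ideal B := Ideal.span ((insert n s : Finset B) : Set B) with hI
      have hnI : n ∈ I := Ideal.subset_span (by simp)
      have hb'I : b' ∈ I := Ideal.span_mono (by simp) hb'
      rw [← Ideal.Quotient.eq_zero_iff_mem]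
      have hqI : Ideal.Quotient.mk I q = 1 := by
        rw [hq, map_sub, map_one, Ideal.Quotient.eq_zero_iff_mem.mpr hb'I, sub_zero]
      have huI : Ideal.Quotient.mk I u = Ideal.Quotient.mk I (algebraMap E B c) := by
        have hgdecomp : g = g.divX * X + C c := (Polynomial.divX_mul_X_add g).symm
        rw [hu, hgdecomp, map_add, map_mul, Polynomial.aeval_X, Polynomial.aeval_C, map_add,
          map_mul, Ideal.Quotient.eq_zero_iff_mem.mpr hnI, mul_zero, zero_add]
      rw [map_sub, map_one, map_mul, map_mul, map_pow, hqI, one_pow, one_mul, huI, ← map_mul,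
        ← map_mul, inv_mul_cancel₀ hc, map_one, map_one, sub_self]
    · rw [map_sub, map_one, LinearMap.sub_apply, Module.End.one_apply, map_mul,
        Module.End.mul_apply, hkill w hw, map_zero, sub_zero]

end CommonKernel

end Fermat.Agent.Gateway.Assembly.Occurs

namespace Fermat.Agent.Gateway.Assembly

open Occurs

/-- **D-OCC, linear-algebra half.** If the character `lam` of `T` kills every `E`-linear relation
between the matrices `M t`, it occurs in `E ^ h`: there is a common eigenvector. -/
theorem exists_common_eigenvector_of_relations {E : Type*} [Field E] {T : Type*} [CommRing T]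
    {h : ℕ} (M : T →+* Matrix (Fin h) (Fin h) E) (lam : T →+* E)
    (hrel : ∀ c : T →₀ E, (c.sum fun t e => e • M t) = 0 → (c.sum fun t e => e * lam t) = 0) :
    ∃ v : Fin h → E, v ≠ 0 ∧ ∀ t, (M t).mulVec v = lam t • v := by
  classical
  by_contra hcon
  -- the commutative `E`-algebra `B = E[T]` (monoid algebra of the multiplicative monoid of `T`)
  let MM : T →* Matrix (Fin h) (Fin h) E := (M : T →* Matrix (Fin h) (Fin h) E)
  let Φ : MonoidAlgebra E T →ₐ[E] Matrix (Fin h) (Fin h) E := MonoidAlgebra.lift E _ T MM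
  let Λ : MonoidAlgebra E T →ₐ[E] E := MonoidAlgebra.lift E _ T (lam : T →* E)
  let φ : MonoidAlgebra E T →ₐ[E] Module.End E (Fin h → E) :=
    (Matrix.toLinAlgEquiv' : Matrix (Fin h) (Fin h) E ≃ₐ[E] Module.End E (Fin h → E)).toAlgHom.comp Φ
  have hΦ : ∀ c : MonoidAlgebra E T, Φ c = c.coeff.sum fun t e => e • M t := fun c =>
    MonoidAlgebra.lift_apply _ _
  have hΛ : ∀ c : MonoidAlgebra E T, Λ c = c.coeff.sum fun t e => e * lam t := fun c => by
    rw [MonoidAlgebra.lift_apply]
    rfl
  have hker : ∀ c : MonoidAlgebra E T, Φ c = 0 → Λ c = 0 := fun c hc => by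
    rw [hΛ]
    exact hrel c.coeff (by rw [← hΦ]; exact hc)
  have hφ : ∀ (c : MonoidAlgebra E T) (w : Fin h → E), φ c w = (Φ c).mulVec w := fun c w => rfl
  -- the elements `n_t = [t] - lam t`
  let nn : T → MonoidAlgebra E T := fun t =>
    MonoidAlgebra.of E T t - algebraMap E (MonoidAlgebra E T) (lam t)
  have hΦn : ∀ t, Φ (nn t) = M t - lam t • (1 : Matrix (Fin h) (Fin h) E) := fun t => by
    have h1 : Φ (MonoidAlgebra.of E T t) = M t := by simp [Φ, MM]
    simp only [nn, map_sub, h1]
    rw [AlgHom.commutes, Algebra.algebraMap_eq_smul_one]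
  have hΛn : ∀ t, Λ (nn t) = 0 := fun t => by
    simp only [nn, map_sub, AlgHom.commutes]
    simp [Λ]
  have hnw : ∀ (t : T) (w : Fin h → E), φ (nn t) w = 0 ↔ (M t).mulVec w = lam t • w := by
    intro t w
    rw [hφ, hΦn, Matrix.sub_mulVec, Matrix.smul_mulVec, Matrix.one_mulVec, sub_eq_zero]
  -- a finite set of `t`'s with the same common kernel
  let Kf : Finset T → Submodule E (Fin h → E) := fun F => ⨅ t ∈ F, LinearMap.ker (φ (nn t))
  obtain ⟨K, ⟨F0, rfl⟩, hmin⟩ := wellFounded_lt.has_min (Set.range Kf) ⟨_, ⟨∅, rfl⟩⟩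
  have hF0 : ∀ t, Kf F0 ≤ LinearMap.ker (φ (nn t)) := by
    intro t
    have h1 : Kf (insert t F0) ≤ Kf F0 := by
      simp only [Kf]
      rw [Finset.iInf_insert]
      exact inf_le_right
    have h2 : ¬ Kf (insert t F0) < Kf F0 := hmin _ ⟨insert t F0, rfl⟩
    have h3 : Kf (insert t F0) = Kf F0 := eq_of_le_of_not_lt h1 h2
    rw [← h3]
    simp only [Kf]
    rw [Finset.iInf_insert]
    exact inf_le_left
  -- apply the common kernel lemma
  obtain ⟨b, hb, hbW⟩ := exists_mem_span_acts_as_one φ (F0.image nn) ⊤ (fun _ _ _ => trivial)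
    (by
      intro w _ hw
      by_contra hw0
      apply hcon
      refine ⟨w, hw0, fun t => ?_⟩
      rw [← hnw]
      have hwK : w ∈ Kf F0 := by
        simp only [Kf, Submodule.mem_iInf, LinearMap.mem_ker]
        intro t' ht'
        exact hw _ (Finset.mem_image_of_mem nn ht')
      exact LinearMap.mem_ker.mp (hF0 t hwK))
  -- `1 - b` acts as zero, hence `Λ (1 - b) = 0`
  have h1b : Φ (1 - b) = 0 := by
    have : φ (1 - b) = 0 := by
      refine LinearMap.ext fun w => ?_
      rw [map_sub, map_one, LinearMap.sub_apply, Module.End.one_apply, hbW w trivial, sub_self,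
        LinearMap.zero_apply]
    exact (Matrix.toLinAlgEquiv' : Matrix (Fin h) (Fin h) E ≃ₐ[E] _).injective
      (by rw [map_zero]; exact this)
  have hΛ1b := hker _ h1b
  -- but `Λ b = 0`
  have hΛb : Λ b = 0 := by
    have hle : Ideal.span ((F0.image nn : Finset (MonoidAlgebra E T)) : Set (MonoidAlgebra E T)) ≤
        RingHom.ker (Λ : MonoidAlgebra E T →+* E) := by
      rw [Ideal.span_le]
      intro x hx
      rw [Finset.coe_image] at hx
      obtain ⟨t, -, rfl⟩ := hx
      exact hΛn t
    exact hle hb
  rw [map_sub, map_one, hΛb, sub_zero] at hΛ1b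
  exact one_ne_zero hΛ1b

end Fermat.Agent.Gateway.Assembly
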