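/-
P-GATEWAY (d), S30 block, package D-OCC (helper16): every system of eigenvalues of the Hecke
algebra occurs in the Tate module (`OccursSpec`).

Arithmetic half (this file):
* the Hecke algebra is `ℤ`-free of finite rank (finite + torsion-free), with basis `s_k`;
* `p`-adic faithfulness makes the matrices `hecke (s_k)` linearly independent over `ℤ_[p]`;
* linear independence survives the extension of scalars `ℤ_[p] → E` (fraction field, then
  `ℚ_[p]`-linear functionals on `E`);
* hence every `E`-linear relation between the matrices `(hecke t).map ι` is killed by `lam`.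
The linear algebra half (existence of a common eigenvector from that property) is
`exists_common_eigenvector_of_relations` (helper28, `Gateway/S30/Occurs.lean`).
Final result: `occursSpec`.
-/
import Mathlib
import Fermat.Agent.Gateway.S30.Specs
import Fermat.Agent.Gateway.S30.Occurs

set_option autoImplicit false

namespace Fermat.Agent.Gateway.Assembly

namespace Occ

open Matrix

/-- Linear independence of a finite family of matrices survives a field extension. -/
theorem linearIndependent_map_algebraMap {K E : Type*} [Field K] [Field E] [Algebra K E]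
    {κ m n : Type*} [Fintype κ] (w : κ → Matrix m n K) (hw : LinearIndependent K w) :
    LinearIndependent E (fun k => (w k).map (algebraMap K E)) := by
  rw [Fintype.linearIndependent_iff] at hw ⊢
  intro g hg k
  rw [← Module.forall_dual_apply_eq_zero_iff K]
  intro f
  refine hw (fun k => f (g k)) ?_ k
  ext x y
  have hx := congrFun (congrFun hg x) y
  simp only [Matrix.sum_apply, Matrix.smul_apply, Matrix.map_apply, smul_eq_mul,
    Matrix.zero_apply] at hx ⊢
  have h0 : f (∑ k, g k * algebraMap K E (w k x y)) = 0 := by rw [hx, map_zero]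
  rw [map_sum] at h0
  rw [← h0]
  refine Finset.sum_congr rfl fun k _ => ?_
  rw [mul_comm (g k), ← Algebra.smul_def, map_smul, smul_eq_mul, mul_comm]

/-- A ring homomorphism from `ℤ_[p]` to a field of characteristic zero is injective. -/
theorem padicInt_ringHom_injective {p : ℕ} [Fact p.Prime] {E : Type*} [Field E] [CharZero E]
    (ι : ℤ_[p] →+* E) : Function.Injective ι := by
  rw [injective_iff_map_eq_zero]
  intro x hx
  by_contra hx0
  have h1 := PadicInt.unitCoeff_spec hx0
  rw [h1, map_mul, map_pow, map_natCast] at hx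
  have hp : (p : E) ≠ 0 := Nat.cast_ne_zero.mpr (Fact.out : p.Prime).ne_zero
  have hu : ι ((PadicInt.unitCoeff hx0 : ℤ_[p]ˣ) : ℤ_[p]) ≠ 0 :=
    ((PadicInt.unitCoeff hx0).isUnit.map ι).ne_zero
  exact mul_ne_zero hu (pow_ne_zero _ hp) hx

/-- Linear independence over `ℤ_[p]` of a finite family of matrices survives the extension of
scalars to any field of characteristic zero. -/
theorem linearIndependent_map_padicInt {p : ℕ} [Fact p.Prime] {E : Type*} [Field E] [CharZero E]
    (ι : ℤ_[p] →+* E) {κ m n : Type*} [Fintype κ] (w : κ → Matrix m n ℤ_[p])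
    (hw : LinearIndependent ℤ_[p] w) : LinearIndependent E (fun k => (w k).map ι) := by
  have hι := padicInt_ringHom_injective ι
  let ι' : ℚ_[p] →+* E := IsFractionRing.lift hι
  let _ : Algebra ℚ_[p] E := ι'.toAlgebra
  have h1 : LinearIndependent ℤ_[p] (fun k => (w k).map (algebraMap ℤ_[p] ℚ_[p])) := by
    rw [Fintype.linearIndependent_iff] at hw ⊢
    intro g hg k
    refine hw g ?_ k
    ext x y
    have hx := congrFun (congrFun hg x) y
    simp only [Matrix.sum_apply, Matrix.smul_apply, Matrix.map_apply, Matrix.zero_apply] at hx ⊢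
    apply IsFractionRing.injective ℤ_[p] ℚ_[p]
    rw [map_sum, map_zero, ← hx]
    refine Finset.sum_congr rfl fun k _ => ?_
    rw [smul_eq_mul, map_mul, Algebra.smul_def]
  have h2 : LinearIndependent ℚ_[p] (fun k => (w k).map (algebraMap ℤ_[p] ℚ_[p])) :=
    (LinearIndependent.iff_fractionRing ℤ_[p] ℚ_[p]).1 h1
  have h3 := linearIndependent_map_algebraMap (E := E) _ h2
  convert h3 using 2 with k
  ext x y
  simp only [Matrix.map_apply]
  exact (IsFractionRing.lift_algebraMap hι (w k x y)).symm

/-- An element of `ℤ_[p]` divisible by all powers of `p` is zero. -/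
theorem padicInt_eq_zero_of_forall_pow_dvd {p : ℕ} [Fact p.Prime] (z : ℤ_[p])
    (hz : ∀ n : ℕ, (p : ℤ_[p]) ^ n ∣ z) : z = 0 := by
  by_contra hz0
  have hp : ¬ IsUnit (p : ℤ_[p]) := PadicInt.p_nonunit
  obtain ⟨n, hn⟩ := FiniteMultiplicity.of_not_isUnit hp hz0
  exact hn (hz (n + 1))

variable {p : ℕ} [Fact p.Prime] {N : ℕ} [NeZero N] {S : Finset ℕ}

/-- `p`-adic faithfulness: the Hecke matrices of a `ℤ`-basis of the Hecke algebra are linearly
independent over `ℤ_[p]`. -/
theorem linearIndependent_hecke_basis (D : TateMatrixData p N S) {κ : Type*} [Fintype κ]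
    (s : Module.Basis κ ℤ (CuspForm.heckeAlgebra N 2 (↑S : Set ℕ))) :
    LinearIndependent ℤ_[p] (fun k => D.hecke (s k)) := by
  classical
  obtain ⟨c0, hc0⟩ := D.faithful
  rw [Fintype.linearIndependent_iff]
  intro z hz k
  apply padicInt_eq_zero_of_forall_pow_dvd
  intro n
  have hb : ∀ j, ∃ b : ℤ_[p], z j - ((z j).appr (n + c0) : ℤ_[p]) = (p : ℤ_[p]) ^ (n + c0) * b := by
    intro j
    have h := PadicInt.appr_spec (n + c0) (z j)
    rw [Ideal.mem_span_singleton'] at h
    obtain ⟨b, hb⟩ := h
    exact ⟨b, by rw [← hb, mul_comm]⟩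
  choose b hb using hb
  set y : CuspForm.heckeAlgebra N 2 (↑S : Set ℕ) :=
    ∑ j, (((z j).appr (n + c0) : ℕ) : ℤ) • s j with hy
  have hheck : D.hecke y = (p : ℤ_[p]) ^ (n + c0) • (- ∑ j, b j • D.hecke (s j)) := by
    have h1 : D.hecke y = ∑ j, (((z j).appr (n + c0) : ℕ) : ℤ_[p]) • D.hecke (s j) := by
      rw [hy, map_sum]
      refine Finset.sum_congr rfl fun j _ => ?_
      rw [map_zsmul, ← Int.cast_smul_eq_zsmul ℤ_[p], Int.cast_natCast]
    have h2 : ∀ j, (((z j).appr (n + c0) : ℕ) : ℤ_[p]) = z j - (p : ℤ_[p]) ^ (n + c0) * b j := by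
      intro j
      rw [← hb j]; ring
    rw [h1]
    simp_rw [h2, sub_smul, Finset.sum_sub_distrib, hz, zero_sub, mul_smul, ← Finset.smul_sum,
      smul_neg]
  obtain ⟨y', hy'⟩ := hc0 y n ⟨_, hheck⟩
  have hrepr : s.repr y k = (p : ℤ) ^ n * s.repr y' k := by
    rw [hy', map_zsmul]
    simp
  have hrepr' : s.repr y k = (((z k).appr (n + c0) : ℕ) : ℤ) := by
    rw [hy]
    exact congrFun (s.repr_sum_self fun j => (((z j).appr (n + c0) : ℕ) : ℤ)) k
  have hzk : z k = (p : ℤ_[p]) ^ n * (((s.repr y' k : ℤ) : ℤ_[p]) + (p : ℤ_[p]) ^ c0 * b k) := by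
    have h3 : z k = (((z k).appr (n + c0) : ℕ) : ℤ_[p]) + (p : ℤ_[p]) ^ (n + c0) * b k := by
      rw [← hb k]; ring
    have h4 : (((z k).appr (n + c0) : ℕ) : ℤ_[p]) = (p : ℤ_[p]) ^ n * ((s.repr y' k : ℤ) : ℤ_[p]) := by
      have := congrArg (Int.cast : ℤ → ℤ_[p]) (hrepr'.symm.trans hrepr)
      push_cast at this
      exact this
    rw [h3, h4, pow_add]; ring
  exact ⟨_, hzk⟩

/-- Abstract form: if the images `M (s k)` of a `ℤ`-basis are linearly independent over `E`,
every `E`-linear relation between the `M t` is killed by `lam`. -/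
theorem relations_of_linearIndependent {T E V : Type*} [CommRing T] [Field E]
    [AddCommGroup V] [Module E V] {κ : Type*} [Fintype κ] (s : Module.Basis κ ℤ T)
    (M : T →+ V) (lam : T →+ E) (hli : LinearIndependent E (fun k => M (s k)))
    (c : T →₀ E) (hc : (c.sum fun t e => e • M t) = 0) : (c.sum fun t e => e * lam t) = 0 := by
  classical
  -- the coordinate map
  let R : (T →₀ E) →ₗ[E] (κ → E) :=
    Finsupp.linearCombination E (fun t : T => fun k => ((s.repr t k : ℤ) : E))
  have hM : ∀ t : T, M t = ∑ k, ((s.repr t k : ℤ) : E) • M (s k) := by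
    intro t
    conv_lhs => rw [← s.sum_repr t]
    rw [map_sum]
    refine Finset.sum_congr rfl fun k _ => ?_
    rw [map_zsmul, Int.cast_smul_eq_zsmul]
  have hlam : ∀ t : T, lam t = ∑ k, ((s.repr t k : ℤ) : E) * lam (s k) := by
    intro t
    conv_lhs => rw [← s.sum_repr t]
    rw [map_sum]
    refine Finset.sum_congr rfl fun k _ => ?_
    rw [map_zsmul, zsmul_eq_mul]
  have h1 : (c.sum fun t e => e • M t) = ∑ k, R c k • M (s k) := by
    have : ∀ c : T →₀ E, (Finsupp.linearCombination E (fun t : T => M t)) c =
        (Fintype.linearCombination E (fun k => M (s k))) (R c) := by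
      intro c
      rw [← LinearMap.comp_apply]
      congr 1
      apply Finsupp.lhom_ext
      intro t e
      simp only [Finsupp.linearCombination_single, LinearMap.comp_apply, R,
        Fintype.linearCombination_apply, Pi.smul_apply, smul_eq_mul]
      rw [hM t, Finset.smul_sum]
      refine Finset.sum_congr rfl fun k _ => ?_
      rw [mul_smul]
    have h := this c
    rw [Finsupp.linearCombination_apply, Fintype.linearCombination_apply] at h
    exact h
  have h2 : (c.sum fun t e => e * lam t) = ∑ k, R c k * lam (s k) := by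
    have : ∀ c : T →₀ E, (Finsupp.linearCombination E (fun t : T => lam t)) c =
        (Fintype.linearCombination E (fun k => lam (s k))) (R c) := by
      intro c
      rw [← LinearMap.comp_apply]
      congr 1
      apply Finsupp.lhom_ext
      intro t e
      simp only [Finsupp.linearCombination_single, LinearMap.comp_apply, R,
        Fintype.linearCombination_apply, Pi.smul_apply, smul_eq_mul]
      rw [hlam t, Finset.mul_sum]
      refine Finset.sum_congr rfl fun k _ => ?_
      rw [mul_assoc]
    have h := this c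
    rw [Finsupp.linearCombination_apply, Fintype.linearCombination_apply] at h
    simpa only [smul_eq_mul] using h
  rw [h1] at hc
  have h3 := (Fintype.linearIndependent_iff.1 hli) (R c) hc
  rw [h2]
  exact Finset.sum_eq_zero fun k _ => by rw [h3 k, zero_mul]

/-- Every `E`-linear relation between the Hecke matrices (extended to `E`) is killed by any
system of eigenvalues `lam`. -/
theorem hecke_relations (hfin : Module.Finite ℤ (CuspForm.heckeAlgebra N 2 (↑S : Set ℕ)))
    (D : TateMatrixData p N S) {E : Type*} [Field E] [CharZero E] (ι : ℤ_[p] →+* E)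
    (lam : CuspForm.heckeAlgebra N 2 (↑S : Set ℕ) →+* E)
    (c : CuspForm.heckeAlgebra N 2 (↑S : Set ℕ) →₀ E)
    (hc : (c.sum fun t e => e • ((RingHom.mapMatrix ι).comp D.hecke) t) = 0) :
    (c.sum fun t e => e * lam t) = 0 := by
  have s := Module.Free.chooseBasis ℤ (CuspForm.heckeAlgebra N 2 (↑S : Set ℕ))
  have hli0 := linearIndependent_hecke_basis D s
  have hli := linearIndependent_map_padicInt ι _ hli0
  set M : CuspForm.heckeAlgebra N 2 (↑S : Set ℕ) →+ Matrix (Fin D.h) (Fin D.h) E :=
    ((RingHom.mapMatrix ι).comp D.hecke).toAddMonoidHom with hM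
  have hli' : LinearIndependent E (fun k => M (s k)) := hli
  have hc' : (c.sum fun t e => e • M t) = 0 := hc
  exact relations_of_linearIndependent s M lam.toAddMonoidHom hli' c hc'

end Occ

/-- **D-OCC**: every system of eigenvalues of the Hecke algebra (with values in any field of
characteristic zero receiving `ℤ_[p]`) occurs in the Tate module. -/
theorem occursSpec {p : ℕ} [Fact p.Prime] {N : ℕ} [NeZero N] {S : Finset ℕ}
    (hfin : Module.Finite ℤ (CuspForm.heckeAlgebra N 2 (↑S : Set ℕ)))
    (D : TateMatrixData p N S) : OccursSpec p N S D := by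
  intro E _ _ ι lam
  obtain ⟨v, hv, hev⟩ := exists_common_eigenvector_of_relations
    ((RingHom.mapMatrix ι).comp D.hecke) lam
    (fun c hc => Occ.hecke_relations hfin D ι lam c hc)
  exact ⟨v, hv, fun t => hev t⟩

end Fermat.Agent.Gateway.Assembly
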