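import Mathlib
import Fermat.Agent.Gateway.S30.Specs
import Fermat.Agent.Gateway.S31.Dickson
import Fermat.Agent.Lib.FrobDensity.QbarDefs

/-!
# D-QUAD: the quadratic relation for every element of the Galois group

For Tate module data `D` in coordinates, every `g` in the absolute Galois group satisfies
`gal g ^ 2 - y * gal g + cyclo g = 0` for some `y` in the `ℤ_p`-span of the Hecke matrices
(`quadSpec`). Proof: modulo `p ^ n`, `g` is a power of a Frobenius lift (Frobenius density), for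
which the relation is the Eichler-Shimura relation and the Dickson recursion; so
`s = gal g + cyclo g • gal g⁻¹` lies in `span + p ^ n M_h(ℤ_p)` for all `n`, hence in the span by
Krull's intersection theorem.
-/

set_option autoImplicit false

namespace Fermat.Agent.Gateway.Assembly

open IsLocalRing Fermat.Agent.Gateway.S31Red

section Krull

variable {R M : Type*} [CommRing R] [IsLocalRing R] [IsNoetherianRing R] [AddCommGroup M]
  [Module R M] [Module.Finite R M]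

/-- Submodules of finitely generated modules over Noetherian local rings are closed. -/
lemma mem_of_forall_exists_eq_add_pow_smul (W : Submodule R M) (s : M) (π : R)
    (hπ : π ∈ maximalIdeal R) (h : ∀ n : ℕ, ∃ y ∈ W, ∃ b : M, s = y + π ^ n • b) : s ∈ W := by
  have hbot := Ideal.iInf_pow_smul_eq_bot_of_isLocalRing (M := M ⧸ W) (maximalIdeal R)
    (Ideal.IsMaximal.ne_top inferInstance)
  have hmem : W.mkQ s ∈ (⨅ i : ℕ, maximalIdeal R ^ i • ⊤ : Submodule R (M ⧸ W)) := by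
    rw [Submodule.mem_iInf]
    intro n
    obtain ⟨y, hy, b, hb⟩ := h n
    have hy0 : W.mkQ y = 0 := by
      rw [Submodule.mkQ_apply]
      exact (Submodule.Quotient.mk_eq_zero W).mpr hy
    have : W.mkQ s = π ^ n • W.mkQ b := by
      rw [hb, map_add, map_smul, hy0, zero_add]
    rw [this]
    exact Submodule.smul_mem_smul (Ideal.pow_mem_pow hπ n) Submodule.mem_top
  rw [hbot, Submodule.mem_bot, Submodule.mkQ_apply] at hmem
  exact (Submodule.Quotient.mk_eq_zero W).mp hmem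

end Krull

variable {p : ℕ} [Fact p.Prime] {N : ℕ} [NeZero N] {S : Finset ℕ}

/-- Matrices divisible by `p ^ n`. -/
def pPowMat (p : ℕ) [Fact p.Prime] (h n : ℕ) : Submodule ℤ_[p] (Matrix (Fin h) (Fin h) ℤ_[p]) where
  carrier := {x | ∃ B : Matrix (Fin h) (Fin h) ℤ_[p], x = (p : ℤ_[p]) ^ n • B}
  zero_mem' := ⟨0, by simp⟩
  add_mem' := by
    rintro _ _ ⟨B, rfl⟩ ⟨B', rfl⟩
    exact ⟨B + B', by rw [smul_add]⟩
  smul_mem' := by
    rintro c _ ⟨B, rfl⟩
    exact ⟨c • B, by rw [smul_comm]⟩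

lemma mem_pPowMat {h n : ℕ} {x : Matrix (Fin h) (Fin h) ℤ_[p]} :
    x ∈ pPowMat p h n ↔ ∃ B : Matrix (Fin h) (Fin h) ℤ_[p], x = (p : ℤ_[p]) ^ n • B := Iff.rfl

lemma mul_mem_pPowMat_left {h n : ℕ} (a : Matrix (Fin h) (Fin h) ℤ_[p])
    {x : Matrix (Fin h) (Fin h) ℤ_[p]} (hx : x ∈ pPowMat p h n) : a * x ∈ pPowMat p h n := by
  obtain ⟨B, rfl⟩ := hx
  exact ⟨a * B, by rw [mul_smul_comm]⟩

lemma mul_mem_pPowMat_right {h n : ℕ} (a : Matrix (Fin h) (Fin h) ℤ_[p])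
    {x : Matrix (Fin h) (Fin h) ℤ_[p]} (hx : x ∈ pPowMat p h n) : x * a ∈ pPowMat p h n := by
  obtain ⟨B, rfl⟩ := hx
  exact ⟨B * a, by rw [smul_mul_assoc]⟩

lemma smul_mem_pPowMat_of_scalar {h n : ℕ} {c : ℤ_[p]} (hc : ∃ b : ℤ_[p], c = (p : ℤ_[p]) ^ n * b)
    (x : Matrix (Fin h) (Fin h) ℤ_[p]) : c • x ∈ pPowMat p h n := by
  obtain ⟨b, rfl⟩ := hc
  exact ⟨b • x, by rw [mul_smul]⟩

/-- **D-QUAD.** -/
theorem quadSpec (hF : Fermat.Agent.Lib.FrobDensity.FrobPowerDense) (hC : CycloSpec p)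
    (D : TateMatrixData p N S) : QuadSpec p N S D := by
  classical
  intro g
  have hp : p.Prime := Fact.out
  set G : Matrix (Fin D.h) (Fin D.h) ℤ_[p] := D.gal g with hG
  set G' : Matrix (Fin D.h) (Fin D.h) ℤ_[p] := D.gal g⁻¹ with hG'
  have hG'G : G' * G = 1 := by rw [hG, hG', ← map_mul, inv_mul_cancel, map_one]
  set c : ℤ_[p] := ((cyclo p g : ℤ_[p]ˣ) : ℤ_[p]) with hc
  set s : Matrix (Fin D.h) (Fin D.h) ℤ_[p] := G + c • G' with hs
  have hsmem : s ∈ Submodule.span ℤ_[p] (Set.range D.hecke) := by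
    have hpmax : (p : ℤ_[p]) ∈ maximalIdeal ℤ_[p] := by
      rw [PadicInt.maximalIdeal_eq_span_p]
      exact Ideal.subset_span rfl
    refine mem_of_forall_exists_eq_add_pow_smul _ s (p : ℤ_[p]) hpmax fun n => ?_
    obtain ⟨L1, hL1fd, hL1⟩ := D.gal_level n
    obtain ⟨L2, hL2fd, hL2⟩ := hC.1 n
    have := hL1fd
    have := hL2fd
    obtain ⟨ℓ, hℓ, hℓbad, A, hA, σ, hσ, k, hk⟩ :=
      hF (L1 ⊔ L2) inferInstance g (S ∪ N.primeFactors ∪ {p})
    have hℓS : ℓ ∉ (↑S : Set ℕ) := fun h => hℓbad (by simp [Finset.mem_coe.mp h])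
    have hℓN : ¬ ℓ ∣ N := fun h =>
      hℓbad (by simp [Nat.mem_primeFactors, hℓ, h, NeZero.ne N])
    have hℓp : ℓ ≠ p := fun h => hℓbad (by simp [h])
    -- `τ = (σ ^ k)⁻¹ * g` fixes the two fields
    set τ : GQ := (σ ^ k)⁻¹ * g with hτ
    have hg : g = σ ^ k * τ := by rw [hτ, mul_inv_cancel_left]
    have hg' : g⁻¹ = τ⁻¹ * (σ⁻¹) ^ k := by rw [hg, mul_inv_rev, inv_pow]
    have hfix : ∀ x ∈ L1 ⊔ L2, τ x = x := by
      intro x hx
      rw [hτ, AlgEquiv.mul_apply, ← hk x hx]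
      show (σ ^ k)⁻¹ ((σ ^ k) x) = x
      rw [← AlgEquiv.mul_apply, inv_mul_cancel, AlgEquiv.one_apply]
    have hfix' : ∀ x ∈ L1 ⊔ L2, τ⁻¹ x = x := by
      intro x hx
      have h1 := hfix x hx
      calc τ⁻¹ x = τ⁻¹ (τ x) := by rw [h1]
        _ = x := by rw [← AlgEquiv.mul_apply, inv_mul_cancel, AlgEquiv.one_apply]
    have hL1le : L1 ≤ L1 ⊔ L2 := le_sup_left
    have hL2le : L2 ≤ L1 ⊔ L2 := le_sup_right
    obtain ⟨B1, hB1⟩ := hL1 τ fun x hx => hfix x (hL1le hx)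
    obtain ⟨B2, hB2⟩ := hL1 τ⁻¹ fun x hx => hfix' x (hL1le hx)
    obtain ⟨b, hb⟩ := hL2 τ fun x hx => hfix x (hL2le hx)
    -- the Frobenius lift
    set Tℓ : CuspForm.heckeAlgebra N 2 (↑S : Set ℕ) := CuspForm.heckeAlgebra.T hℓ hℓN hℓS with hTℓ
    set a := D.gal σ with ha
    set a' := D.gal σ⁻¹ with ha'
    have haa' : a * a' = 1 := by rw [ha, ha', ← map_mul, mul_inv_cancel, map_one]
    have ha'a : a' * a = 1 := by rw [ha, ha', ← map_mul, inv_mul_cancel, map_one]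
    set d : Matrix (Fin D.h) (Fin D.h) ℤ_[p] := (ℓ : Matrix (Fin D.h) (Fin D.h) ℤ_[p]) with hd
    have hES := D.eichlerShimura ℓ hℓ hℓN hℓS A hA σ hσ
    have ht : D.hecke Tℓ = a + d * a' := by
      have h1 : (a * a - D.hecke Tℓ * a + d) * a' = 0 := by rw [hES, zero_mul]
      have h2 : (a * a - D.hecke Tℓ * a + d) * a' = a - D.hecke Tℓ + d * a' := by
        rw [add_mul, sub_mul, mul_assoc, haa', mul_one, mul_assoc, haa', mul_one]
      rw [h2, sub_add_eq_add_sub, sub_eq_zero] at h1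
      exact h1.symm
    have hdick := dick_eq_pow_add haa' ha'a (Nat.cast_commute ℓ a) (Nat.cast_commute ℓ a') ht k
    set y : Matrix (Fin D.h) (Fin D.h) ℤ_[p] :=
      D.hecke (dick Tℓ (ℓ : CuspForm.heckeAlgebra N 2 (↑S : Set ℕ)) k) with hy
    have hy' : y = a ^ k + ((ℓ : ℤ_[p]) ^ k) • a' ^ k := by
      rw [hy, map_dick, map_natCast, hdick, ← Nat.cast_pow, ← nsmul_eq_mul, ← Nat.cast_pow,
        Nat.cast_smul_eq_nsmul]
    -- congruences
    have hGX : G - a ^ k ∈ pPowMat p D.h n := by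
      have : G - a ^ k = a ^ k * ((p : ℤ_[p]) ^ n • B1) := by
        rw [hG, hg, map_mul, map_pow, hB1, mul_add, mul_one, add_sub_cancel_left]
      rw [this]
      exact mul_mem_pPowMat_left _ ⟨B1, rfl⟩
    have hG'X : G' - a' ^ k ∈ pPowMat p D.h n := by
      have : G' - a' ^ k = ((p : ℤ_[p]) ^ n • B2) * a' ^ k := by
        rw [hG', hg', map_mul, map_pow, hB2, add_mul, one_mul, add_sub_cancel_left]
      rw [this]
      exact mul_mem_pPowMat_right _ ⟨B2, rfl⟩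
    have hcℓ : ∃ b' : ℤ_[p], c - (ℓ : ℤ_[p]) ^ k = (p : ℤ_[p]) ^ n * b' := by
      refine ⟨(ℓ : ℤ_[p]) ^ k * b, ?_⟩
      rw [hc, hg, map_mul, map_pow, Units.val_mul, Units.val_pow_eq_pow_val,
        hC.2.1 ℓ hℓ hℓp A hA σ hσ, hb]
      ring
    have hsy : s - y ∈ pPowMat p D.h n := by
      have : s - y = (G - a ^ k) + c • (G' - a' ^ k) + (c - (ℓ : ℤ_[p]) ^ k) • a' ^ k := by
        rw [hs, hy']
        module
      rw [this]
      exact Submodule.add_mem _ (Submodule.add_mem _ hGX (Submodule.smul_mem _ c hG'X))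
        (smul_mem_pPowMat_of_scalar hcℓ _)
    obtain ⟨B, hB⟩ := hsy
    exact ⟨y, Submodule.subset_span ⟨_, rfl⟩, B, by rw [← hB]; abel⟩
  refine ⟨s, hsmem, ?_⟩
  have : s * G = G * G + c • (1 : Matrix (Fin D.h) (Fin D.h) ℤ_[p]) := by
    rw [hs, add_mul, smul_mul_assoc, hG'G]
  rw [this]
  abel

end Fermat.Agent.Gateway.Assembly
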