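/-
P-GATEWAY (d), S30 block, module QuadraticRep (helper3): package D-PI.

Over an algebraically closed field of characteristic zero: if every element `g` of a group acting
on a finite-dimensional space satisfies `g² - a(g) g + ε(g) = 0` with `ε` a character, then a
minimal stable subspace has dimension at most two, and in dimension two the characteristic
polynomial of `g` on it is `X² - a(g) X + ε(g)`.
-/
import Fermat.Agent.Gateway.S30.Specs

set_option autoImplicit false
set_option linter.unusedSectionVars false

namespace Fermat.Agent.Gateway.Assembly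

open Polynomial

namespace QuadraticRep

section Burnside

/-! Burnside's theorem (copied from `Fermat.Agent.S53.Burnside`, helper's file, to keep this
module independent). -/

variable {K V : Type*} [Field K] [IsAlgClosed K] [AddCommGroup V] [Module K V]
  [FiniteDimensional K V]

theorem subalgebra_eq_top_of_simple (S : Subalgebra K (Module.End K V)) [IsSimpleModule S V] :
    S = ⊤ := by
  have hbij := IsSimpleModule.algebraMap_end_bijective_of_isAlgClosed (A := S) (V := V) K
  have : Module.Finite (Module.End S V) V := by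
    apply Module.Finite.of_restrictScalars_finite K
  rw [eq_top_iff]
  intro f _
  let F : Module.End (Module.End S V) V :=
    { toFun := fun v => f v
      map_add' := fun v w => map_add f v w
      map_smul' := fun φ v => by
        obtain ⟨c, rfl⟩ := hbij.2 φ
        simp only [RingHom.id_apply]
        show f ((algebraMap K (Module.End S V) c) v) = (algebraMap K (Module.End S V) c) (f v)
        rw [Module.algebraMap_end_apply, Module.algebraMap_end_apply, map_smul] }
  obtain ⟨s, hs⟩ := Module.Finite.toModuleEnd_moduleEnd_surjective (R := S) (M := V) F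
  have : (s : Module.End K V) = f := by
    ext v
    have := congrArg (fun g : Module.End (Module.End S V) V => g v) hs
    exact this
  rw [← this]
  exact s.2

theorem span_range_eq_top_of_irreducible {G : Type*} [Monoid G] (ρ : G →* Module.End K V)
    [Nontrivial V]
    (hirr : ∀ W : Submodule K V, (∀ g, ∀ x ∈ W, ρ g x ∈ W) → W = ⊥ ∨ W = ⊤) :
    Submodule.span K (Set.range ρ) = ⊤ := by
  set S : Subalgebra K (Module.End K V) := Algebra.adjoin K (Set.range ρ) with hS
  have hmem : ∀ g, ρ g ∈ S := fun g => Algebra.subset_adjoin ⟨g, rfl⟩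
  have : IsSimpleModule S V := by
    rw [isSimpleModule_iff]
    refine ⟨fun W' => ?_⟩
    have hW := hirr (W'.restrictScalars K) (fun g x hx => by
      have : (⟨ρ g, hmem g⟩ : S) • x ∈ W' := W'.smul_mem _ hx
      exact this)
    rcases hW with h | h
    · left
      apply Submodule.restrictScalars_injective K
      rw [h]; rfl
    · right
      apply Submodule.restrictScalars_injective K
      rw [h]; rfl
  have htop := subalgebra_eq_top_of_simple S
  have h2 := congrArg Subalgebra.toSubmodule htop
  rw [hS, Algebra.adjoin_eq_span] at h2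
  have hcl : (Submonoid.closure (Set.range ρ) : Set (Module.End K V)) = Set.range ρ := by
    rw [← MonoidHom.coe_mrange, Submonoid.closure_eq]
  rw [hcl] at h2
  simpa using h2

end Burnside

section Plane

variable {K V : Type*} [Field K] [AddCommGroup V] [Module K V]

/-- The characteristic polynomial of an endomorphism of a plane. -/
theorem charpoly_of_finrank_two [Module.Finite K V] (h2 : Module.finrank K V = 2)
    (f : Module.End K V) :
    LinearMap.charpoly f = X ^ 2 - C (LinearMap.trace K V f) * X + C (LinearMap.det f) := by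
  let b : Module.Basis (Fin 2) K V := Module.finBasisOfFinrankEq K V h2
  rw [← LinearMap.charpoly_toMatrix f b, Matrix.charpoly_fin_two,
    LinearMap.trace_eq_matrix_trace K b f, LinearMap.det_toMatrix]

end Plane

section Core

variable {K : Type*} [Field K] {G : Type*} [Group G] {U : Type*} [AddCommGroup U] [Module K U]
  (r : G →* Module.End K U) (ε : G →* Kˣ) (a : G → K)

/-- the relation `g + ε(g) g⁻¹ = a(g)`. -/
theorem add_inv_eq (hq : ∀ g, r g * r g - a g • r g + ((ε g : Kˣ) : K) • (1 : Module.End K U) = 0)
    (g : G) : r g + ((ε g : Kˣ) : K) • r g⁻¹ = a g • (1 : Module.End K U) := by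
  have h1 : r g * r g⁻¹ = 1 := by rw [← map_mul, mul_inv_cancel, map_one]
  have h2 := congrArg (fun x => x * r g⁻¹) (hq g)
  simp only [add_mul, sub_mul, zero_mul, smul_mul_assoc, one_mul, mul_assoc, h1, mul_one] at h2
  have h3 : r g + ((ε g : Kˣ) : K) • r g⁻¹ - a g • (1 : Module.End K U) = 0 := by
    rw [← h2]; abel
  exact sub_eq_zero.mp h3

/-- The graph of the anti-involution `g ↦ ε(g) g⁻¹`. -/
def graph : Submodule K (Module.End K U × Module.End K U) :=
  Submodule.span K (Set.range fun g : G => (r g, ((ε g : Kˣ) : K) • r g⁻¹))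

theorem gen_mem_graph (g : G) : (r g, ((ε g : Kˣ) : K) • r g⁻¹) ∈ graph r ε :=
  Submodule.subset_span ⟨g, rfl⟩

theorem graph_add_scalar
    (hq : ∀ g, r g * r g - a g • r g + ((ε g : Kˣ) : K) • (1 : Module.End K U) = 0)
    {p : Module.End K U × Module.End K U} (hp : p ∈ graph r ε) :
    ∃ c : K, p.1 + p.2 = c • (1 : Module.End K U) := by
  induction hp using Submodule.span_induction with
  | mem x hx =>
    obtain ⟨g, rfl⟩ := hx
    exact ⟨a g, add_inv_eq r ε a hq g⟩
  | zero => exact ⟨0, by simp⟩
  | add x y _ _ hx hy =>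
    obtain ⟨c, hc⟩ := hx
    obtain ⟨d, hd⟩ := hy
    refine ⟨c + d, ?_⟩
    rw [Prod.fst_add, Prod.snd_add, add_smul, ← hc, ← hd]
    abel
  | smul t x _ hx =>
    obtain ⟨c, hc⟩ := hx
    refine ⟨t * c, ?_⟩
    rw [Prod.smul_fst, Prod.smul_snd, ← smul_add, hc, smul_smul]

theorem graph_mul_right {p : Module.End K U × Module.End K U} (hp : p ∈ graph r ε) (h : G) :
    (p.1 * r h, (((ε h : Kˣ) : K) • r h⁻¹) * p.2) ∈ graph r ε := by
  induction hp using Submodule.span_induction with
  | mem x hx =>
    obtain ⟨g, rfl⟩ := hx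
    have : (r g * r h, (((ε h : Kˣ) : K) • r h⁻¹) * (((ε g : Kˣ) : K) • r g⁻¹))
        = (r (g * h), ((ε (g * h) : Kˣ) : K) • r (g * h)⁻¹) := by
      rw [map_mul, map_mul, mul_inv_rev, map_mul, Units.val_mul, smul_mul_smul_comm,
        mul_comm ((ε h : Kˣ) : K)]
    rw [this]
    exact gen_mem_graph r ε (g * h)
  | zero =>
    have h0 : ((0 : Module.End K U), (0 : Module.End K U)) ∈ graph r ε := by
      rw [Prod.mk_zero_zero]; exact zero_mem _
    simpa using h0
  | add x y _ _ hx hy =>
    have := (graph r ε).add_mem hx hy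
    simpa [add_mul, mul_add] using this
  | smul t x _ hx =>
    have := (graph r ε).smul_mem t hx
    simpa [smul_mul_assoc, mul_smul_comm] using this

theorem graph_mul {p q : Module.End K U × Module.End K U} (hp : p ∈ graph r ε)
    (hq' : q ∈ graph r ε) : (p.1 * q.1, q.2 * p.2) ∈ graph r ε := by
  induction hq' using Submodule.span_induction with
  | mem x hx =>
    obtain ⟨h, rfl⟩ := hx
    exact graph_mul_right r ε hp h
  | zero =>
    have h0 : ((0 : Module.End K U), (0 : Module.End K U)) ∈ graph r ε := by
      rw [Prod.mk_zero_zero]; exact zero_mem _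
    simpa using h0
  | add x y _ _ hx hy =>
    have := (graph r ε).add_mem hx hy
    simpa [add_mul, mul_add] using this
  | smul t x _ hx =>
    have := (graph r ε).smul_mem t hx
    simpa [smul_mul_assoc, mul_smul_comm] using this

end Core

section Irreducible

variable {K : Type*} [Field K] [IsAlgClosed K] [CharZero K] {G : Type*} [Group G]
  {U : Type*} [AddCommGroup U] [Module K U] [FiniteDimensional K U] [Nontrivial U]
  (r : G →* Module.End K U) (ε : G →* Kˣ) (a : G → K)
  (hq : ∀ g, r g * r g - a g • r g + ((ε g : Kˣ) : K) • (1 : Module.End K U) = 0)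
  (hirr : ∀ W : Submodule K U, (∀ g, ∀ x ∈ W, r g x ∈ W) → W = ⊥ ∨ W = ⊤)
  (hd : 2 ≤ Module.finrank K U)

include hirr hd in
theorem exists_nonscalar : ∃ h : G, ∀ c : K, r h ≠ c • (1 : Module.End K U) := by
  by_contra H
  push Not at H
  obtain ⟨v, hv⟩ := exists_ne (0 : U)
  have hst : ∀ g, ∀ x ∈ Submodule.span K {v}, r g x ∈ Submodule.span K {v} := by
    intro g x hx
    obtain ⟨c, hc⟩ := H g
    rw [hc, LinearMap.smul_apply, Module.End.one_apply]
    exact Submodule.smul_mem _ _ hx
  rcases hirr _ hst with h | h
  · have : v ∈ Submodule.span K {v} := Submodule.mem_span_singleton_self v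
    rw [h, Submodule.mem_bot] at this
    exact hv this
  · have h1 : Module.finrank K (Submodule.span K {v}) = 1 := finrank_span_singleton hv
    rw [h, finrank_top] at h1
    omega

include hq hirr hd in
theorem graph_zero_left {y : Module.End K U} (hy : ((0 : Module.End K U), y) ∈ graph r ε) :
    y = 0 := by
  obtain ⟨c, hc⟩ := graph_add_scalar r ε a hq hy
  simp only [zero_add] at hc
  by_contra hy0
  have hc0 : c ≠ 0 := by
    rintro rfl
    exact hy0 (by rw [hc, zero_smul])
  obtain ⟨h, hh⟩ := exists_nonscalar r hirr hd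
  have h1 := graph_mul_right r ε hy h⁻¹
  obtain ⟨c', hc'⟩ := graph_add_scalar r ε a hq h1
  simp only [zero_mul, zero_add, inv_inv] at hc'
  rw [hc, smul_mul_assoc, mul_smul_comm, mul_one, smul_smul] at hc'
  have hne : ((ε h⁻¹ : Kˣ) : K) * c ≠ 0 := mul_ne_zero (Units.ne_zero _) hc0
  apply hh ((((ε h⁻¹ : Kˣ) : K) * c)⁻¹ * c')
  rw [← smul_smul, ← hc', smul_smul, inv_mul_cancel₀ hne, one_smul]

include hirr in
theorem exists_graph (x : Module.End K U) : ∃ y, (x, y) ∈ graph r ε := by
  have hx : x ∈ Submodule.span K (Set.range r) := by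
    rw [span_range_eq_top_of_irreducible r hirr]; trivial
  induction hx using Submodule.span_induction with
  | mem x hx =>
    obtain ⟨g, rfl⟩ := hx
    exact ⟨_, gen_mem_graph r ε g⟩
  | zero => exact ⟨0, by rw [Prod.mk_zero_zero]; exact zero_mem _⟩
  | add x y _ _ hx hy =>
    obtain ⟨x', hx'⟩ := hx
    obtain ⟨y', hy'⟩ := hy
    exact ⟨x' + y', by simpa using (graph r ε).add_mem hx' hy'⟩
  | smul t x _ hx =>
    obtain ⟨x', hx'⟩ := hx
    exact ⟨t • x', by simpa using (graph r ε).smul_mem t hx'⟩

include hq hirr in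
theorem quadratic_identity (u : Module.End K U) :
    ∃ s c : K, (2 : K) • (u * u) - (2 * s) • u + c • (1 : Module.End K U) = 0 := by
  obtain ⟨y, hy⟩ := exists_graph r ε hirr u
  obtain ⟨s, hs⟩ := graph_add_scalar r ε a hq hy
  have h2 := graph_mul r ε hy hy
  obtain ⟨s2, hs2⟩ := graph_add_scalar r ε a hq h2
  simp only at hs hs2
  have hy' : y = s • (1 : Module.End K U) - u := eq_sub_of_add_eq' hs
  rw [hy'] at hs2
  refine ⟨s, s * s - s2, ?_⟩
  have : (2 : K) • (u * u) - (2 * s) • u + (s * s - s2) • (1 : Module.End K U)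
      = (u * u + (s • (1 : Module.End K U) - u) * (s • (1 : Module.End K U) - u))
        - s2 • (1 : Module.End K U) := by
    simp only [sub_mul, mul_sub, smul_mul_assoc, mul_smul_comm, one_mul, mul_one]
    module
  rw [this, hs2, sub_self]

include hq hirr in
theorem finrank_le_two : Module.finrank K U ≤ 2 := by
  by_contra h
  push Not at h
  let b : Module.Basis (Fin (Module.finrank K U)) K U := Module.finBasis K U
  let u : Module.End K U := b.constr K (fun i => ((i : ℕ) : K) • b i)
  have hu : ∀ i, u (b i) = ((i : ℕ) : K) • b i := fun i => b.constr_basis K _ i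
  obtain ⟨s, c, hsc⟩ := quadratic_identity r ε a hq hirr u
  have key : ∀ i : Fin (Module.finrank K U),
      2 * ((i : ℕ) : K) * ((i : ℕ) : K) - 2 * s * ((i : ℕ) : K) + c = 0 := by
    intro i
    have h1 := congrArg (fun f : Module.End K U => f (b i)) hsc
    simp only [LinearMap.add_apply, LinearMap.sub_apply, LinearMap.smul_apply,
      Module.End.mul_apply, Module.End.one_apply, LinearMap.zero_apply, hu, map_smul,
      smul_smul] at h1
    rw [← sub_smul, ← add_smul] at h1
    rcases smul_eq_zero.mp h1 with h0 | h0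
    · rw [← h0]; ring
    · exact absurd h0 (b.ne_zero i)
  have k0 := key ⟨0, by omega⟩
  have k1 := key ⟨1, by omega⟩
  have k2 := key ⟨2, by omega⟩
  simp only [Nat.cast_zero, Nat.cast_one, Nat.cast_ofNat] at k0 k1 k2
  have : (4 : K) = 0 := by linear_combination k2 - 2 * k1 + k0
  norm_num at this

include hq in
/-- a non-scalar element has the expected trace and determinant. -/
theorem trace_det_of_nonscalar (h2 : Module.finrank K U = 2) (g : G)
    (hg : ∀ c : K, r g ≠ c • (1 : Module.End K U)) :
    LinearMap.trace K U (r g) = a g ∧ LinearMap.det (r g) = ((ε g : Kˣ) : K) := by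
  have hCH := LinearMap.aeval_self_charpoly (r g)
  rw [charpoly_of_finrank_two h2] at hCH
  simp only [map_add, map_sub, map_mul, aeval_X, aeval_C, Module.algebraMap_end_eq_smul_id,
    pow_two] at hCH
  have hsub : (LinearMap.trace K U (r g) - a g) • r g
      + (((ε g : Kˣ) : K) - LinearMap.det (r g)) • (1 : Module.End K U) = 0 := by
    have h1 := hq g
    have : (LinearMap.trace K U (r g) - a g) • r g
        + (((ε g : Kˣ) : K) - LinearMap.det (r g)) • (1 : Module.End K U)
        = (r g * r g - a g • r g + ((ε g : Kˣ) : K) • (1 : Module.End K U))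
          - (r g * r g - (LinearMap.trace K U (r g) • LinearMap.id) * r g
            + LinearMap.det (r g) • LinearMap.id) := by
      rw [smul_mul_assoc]
      show _ = _ - (r g * r g - LinearMap.trace K U (r g) • ((1 : Module.End K U) * r g)
        + LinearMap.det (r g) • (1 : Module.End K U))
      rw [one_mul]
      module
    rw [this, h1, hCH, sub_self]
  have htr : LinearMap.trace K U (r g) = a g := by
    by_contra hne
    have hne' : LinearMap.trace K U (r g) - a g ≠ 0 := sub_ne_zero.mpr hne
    apply hg (-(LinearMap.trace K U (r g) - a g)⁻¹ * (((ε g : Kˣ) : K) - LinearMap.det (r g)))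
    have h3 : (LinearMap.trace K U (r g) - a g) • r g
        = -((((ε g : Kˣ) : K) - LinearMap.det (r g)) • (1 : Module.End K U)) :=
      eq_neg_of_add_eq_zero_left hsub
    calc r g = (LinearMap.trace K U (r g) - a g)⁻¹ • ((LinearMap.trace K U (r g) - a g) • r g) := by
          rw [smul_smul, inv_mul_cancel₀ hne', one_smul]
      _ = _ := by rw [h3, smul_neg, smul_smul, neg_mul, neg_smul]
  refine ⟨htr, ?_⟩
  rw [htr, sub_self, zero_smul, zero_add] at hsub
  rcases smul_eq_zero.mp hsub with h0 | h0
  · exact (sub_eq_zero.mp h0).symm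
  · exact absurd h0 one_ne_zero

include hq hirr hd in
theorem trace_det_of_finrank_two (h2 : Module.finrank K U = 2) (g : G) :
    LinearMap.trace K U (r g) = a g ∧ LinearMap.det (r g) = ((ε g : Kˣ) : K) := by
  by_cases hg : ∀ c : K, r g ≠ c • (1 : Module.End K U)
  · exact trace_det_of_nonscalar r ε a hq h2 g hg
  push Not at hg
  obtain ⟨c, hc⟩ := hg
  obtain ⟨h, hh⟩ := exists_nonscalar r hirr hd
  have hinv : r g * r g⁻¹ = 1 := by rw [← map_mul, mul_inv_cancel, map_one]
  have hc0 : c ≠ 0 := by
    rintro rfl
    rw [hc, zero_smul, zero_mul] at hinv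
    exact zero_ne_one hinv
  have hgh : ∀ c' : K, r (g * h) ≠ c' • (1 : Module.End K U) := by
    intro c' hc'
    apply hh (c⁻¹ * c')
    rw [map_mul, hc, smul_mul_assoc, one_mul] at hc'
    rw [← smul_smul, ← hc', smul_smul, inv_mul_cancel₀ hc0, one_smul]
  obtain ⟨-, hdet1⟩ := trace_det_of_nonscalar r ε a hq h2 (g * h) hgh
  obtain ⟨-, hdet2⟩ := trace_det_of_nonscalar r ε a hq h2 h hh
  have hdetg : LinearMap.det (r g) = c ^ 2 := by
    rw [hc, LinearMap.det_smul, h2, map_one, mul_one]
  have hcc : c ^ 2 = ((ε g : Kˣ) : K) := by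
    rw [map_mul, map_mul, hdet2, hdetg, map_mul, Units.val_mul] at hdet1
    exact mul_right_cancel₀ (Units.ne_zero _) hdet1
  have hrel : c * c - a g * c + ((ε g : Kˣ) : K) = 0 := by
    have h1 := hq g
    rw [hc, smul_mul_assoc, mul_smul_comm, one_mul, smul_smul, smul_smul, ← sub_smul,
      ← add_smul] at h1
    rcases smul_eq_zero.mp h1 with h0 | h0
    · exact h0
    · exact absurd h0 one_ne_zero
  have ha : a g = 2 * c := by
    have : c * (2 * c - a g) = 0 := by rw [← hcc] at hrel; linear_combination hrel
    rcases mul_eq_zero.mp this with h0 | h0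
    · exact absurd h0 hc0
    · exact (sub_eq_zero.mp h0).symm
  refine ⟨?_, by rw [hdetg, hcc]⟩
  rw [hc, map_smul, LinearMap.trace_one, h2, ha, smul_eq_mul]
  push_cast
  ring

end Irreducible

end QuadraticRep

open QuadraticRep in
/-- Package D-PI. -/
theorem quadraticRepSpec : QuadraticRepSpec := by
  intro K _ _ _ G _ W _ _ _ _ ρ ε a hq
  classical
  -- a stable nonzero subspace of minimal dimension
  let P : Submodule K W → Prop := fun U => U ≠ ⊥ ∧ ∀ g, ∀ u ∈ U, ρ g u ∈ U
  have hex : ∃ n, ∃ U, P U ∧ Module.finrank K U = n :=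
    ⟨_, ⊤, ⟨top_ne_bot, fun _ _ _ => trivial⟩, rfl⟩
  obtain ⟨U, ⟨hU0, hU⟩, hUn⟩ := Nat.find_spec hex
  have hmin : ∀ U', P U' → Module.finrank K U ≤ Module.finrank K U' := fun U' hU' => by
    rw [hUn]; exact Nat.find_min' hex ⟨U', hU', rfl⟩
  refine ⟨U, hU, ?_⟩
  -- the restricted representation
  let r : G →* Module.End K U :=
    { toFun := fun g => (ρ g).restrict (hU g)
      map_one' := by
        ext u
        simp
      map_mul' := fun g h => by
        ext u
        simp }
  have hr : ∀ g (u : U), ((r g u : U) : W) = ρ g (u : W) := fun g u => rfl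
  have : Nontrivial U := Submodule.nontrivial_iff_ne_bot.mpr hU0
  have hqU : ∀ g, r g * r g - a g • r g + ((ε g : Kˣ) : K) • (1 : Module.End K U) = 0 := by
    intro g
    ext u
    have := congrArg (fun f : Module.End K W => f (u : W)) (hq g)
    simpa [hr] using this
  have hirr : ∀ W' : Submodule K U, (∀ g, ∀ x ∈ W', r g x ∈ W') → W' = ⊥ ∨ W' = ⊤ := by
    intro W' hW'
    by_cases h0 : W' = ⊥
    · left; exact h0
    right
    have hP : P (W'.map U.subtype) := by
      refine ⟨?_, ?_⟩
      · intro h
        apply h0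
        rw [eq_bot_iff]
        intro x hx
        have hx' : U.subtype x ∈ W'.map U.subtype := ⟨x, hx, rfl⟩
        rw [h, Submodule.mem_bot] at hx'
        rw [Submodule.mem_bot]
        exact Subtype.ext hx'
      · rintro g _ ⟨x, hx, rfl⟩
        exact ⟨r g x, hW' g x hx, rfl⟩
    have h1 := hmin _ hP
    have h2 : Module.finrank K (W'.map U.subtype) = Module.finrank K W' :=
      (LinearEquiv.finrank_eq
        (Submodule.equivMapOfInjective U.subtype U.injective_subtype W')).symm
    apply Submodule.eq_top_of_finrank_eq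
    have h3 := Submodule.finrank_le W'
    omega
  by_cases hd : 2 ≤ Module.finrank K U
  · right
    have h2 : Module.finrank K U = 2 :=
      le_antisymm (finrank_le_two r ε a hqU hirr) hd
    refine ⟨h2, fun g => ?_⟩
    obtain ⟨ht, hdt⟩ := trace_det_of_finrank_two r ε a hqU hirr hd h2 g
    show LinearMap.charpoly (r g) = _
    rw [charpoly_of_finrank_two h2, ht, hdt]
  · left
    have : 0 < Module.finrank K U := Module.finrank_pos
    omega

end Fermat.Agent.Gateway.Assembly
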