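/-
P-GATEWAY (d), S30 block, module Final (helper3).

The frozen statement S30 for fixed `p N S` from Tate module data in coordinates; all the work
packages (D-CYC helper98, D-QUAD helper23, D-OCC helper16 + helper28, D-PI helper3,
D-DIAG helper15, D-LAT helper62 + helper89, D-ASM helper3) are plugged in.  The only remaining
input is the Tate module data `TateMatrixData p N S` itself (package D-TATE plus the export
contract).  Corollaries: the frozen statements S30, S29 and S42 from the existence of Tate
module data at every `p N S`.
-/
import Fermat.Agent.Gateway.S30.Assembly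
import Fermat.Agent.Gateway.S30.QuadraticRep
import Fermat.Agent.Gateway.S30.CycloSpec
import Fermat.Agent.Gateway.S30.QuadSpec
import Fermat.Agent.Gateway.S30.Occ
import Fermat.Agent.Gateway.S30.Diag
import Fermat.Agent.Gateway.S30.LatticeDescent
import Fermat.Agent.Gateway.S29
import Fermat.Agent.Gateway.FreyTorsionLevel
import Fermat.Agent.Lib.FrobDensity.Main
import Fermat.Agent.S22

set_option autoImplicit false

namespace Fermat.Agent.Gateway.Assembly

theorem diagSpec : DiagSpec := fun 𝒪 _ _ ψ e hψ he =>
  exists_galoisRepAdic_of_characters 𝒪 ψ e hψ he

/-- The frozen statement S30 for fixed `p N S` from Tate module data in coordinates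
(version with the lattice descent as a hypothesis, kept for compatibility). -/
theorem s30For_of_tateMatrixData {p : ℕ} [Fact p.Prime] {N : ℕ} [NeZero N] {S : Finset ℕ}
    (hLD : LatticeDescentSpec) (hpS : p ∈ S) (D : TateMatrixData p N S) : S30For p N S :=
  s30For_of_specs hpS D
    (occursSpec (Fermat.Agent.S22.result N 2 (↑S : Set ℕ)) D)
    (quadSpec Fermat.Agent.Lib.FrobDensity.frobPowerDense (cycloSpec p) D)
    (cycloSpec p) quadraticRepSpec hLD diagSpec

/-- The frozen statement S30 for fixed `p N S` from Tate module data in coordinates, with no
further input. -/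
theorem s30For_of_tateMatrixData' {p : ℕ} [Fact p.Prime] {N : ℕ} [NeZero N] {S : Finset ℕ}
    (hpS : p ∈ S) (D : TateMatrixData p N S) : S30For p N S :=
  s30For_of_tateMatrixData latticeDescentSpec hpS D

/-- The existence of Tate module data in coordinates at every `p N S` (with `p ∈ S` and `S`
containing the primes dividing `N`): the remaining input of the S30 block. -/
def TateMatrixDataExists : Prop :=
  ∀ (p : ℕ) [Fact p.Prime] (N : ℕ) [NeZero N] (S : Finset ℕ), p ∈ S →
    (∀ q : ℕ, q.Prime → q ∣ N → q ∈ S) → Nonempty (TateMatrixData p N S)

/-- The frozen statement S30 from the existence of Tate module data. -/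
theorem s30Statement_of_tateMatrixData (hD : TateMatrixDataExists) : S30Statement := by
  intro p _ N _ S hpS hNS
  obtain ⟨D⟩ := hD p N S hpS hNS
  exact s30For_of_tateMatrixData' hpS D

/-- The frozen statement S22, from `Fermat.Agent.S22.result`. -/
theorem s22Statement : S22Statement := fun N _ k S => Fermat.Agent.S22.result N k S

/-- The frozen statement S29 from the existence of Tate module data. -/
theorem s29Statement_of_tateMatrixData (hD : TateMatrixDataExists) : S29Statement :=
  s29_of_s30 s22Statement (s30Statement_of_tateMatrixData hD)

/-- The frozen statement S42 from the existence of Tate module data. -/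
theorem s42Statement_of_tateMatrixData (hD : TateMatrixDataExists) : S42Statement :=
  Fermat.Agent.Gateway.FreyTorsionLevel.s42_of_s29_unconditional
    (s29Statement_of_tateMatrixData hD)

end Fermat.Agent.Gateway.Assembly
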