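/-
P-GATEWAY (d), S30 block, package D-TATE, part 1 (helper98).

Compatible frames of the `p`-power torsion of an abelian group `J` all of whose `p ^ n`-torsion
subgroups have `(p ^ n) ^ h` elements: vectors `e n i` (`i : Fin h`) with `p • e (n + 1) i = e n i`
such that `e n` is a basis of the `p ^ n`-torsion over `ℤ / p ^ n`.  Everything is expressed with
integer coefficients.
-/
import Mathlib

set_option autoImplicit false

namespace Fermat.Agent.Gateway.Assembly

open Finset

/-- Compatible frames of the `p`-power torsion of an abelian group. -/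
structure CompatFrames (J : Type*) [AddCommGroup J] (p h : ℕ) where
  /-- the frame of level `n` -/
  e : ℕ → Fin h → J
  p_smul : ∀ n i, p • e (n + 1) i = e n i
  tors : ∀ n i, p ^ n • e n i = 0
  span : ∀ n (x : J), p ^ n • x = 0 → ∃ c : Fin h → ℤ, x = ∑ i, c i • e n i
  indep : ∀ n (c : Fin h → ℤ), ∑ i, c i • e n i = 0 → ∀ i, ((p ^ n : ℕ) : ℤ) ∣ c i

section Frames

variable {J : Type*} [AddCommGroup J]

/-- The `m`-torsion subgroup. -/
def torsSub (J : Type*) [AddCommGroup J] (m : ℕ) : AddSubgroup J :=
  (nsmulAddMonoidHom m : J →+ J).ker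

theorem mem_torsSub {m : ℕ} {x : J} : x ∈ torsSub J m ↔ m • x = 0 := by
  rw [torsSub, AddMonoidHom.mem_ker, nsmulAddMonoidHom_apply]

/-- A vector space over `ZMod p` with `p ^ h` elements has a basis indexed by `Fin h`. -/
theorem nonempty_basis_of_card {p : ℕ} [Fact p.Prime] {V : Type*} [AddCommGroup V]
    [Module (ZMod p) V] (h : ℕ) (hcard : Nat.card V = p ^ h) :
    Nonempty (Module.Basis (Fin h) (ZMod p) V) := by
  have hp : p.Prime := Fact.out
  have : Finite V :=
    Nat.finite_of_card_ne_zero (by rw [hcard]; exact pow_ne_zero _ hp.ne_zero)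
  have : Module.Finite (ZMod p) V := Module.Finite.of_finite
  have hrank : Module.finrank (ZMod p) V = h := by
    have := Module.natCard_eq_pow_finrank (K := ZMod p) (V := V)
    rw [hcard, Nat.card_zmod] at this
    exact (Nat.pow_right_injective hp.two_le this).symm
  exact ⟨(Module.finBasis (ZMod p) V).reindex (finCongr hrank)⟩

/-- A frame of the `p`-torsion. -/
theorem exists_frame_one {p : ℕ} (hp : p.Prime) (h : ℕ)
    (hcard : Nat.card (torsSub J p) = p ^ h) :
    ∃ e : Fin h → J, (∀ i, p • e i = 0) ∧
      ∀ c : Fin h → ℤ, ∑ i, c i • e i = 0 → ∀ i, (p : ℤ) ∣ c i := by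
  have : Fact p.Prime := ⟨hp⟩
  have hkill : ∀ x : torsSub J p, p • x = 0 := fun x => Subtype.ext (by
    rw [AddSubgroup.coe_nsmul]; exact mem_torsSub.mp x.2)
  have : Module (ZMod p) (torsSub J p) := AddCommGroup.zmodModule hkill
  obtain ⟨b⟩ := nonempty_basis_of_card (p := p) (V := torsSub J p) h hcard
  refine ⟨fun i => (b i : J), fun i => mem_torsSub.mp (b i).2, fun c hc i => ?_⟩
  have h1 : ∑ i, ((c i : ℤ) : ZMod p) • b i = 0 := by
    apply Subtype.ext
    rw [AddSubgroup.val_finsetSum]
    simp_rw [Int.cast_smul_eq_zsmul, AddSubgroup.coe_zsmul]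
    exact hc
  have := Fintype.linearIndependent_iff.mp b.linearIndependent _ h1 i
  exact (ZMod.intCast_zmod_eq_zero_iff_dvd _ _).mp this

/-- Multiplication by `p` from the `p ^ (n + 1)`-torsion to the `p ^ n`-torsion. -/
def pMul (J : Type*) [AddCommGroup J] (p n : ℕ) :
    torsSub J (p ^ (n + 1)) →+ torsSub J (p ^ n) where
  toFun x := ⟨p • (x : J), mem_torsSub.mpr (by
    rw [← mul_smul, ← pow_succ]; exact mem_torsSub.mp x.2)⟩
  map_zero' := Subtype.ext (by simp)
  map_add' x y := Subtype.ext (by simp [smul_add])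

theorem coe_pMul (p n : ℕ) (x : torsSub J (p ^ (n + 1))) :
    ((pMul J p n x : torsSub J (p ^ n)) : J) = p • (x : J) := rfl

theorem pMul_surjective {p : ℕ} (hp : p.Prime) (h : ℕ)
    (hcard : ∀ n, Nat.card (torsSub J (p ^ n)) = (p ^ n) ^ h) (n : ℕ) :
    Function.Surjective (pMul J p n) := by
  have hfin : ∀ n, Finite (torsSub J (p ^ n)) := fun n =>
    Nat.finite_of_card_ne_zero (by
      rw [hcard]; exact pow_ne_zero _ (pow_ne_zero _ hp.ne_zero))
  have := hfin (n + 1)
  have := hfin n
  apply AddMonoidHom.surjective_of_card_ker_le_div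
  rw [hcard, hcard]
  have h1 : (p ^ (n + 1)) ^ h / (p ^ n) ^ h = p ^ h := by
    rw [pow_succ, mul_pow, Nat.mul_div_cancel_left _ (pow_pos (pow_pos hp.pos n) h)]
  rw [h1]
  have hfin1 : Finite (torsSub J p) := by simpa using hfin 1
  have h2 : Nat.card (torsSub J p) = p ^ h := by simpa using hcard 1
  rw [← h2]
  let f : (pMul J p n).ker → torsSub J p := fun x =>
    ⟨((x : torsSub J (p ^ (n + 1))) : J), mem_torsSub.mpr (by
      have := (AddMonoidHom.mem_ker).mp x.2
      exact congrArg Subtype.val this)⟩
  exact Nat.card_le_card_of_injective f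
    (fun x y hxy => Subtype.ext (Subtype.ext (congrArg (fun t : torsSub J p => (t : J)) hxy)))

/-- Every element of the `p`-torsion is the first term of a compatible sequence. -/
theorem exists_compat_seq {p : ℕ} (hp : p.Prime) (h : ℕ)
    (hcard : ∀ n, Nat.card (torsSub J (p ^ n)) = (p ^ n) ^ h) (x1 : J) (hx1 : p • x1 = 0) :
    ∃ y : ℕ → J, y 0 = 0 ∧ y 1 = x1 ∧ ∀ n, p • y (n + 1) = y n := by
  have hsurj := pMul_surjective hp h hcard
  let z : (n : ℕ) → torsSub J (p ^ (n + 1)) := fun n =>
    Nat.rec (motive := fun n => torsSub J (p ^ (n + 1)))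
      ⟨x1, mem_torsSub.mpr (by simpa using hx1)⟩
      (fun n zn => Classical.choose (hsurj (n + 1) zn)) n
  have hz : ∀ n, pMul J p (n + 1) (z (n + 1)) = z n := fun n =>
    Classical.choose_spec (hsurj (n + 1) (z n))
  refine ⟨fun n => Nat.casesOn n 0 (fun k => (z k).1), rfl, rfl, fun n => ?_⟩
  cases n with
  | zero => exact hx1
  | succ k => exact congrArg Subtype.val (hz k)

/-- Existence of compatible frames from the cardinalities of the torsion subgroups. -/
theorem nonempty_compatFrames {p : ℕ} (hp : p.Prime) (h : ℕ)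
    (hcard : ∀ n, Nat.card (torsSub J (p ^ n)) = (p ^ n) ^ h) :
    Nonempty (CompatFrames J p h) := by
  obtain ⟨e1, he1, hind1⟩ := exists_frame_one hp h (by simpa using hcard 1)
  choose y hy0 hy1 hy using fun i => exists_compat_seq hp h hcard (e1 i) (he1 i)
  have htors : ∀ n i, p ^ n • y i n = 0 := by
    intro n i
    induction n with
    | zero => rw [hy0]; simp
    | succ n ih => rw [pow_succ, mul_smul, hy, ih]
  have hpow : ∀ k m i, p ^ k • y i (m + k) = y i m := by
    intro k m i
    induction k with
    | zero => simp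
    | succ k ih => rw [pow_succ, mul_smul, ← add_assoc, hy, ih]
  have hindep : ∀ n (c : Fin h → ℤ), ∑ i, c i • y i n = 0 →
      ∀ i, ((p ^ n : ℕ) : ℤ) ∣ c i := by
    intro n
    induction n with
    | zero => intro c _ i; simp
    | succ n ih =>
      intro c hc
      have h1 : ∑ i, c i • y i n = 0 := by
        have := congrArg (fun x => p • x) hc
        simp only [smul_zero, Finset.smul_sum] at this
        rw [← this]
        refine Finset.sum_congr rfl fun i _ => ?_
        rw [smul_comm, hy]
      have h2 := ih c h1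
      choose d hd using h2
      have h3 : ∑ i, d i • y i 1 = 0 := by
        rw [← hc]
        refine Finset.sum_congr rfl fun i _ => ?_
        rw [hd i, mul_comm, mul_smul, natCast_zsmul, add_comm n 1, hpow n 1 i]
      have h4 := hind1 d (by simpa [hy1] using h3)
      intro i
      obtain ⟨k, hk⟩ := h4 i
      exact ⟨k, by rw [hd i, hk]; push_cast; ring⟩
  have hspan : ∀ n (x : J), p ^ n • x = 0 → ∃ c : Fin h → ℤ, x = ∑ i, c i • y i n := by
    intro n x hx
    have hpn : NeZero (p ^ n) := ⟨pow_ne_zero _ hp.ne_zero⟩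
    have hfin : Finite (torsSub J (p ^ n)) :=
      Nat.finite_of_card_ne_zero (by
        rw [hcard]; exact pow_ne_zero _ (pow_ne_zero _ hp.ne_zero))
    let Ψ : (Fin h → ZMod (p ^ n)) → torsSub J (p ^ n) := fun c =>
      ⟨∑ i, (c i).val • y i n, mem_torsSub.mpr (by
        rw [Finset.smul_sum]
        refine Finset.sum_eq_zero fun i _ => ?_
        rw [smul_comm, htors, smul_zero])⟩
    have hinj : Function.Injective Ψ := by
      intro c c' hcc
      have h0 : ∑ i, (((c' i).val : ℤ) - ((c i).val : ℤ)) • y i n = 0 := by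
        have := congrArg Subtype.val hcc
        simp only [Ψ] at this
        simp_rw [sub_smul, Finset.sum_sub_distrib, natCast_zsmul]
        rw [this, sub_self]
      funext i
      have h5 := (ZMod.intCast_eq_intCast_iff_dvd_sub ((c i).val : ℤ) ((c' i).val : ℤ)
        (p ^ n)).mpr (hindep n _ h0 i)
      simpa using h5
    have hbij : Function.Bijective Ψ := hinj.bijective_of_nat_card_le (by
      rw [hcard, Nat.card_fun, Nat.card_zmod, Nat.card_fin])
    obtain ⟨c, hc⟩ := hbij.2 ⟨x, mem_torsSub.mpr hx⟩
    refine ⟨fun i => ((c i).val : ℤ), ?_⟩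
    have := congrArg Subtype.val hc
    simp only [Ψ] at this
    rw [← this]
    simp_rw [natCast_zsmul]
  exact ⟨{ e := fun n i => y i n
           p_smul := fun n i => hy i n
           tors := htors
           span := hspan
           indep := hindep }⟩

end Frames

end Fermat.Agent.Gateway.Assembly
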