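/-
P-GATEWAY (d), S30 block, package D-TATE, part 2 (helper98).

Given compatible frames of the `p`-power torsion of an abelian group `J`, every compatible system
of endomorphisms of the torsion levels has a matrix over `ℤ_[p]`; this is a ring homomorphism
`CompatFrames.mat`, and congruences modulo `p ^ n` of the matrix are read off on the level `n`.
-/
import Mathlib
import Fermat.Agent.Gateway.S30.TateFrames

set_option autoImplicit false

namespace Fermat.Agent.Gateway.Assembly

open Finset

section CompatSys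

variable {J : Type*} [AddCommGroup J]

/-- Compatible systems of endomorphisms of a tower of subgroups:
`f n (p • x) = p • f (n + 1) x`. -/
def CompatSystem (T : ℕ → AddSubgroup J) (p : ℕ) : Subring (∀ n, AddMonoid.End (T n)) where
  carrier := {f | ∀ n (x : T (n + 1)) (y : T n), (y : J) = p • (x : J) →
    ((f n y : T n) : J) = p • ((f (n + 1) x : T (n + 1)) : J)}
  mul_mem' := by
    intro f g hf hg n x y hxy
    exact hf n (g (n + 1) x) (g n y) (hg n x y hxy)
  one_mem' := fun n x y hxy => hxy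
  add_mem' := by
    intro f g hf hg n x y hxy
    change ((f n y + g n y : T n) : J) = p • ((f (n + 1) x + g (n + 1) x : T (n + 1)) : J)
    rw [AddSubgroup.coe_add, AddSubgroup.coe_add, smul_add, hf n x y hxy, hg n x y hxy]
  zero_mem' := fun n x y _ => by
    change (((0 : T n)) : J) = p • (((0 : T (n + 1))) : J)
    simp
  neg_mem' := by
    intro f hf n x y hxy
    change ((-(f n y) : T n) : J) = p • ((-(f (n + 1) x) : T (n + 1)) : J)
    rw [AddSubgroup.coe_neg, AddSubgroup.coe_neg, smul_neg, hf n x y hxy]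

theorem mem_compatSystem {T : ℕ → AddSubgroup J} {p : ℕ} {f : ∀ n, AddMonoid.End (T n)} :
    f ∈ CompatSystem T p ↔ ∀ n (x : T (n + 1)) (y : T n), (y : J) = p • (x : J) →
      ((f n y : T n) : J) = p • ((f (n + 1) x : T (n + 1)) : J) := Iff.rfl

/-- `a • x = b • x` when `m • x = 0` and `m ∣ a - b`. -/
theorem zsmul_eq_zsmul_of_dvd {x : J} {m : ℕ} (hx : m • x = 0) {a b : ℤ}
    (hab : (m : ℤ) ∣ a - b) : a • x = b • x := by
  obtain ⟨k, hk⟩ := hab
  have : a = b + k * m := by linarith
  rw [this, add_smul, mul_smul, natCast_zsmul, hx, smul_zero, add_zero]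

end CompatSys

section Matrix

set_option linter.unusedSectionVars false

variable {J : Type*} [AddCommGroup J] {p h : ℕ} [Fact p.Prime]

theorem toZModPow_eq_appr (n : ℕ) (x : ℤ_[p]) :
    PadicInt.toZModPow n x = ((x.appr n : ℕ) : ZMod (p ^ n)) := rfl

namespace CompatFrames

variable (F : CompatFrames J p h)

/-- The element of the `p ^ n`-torsion with coordinates `a` modulo `p ^ n`. -/
noncomputable def ev (n : ℕ) (a : Fin h → ℤ_[p]) : J :=
  ∑ i, (a i).appr n • F.e n i

theorem sum_eq_ev (n : ℕ) (c : Fin h → ℤ) (a : Fin h → ℤ_[p])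
    (hc : ∀ i, ((c i : ℤ) : ZMod (p ^ n)) = PadicInt.toZModPow n (a i)) :
    ∑ i, c i • F.e n i = F.ev n a := by
  refine Finset.sum_congr rfl fun i _ => ?_
  rw [← natCast_zsmul]
  refine zsmul_eq_zsmul_of_dvd (F.tors n i) ?_
  rw [← ZMod.intCast_eq_intCast_iff_dvd_sub, hc i, toZModPow_eq_appr]
  simp

theorem toZModPow_eq_of_ev_eq (n : ℕ) (a a' : Fin h → ℤ_[p]) (hev : F.ev n a = F.ev n a')
    (i : Fin h) : PadicInt.toZModPow n (a i) = PadicInt.toZModPow n (a' i) := by
  have h0 : ∑ i, (((a' i).appr n : ℤ) - ((a i).appr n : ℤ)) • F.e n i = 0 := by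
    simp_rw [sub_smul, Finset.sum_sub_distrib, natCast_zsmul]
    rw [ev, ev] at hev
    rw [hev, sub_self]
  have h1 := (ZMod.intCast_eq_intCast_iff_dvd_sub ((a i).appr n : ℤ) ((a' i).appr n : ℤ)
    (p ^ n)).mpr (F.indep n _ h0 i)
  rw [toZModPow_eq_appr, toZModPow_eq_appr]
  simpa using h1

theorem ev_zero (n : ℕ) : F.ev n 0 = 0 := by
  rw [← F.sum_eq_ev n (fun _ => 0) 0 (fun i => by simp)]
  simp

variable {T : ℕ → AddSubgroup J} (hT : ∀ n x, x ∈ T n ↔ p ^ n • x = 0)

/-- The frame vectors as elements of the torsion subgroups. -/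
def eT (n : ℕ) (i : Fin h) : T n := ⟨F.e n i, (hT n _).mpr (F.tors n i)⟩

theorem coe_eT (n : ℕ) (i : Fin h) : ((F.eT hT n i : T n) : J) = F.e n i := rfl

theorem exists_coef (f : ∀ n, AddMonoid.End (T n)) (n : ℕ) (j : Fin h) :
    ∃ c : Fin h → ℤ, ((f n (F.eT hT n j) : T n) : J) = ∑ i, c i • F.e n i :=
  F.span n _ ((hT n _).mp (f n _).2)

/-- Integer coordinates of the image of a frame vector. -/
noncomputable def coef (f : ∀ n, AddMonoid.End (T n)) (n : ℕ) (j : Fin h) : Fin h → ℤ :=
  Classical.choose (F.exists_coef hT f n j)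

theorem coef_spec (f : ∀ n, AddMonoid.End (T n)) (n : ℕ) (j : Fin h) :
    ((f n (F.eT hT n j) : T n) : J) = ∑ i, F.coef hT f n j i • F.e n i :=
  Classical.choose_spec (F.exists_coef hT f n j)

theorem coef_compat (f : CompatSystem T p) (n : ℕ) (i j : Fin h) :
    (p : ℤ) ^ n ∣ F.coef hT f.1 (n + 1) j i - F.coef hT f.1 n j i := by
  have h1 : ((f.1 n (F.eT hT n j) : T n) : J)
      = p • ((f.1 (n + 1) (F.eT hT (n + 1) j) : T (n + 1)) : J) :=
    f.2 n (F.eT hT (n + 1) j) (F.eT hT n j) (by rw [coe_eT, coe_eT, F.p_smul])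
  rw [F.coef_spec hT, F.coef_spec hT, Finset.smul_sum] at h1
  have h0 : ∑ i, (F.coef hT f.1 (n + 1) j i - F.coef hT f.1 n j i) • F.e n i = 0 := by
    simp_rw [sub_smul, Finset.sum_sub_distrib]
    rw [h1, sub_eq_zero]
    refine Finset.sum_congr rfl fun i _ => ?_
    rw [smul_comm, F.p_smul]
  have := F.indep n _ h0 i
  rwa [Nat.cast_pow] at this

/-- The entries of the matrix of a compatible system. -/
noncomputable def entry (f : CompatSystem T p) (i j : Fin h) : ℤ_[p] :=
  PadicInt.ofIntSeq (fun n => F.coef hT f.1 n j i)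
    (PadicInt.isCauSeq_padicNorm_of_pow_dvd_sub _ p fun n => F.coef_compat hT f n i j)

theorem toZModPow_entry (f : CompatSystem T p) (i j : Fin h) (n : ℕ) :
    PadicInt.toZModPow n (F.entry hT f i j) = ((F.coef hT f.1 n j i : ℤ) : ZMod (p ^ n)) :=
  PadicInt.toZModPow_ofIntSeq_of_pow_dvd_sub _ p (fun n => F.coef_compat hT f n i j) n

/-- The matrix of a compatible system (as a function). -/
noncomputable def matFun (f : CompatSystem T p) : Matrix (Fin h) (Fin h) ℤ_[p] :=
  Matrix.of fun i j => F.entry hT f i j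

theorem coe_apply_eT (f : CompatSystem T p) (n : ℕ) (j : Fin h) :
    ((f.1 n (F.eT hT n j) : T n) : J) = F.ev n (fun i => F.matFun hT f i j) := by
  rw [F.coef_spec hT]
  exact F.sum_eq_ev n _ _ fun i => (F.toZModPow_entry hT f i j n).symm

/-- Characterisation of the matrix modulo `p ^ n`. -/
theorem toZModPow_matFun_eq (f : CompatSystem T p) (A : Matrix (Fin h) (Fin h) ℤ_[p]) (n : ℕ)
    (hA : ∀ j, ((f.1 n (F.eT hT n j) : T n) : J) = F.ev n (fun i => A i j)) (i j : Fin h) :
    PadicInt.toZModPow n (F.matFun hT f i j) = PadicInt.toZModPow n (A i j) :=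
  F.toZModPow_eq_of_ev_eq n _ _ ((F.coe_apply_eT hT f n j).symm.trans (hA j)) i

/-- The action of a compatible system on a vector given by coordinates. -/
theorem coe_apply_of_eq_ev (f : CompatSystem T p) (n : ℕ) (a : Fin h → ℤ_[p]) (x : T n)
    (hx : (x : J) = F.ev n a) :
    ((f.1 n x : T n) : J) = F.ev n ((F.matFun hT f).mulVec a) := by
  have hx' : x = ∑ k, (a k).appr n • F.eT hT n k := by
    apply Subtype.ext
    rw [hx, AddSubgroup.val_finsetSum]
    rfl
  have key := F.sum_eq_ev n
    (fun i => ((∑ k, (a k).appr n * (F.matFun hT f i k).appr n : ℕ) : ℤ))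
    ((F.matFun hT f).mulVec a) (fun i => by
      rw [Matrix.mulVec, dotProduct, map_sum]
      push_cast
      refine Finset.sum_congr rfl fun k _ => ?_
      rw [map_mul, toZModPow_eq_appr, toZModPow_eq_appr, mul_comm])
  rw [← key, hx', map_sum, AddSubgroup.val_finsetSum]
  simp_rw [map_nsmul, AddSubgroup.coe_nsmul, F.coe_apply_eT hT, ev, Finset.smul_sum]
  rw [Finset.sum_comm]
  simp_rw [← mul_smul, ← Finset.sum_smul, natCast_zsmul]

theorem matFun_mul (f g : CompatSystem T p) :
    F.matFun hT (f * g) = F.matFun hT f * F.matFun hT g := by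
  ext i j
  refine PadicInt.ext_of_toZModPow.mp fun n => ?_
  refine F.toZModPow_matFun_eq hT (f * g) _ n (fun j => ?_) i j
  have h1 : ((f * g : CompatSystem T p).1 n (F.eT hT n j))
      = f.1 n (g.1 n (F.eT hT n j)) := rfl
  rw [h1, F.coe_apply_of_eq_ev hT f n _ _ (F.coe_apply_eT hT g n j)]
  congr 1

theorem matFun_one : F.matFun hT (1 : CompatSystem T p) = 1 := by
  ext i j
  refine PadicInt.ext_of_toZModPow.mp fun n => ?_
  refine F.toZModPow_matFun_eq hT 1 _ n (fun j => ?_) i j
  have h1 : ((1 : CompatSystem T p).1 n (F.eT hT n j)) = F.eT hT n j := rfl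
  rw [h1, coe_eT]
  rw [← F.sum_eq_ev n (fun i => if i = j then 1 else 0) _ (fun i => by
    rw [Matrix.one_apply]; split_ifs <;> simp)]
  simp

theorem matFun_add (f g : CompatSystem T p) :
    F.matFun hT (f + g) = F.matFun hT f + F.matFun hT g := by
  ext i j
  refine PadicInt.ext_of_toZModPow.mp fun n => ?_
  refine F.toZModPow_matFun_eq hT (f + g) _ n (fun j => ?_) i j
  have h1 : ((f + g : CompatSystem T p).1 n (F.eT hT n j))
      = f.1 n (F.eT hT n j) + g.1 n (F.eT hT n j) := rfl
  rw [h1, AddSubgroup.coe_add, F.coef_spec hT, F.coef_spec hT, ← Finset.sum_add_distrib]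
  simp_rw [← add_smul]
  refine F.sum_eq_ev n _ _ fun i => ?_
  rw [Matrix.add_apply, map_add, Int.cast_add]
  congr 1
  · exact (F.toZModPow_entry hT f i j n).symm
  · exact (F.toZModPow_entry hT g i j n).symm

theorem matFun_zero : F.matFun hT (0 : CompatSystem T p) = 0 := by
  have := F.matFun_add hT 0 0
  rw [add_zero] at this
  exact left_eq_add.mp this

/-- The matrix of a compatible system of endomorphisms, as a ring homomorphism. -/
noncomputable def mat : CompatSystem T p →+* Matrix (Fin h) (Fin h) ℤ_[p] where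
  toFun := F.matFun hT
  map_one' := F.matFun_one hT
  map_mul' := F.matFun_mul hT
  map_zero' := F.matFun_zero hT
  map_add' := F.matFun_add hT

theorem mat_apply (f : CompatSystem T p) : F.mat hT f = F.matFun hT f := rfl

theorem mat_commute (f g : CompatSystem T p) (hfg : Commute f g) :
    Commute (F.mat hT f) (F.mat hT g) := hfg.map (F.mat hT)

theorem mat_quadratic (f t : CompatSystem T p) (ℓ : ℕ)
    (hq : f * f - t * f + (ℓ : CompatSystem T p) = 0) :
    F.mat hT f * F.mat hT f - F.mat hT t * F.mat hT f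
      + (ℓ : Matrix (Fin h) (Fin h) ℤ_[p]) = 0 := by
  have := congrArg (F.mat hT) hq
  rwa [map_add, map_sub, map_mul, map_mul, map_natCast, map_zero] at this

theorem mat_eq_one (f : CompatSystem T p) (hf : f = 1) : F.mat hT f = 1 := by
  rw [hf, map_one]

/-- If the level `n` component is the identity, the matrix is `1` modulo `p ^ n`. -/
theorem exists_mat_eq_one_add (f : CompatSystem T p) (n : ℕ) (hf : f.1 n = 1) :
    ∃ B : Matrix (Fin h) (Fin h) ℤ_[p], F.mat hT f = 1 + (p : ℤ_[p]) ^ n • B := by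
  have key : ∀ i j, ∃ b : ℤ_[p], F.matFun hT f i j - (1 : Matrix (Fin h) (Fin h) ℤ_[p]) i j
      = (p : ℤ_[p]) ^ n * b := by
    intro i j
    have h1 : PadicInt.toZModPow n (F.matFun hT f i j)
        = PadicInt.toZModPow n ((1 : Matrix (Fin h) (Fin h) ℤ_[p]) i j) := by
      have := F.toZModPow_matFun_eq hT (1 : CompatSystem T p) (F.matFun hT f) n (fun j => by
        have h2 : ((1 : CompatSystem T p).1 n (F.eT hT n j)) = f.1 n (F.eT hT n j) := by
          rw [hf]; rfl
        rw [h2, F.coe_apply_eT hT]) i j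
      rw [← this, F.matFun_one hT]
    have hker : F.matFun hT f i j - (1 : Matrix (Fin h) (Fin h) ℤ_[p]) i j
        ∈ RingHom.ker (PadicInt.toZModPow (p := p) n) := by
      rw [RingHom.mem_ker, map_sub, h1, sub_self]
    rw [PadicInt.ker_toZModPow, Ideal.mem_span_singleton'] at hker
    obtain ⟨b, hb⟩ := hker
    exact ⟨b, by rw [← hb, mul_comm]⟩
  choose B hB using key
  refine ⟨Matrix.of B, ?_⟩
  ext i j
  rw [mat_apply, Matrix.add_apply, Matrix.smul_apply, Matrix.of_apply, smul_eq_mul, ← hB i j]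
  ring

/-- If the matrix is divisible by `p ^ n`, the level `n` component vanishes. -/
theorem apply_eq_zero_of_mat_eq_smul (f : CompatSystem T p) (n : ℕ)
    (B : Matrix (Fin h) (Fin h) ℤ_[p]) (hB : F.mat hT f = (p : ℤ_[p]) ^ n • B) :
    f.1 n = 0 := by
  have h0 : ∀ j, f.1 n (F.eT hT n j) = 0 := by
    intro j
    apply Subtype.ext
    rw [F.coe_apply_eT hT, AddSubgroup.coe_zero, ← F.ev_zero n]
    rw [← F.sum_eq_ev n (fun _ => 0) _ (fun i => by
      rw [← mat_apply, hB, Matrix.smul_apply, smul_eq_mul, map_mul, map_pow, map_natCast,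
        ← Nat.cast_pow, ZMod.natCast_self, zero_mul, Int.cast_zero]), ← F.sum_eq_ev n (fun _ => 0) 0 (fun i => by simp)]
  ext x
  obtain ⟨c, hc⟩ := F.span n (x : J) ((hT n _).mp x.2)
  have hx : x = ∑ i, c i • F.eT hT n i := by
    apply Subtype.ext
    rw [hc, AddSubgroup.val_finsetSum]
    rfl
  rw [hx, map_sum]
  simp [map_zsmul, h0]

end CompatFrames

end Matrix

end Fermat.Agent.Gateway.Assembly
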