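/-
P-GATEWAY (d), S30 block, package D-TATE, part 3 (helper98).

The `p`-adic Tate module of `J₀(N)` in coordinates (`TateMatrixData p N S`) from the export
contract of the Jacobian team: cardinalities of the torsion subgroups, the Hecke action on the
torsion, Galois-Hecke commutation, unramifiedness, the Eichler-Shimura relation and the finite
level of the Galois action on torsion.
-/
import Mathlib
import Fermat.Agent.Gateway.S30.Specs
import Fermat.Agent.Gateway.S30.TateMatrix
import Fermat.Agent.Gateway.S31.FromExport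

set_option autoImplicit false

namespace Fermat.Agent.Gateway.Assembly

open ModularCurve AlgebraicCurve CuspForm Fermat.Agent.Gateway.S31Red

local notation "Qb" => AlgebraicClosure ℚ

section Tate

variable {p : ℕ} {N : ℕ} [NeZero N] {S : Finset ℕ}

/-- A ring homomorphism from the Hecke algebra to the product of the endomorphism rings of a
tower of subgroups takes values in the compatible systems as soon as the generators `T_ℓ` do
(all primes dividing the level being in `S`). -/
theorem mem_compatSystem_of_generators {J : Type*} [AddCommGroup J] (T : ℕ → AddSubgroup J)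
    (p : ℕ) (hNS : ∀ q : ℕ, q.Prime → q ∣ N → q ∈ S)
    (Φ : heckeAlgebra N 2 (↑S : Set ℕ) →+* ∀ n, AddMonoid.End (T n))
    (hgen : ∀ (ℓ : ℕ) (hℓ : ℓ.Prime) (hℓN : ¬ ℓ ∣ N) (hℓS : ℓ ∉ (↑S : Set ℕ)),
      Φ (heckeAlgebra.T hℓ hℓN hℓS) ∈ CompatSystem T p)
    (t : heckeAlgebra N 2 (↑S : Set ℕ)) : Φ t ∈ CompatSystem T p := by
  obtain ⟨t, ht⟩ := t
  induction ht using Algebra.adjoin_induction with
  | mem x hx =>
    rcases hx with ⟨ℓ, hℓ, hℓN, hℓS, rfl⟩ | ⟨q, hqN, hq, hqS, rfl⟩
    · exact hgen ℓ hℓ hℓN hℓS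
    · exact absurd (hNS q hq hqN) hqS
  | algebraMap r =>
    have h0 : (⟨algebraMap ℤ _ r, Subalgebra.algebraMap_mem _ r⟩ : heckeAlgebra N 2 (↑S : Set ℕ))
        = (r : heckeAlgebra N 2 (↑S : Set ℕ)) := by
      apply Subtype.ext
      simp
    rw [h0, map_intCast]
    exact intCast_mem (CompatSystem T p) r
  | add x y hx hy hx' hy' =>
    have h0 : (⟨x + y, Subalgebra.add_mem _ hx hy⟩ : heckeAlgebra N 2 (↑S : Set ℕ))
        = ⟨x, hx⟩ + ⟨y, hy⟩ := rfl
    rw [h0, map_add]
    exact add_mem hx' hy'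
  | mul x y hx hy hx' hy' =>
    have h0 : (⟨x * y, Subalgebra.mul_mem _ hx hy⟩ : heckeAlgebra N 2 (↑S : Set ℕ))
        = ⟨x, hx⟩ * ⟨y, hy⟩ := rfl
    rw [h0, map_mul]
    exact mul_mem hx' hy'

/-- The tower of the `p`-power torsion subgroups of `J₀(N)`. -/
noncomputable abbrev tateTower (p N : ℕ) : ℕ → AddSubgroup (JZero N) := fun n =>
  Pic0.torsion Qb (modularFunctionFieldBar N) (p ^ n)

omit [NeZero N] in
theorem mem_tateTower (n : ℕ) (x : JZero N) : x ∈ tateTower p N n ↔ p ^ n • x = 0 := by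
  rw [Pic0.mem_torsion, natCast_zsmul]

omit [NeZero N] in
theorem galois_smul_nsmul (σ : GQ) (m : ℕ) (x : JZero N) : σ • (m • x) = m • (σ • x) :=
  map_nsmul (DistribSMul.toAddMonoidHom (JZero N) σ) m x

/-- The Galois action on the `p`-power torsion as a compatible system. -/
noncomputable def galSystem (p N : ℕ) : GQ →* CompatSystem (tateTower p N) p where
  toFun σ := ⟨fun n => galTors N (p ^ n) σ, fun n x y hxy => by
    rw [coe_galTors_apply, coe_galTors_apply, hxy, galois_smul_nsmul]⟩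
  map_one' := Subtype.ext (funext fun n => map_one _)
  map_mul' σ τ := Subtype.ext (funext fun n => map_mul _ σ τ)

omit [NeZero N] in
theorem galSystem_apply (σ : GQ) (n : ℕ) : (galSystem p N σ).1 n = galTors N (p ^ n) σ := rfl

/-- The Hecke action on all the `p`-power torsion levels. -/
noncomputable def etaPi (E : HeckeTorsionAction N S) (hp : p.Prime) :
    heckeAlgebra N 2 (↑S : Set ℕ) →+* ∀ n, AddMonoid.End (tateTower p N n) :=
  RingHom.pi fun n => E.eta (p ^ n) (pow_pos hp.pos n)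

theorem etaPi_apply (E : HeckeTorsionAction N S) (hp : p.Prime)
    (t : heckeAlgebra N 2 (↑S : Set ℕ)) (n : ℕ) :
    etaPi E hp t n = E.eta (p ^ n) (pow_pos hp.pos n) t := rfl

/-- The Hecke action on the `p`-power torsion is a compatible system. -/
theorem etaPi_mem_compatSystem (hNS : ∀ q : ℕ, q.Prime → q ∣ N → q ∈ S)
    (E : HeckeTorsionAction N S) (hp : p.Prime) (t : heckeAlgebra N 2 (↑S : Set ℕ)) :
    etaPi E hp t ∈ CompatSystem (tateTower p N) p := by
  refine mem_compatSystem_of_generators (tateTower p N) p hNS (etaPi E hp) ?_ t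
  intro ℓ hℓ hℓN hℓS n x y hxy
  have h1 := E.eta_T (p ^ n) (pow_pos hp.pos n) ℓ hℓ hℓN hℓS y
  have h2 := E.eta_T (p ^ (n + 1)) (pow_pos hp.pos (n + 1)) ℓ hℓ hℓN hℓS x
  rw [etaPi_apply, etaPi_apply]
  refine h1.trans ?_
  rw [hxy, map_nsmul]
  exact congrArg (fun z => p • z) h2.symm

/-- The Hecke action on the `p`-power torsion as a compatible system. -/
noncomputable def heckeSystem (hNS : ∀ q : ℕ, q.Prime → q ∣ N → q ∈ S)
    (E : HeckeTorsionAction N S) (hp : p.Prime) :
    heckeAlgebra N 2 (↑S : Set ℕ) →+* CompatSystem (tateTower p N) p :=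
  (etaPi E hp).codRestrict (CompatSystem (tateTower p N) p) (etaPi_mem_compatSystem hNS E hp)

theorem heckeSystem_apply (hNS : ∀ q : ℕ, q.Prime → q ∣ N → q ∈ S)
    (E : HeckeTorsionAction N S) (hp : p.Prime) (t : heckeAlgebra N 2 (↑S : Set ℕ)) (n : ℕ) :
    (heckeSystem hNS E hp t).1 n = E.eta (p ^ n) (pow_pos hp.pos n) t := rfl

section Fields

variable (hNS : ∀ q : ℕ, q.Prime → q ∣ N → q ∈ S) (E : HeckeTorsionAction N S)

theorem galSystem_commute_heckeSystem (hp : p.Prime) (hpS : p ∈ S) (h4 : GaloisHeckeComm N)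
    (h6 : TorsionEichlerShimura N) (h7 : TorsionGalLevel N) (σ : GQ)
    (t : heckeAlgebra N 2 (↑S : Set ℕ)) :
    Commute (galSystem p N σ) (heckeSystem hNS E hp t) := by
  refine Subtype.ext (funext fun n => ?_)
  exact ((torsionHeckeDataOfExport hp hpS hNS E h4 h6 h7).comm n σ t).eq

theorem galSystem_eichlerShimura (hp : p.Prime) (hpS : p ∈ S) (h4 : GaloisHeckeComm N)
    (h6 : TorsionEichlerShimura N) (h7 : TorsionGalLevel N)
    (ℓ : ℕ) (hℓ : ℓ.Prime) (hℓN : ¬ ℓ ∣ N) (hℓS : ℓ ∉ (↑S : Set ℕ))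
    (A : ValuationSubring (AlgebraicClosure ℚ)) (hA : A.LiesOverPrime ℓ)
    (σ : GQ) (hσ : A.IsFrobeniusAt σ ℓ) :
    galSystem p N σ * galSystem p N σ
        - heckeSystem hNS E hp (heckeAlgebra.T hℓ hℓN hℓS) * galSystem p N σ
        + (ℓ : CompatSystem (tateTower p N) p) = 0 := by
  refine Subtype.ext (funext fun n => ?_)
  exact (torsionHeckeDataOfExport hp hpS hNS E h4 h6 h7).eichlerShimura n ℓ hℓ hℓN hℓS A hA σ hσ

omit [NeZero N] in
/-- If `σ` acts trivially on the `p ^ n`-torsion then the level `n` component of its system is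
the identity. -/
theorem galSystem_apply_eq_one (σ : GQ) (n : ℕ)
    (hσ : ∀ x : JZero N, p ^ n • x = 0 → σ • x = x) : (galSystem p N σ).1 n = 1 := by
  change galTors N (p ^ n) σ = 1
  ext x
  rw [coe_galTors_apply]
  exact hσ x (nsmul_coe_eq_zero x)

omit [NeZero N] in
theorem galSystem_eq_one (σ : GQ)
    (hσ : ∀ (n : ℕ) (x : JZero N), p ^ n • x = 0 → σ • x = x) : galSystem p N σ = 1 :=
  Subtype.ext (funext fun n => galSystem_apply_eq_one σ n (hσ n))

omit [NeZero N] in
theorem not_dvd_pow_mul {q : ℕ} (hp : p.Prime) (hq : q.Prime) (hqN : ¬ q ∣ N) (hqp : q ≠ p)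
    (n : ℕ) : ¬ q ∣ p ^ n * N := by
  intro hdvd
  rcases (Nat.Prime.dvd_mul hq).mp hdvd with h' | h'
  · exact hqp ((Nat.prime_dvd_prime_iff_eq hq hp).mp (hq.dvd_of_dvd_pow h'))
  · exact hqN h'

end Fields

section Final

variable [Fact p.Prime]

omit [NeZero N] [Fact p.Prime] in
theorem card_torsSub_JZero (h : ℕ)
    (hcard : ∀ n : ℕ, Nat.card (JTors N (p ^ n)) = (p ^ n) ^ h) (n : ℕ) :
    Nat.card (torsSub (JZero N) (p ^ n)) = (p ^ n) ^ h := by
  rw [← hcard n]
  exact Nat.card_congr (Equiv.subtypeEquivRight fun x => by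
    rw [mem_torsSub, ← mem_tateTower])

/-- The Tate module in coordinates attached to compatible frames of the torsion of `J₀(N)`. -/
noncomputable def tateMatrixDataOfFrames (hpS : p ∈ S)
    (hNS : ∀ q : ℕ, q.Prime → q ∣ N → q ∈ S) (h : ℕ) (F : CompatFrames (JZero N) p h)
    (E : HeckeTorsionAction N S) (h4 : GaloisHeckeComm N) (h5 : TorsionUnramified N)
    (h6 : TorsionEichlerShimura N) (h7 : TorsionGalLevel N) : TateMatrixData p N S where
  h := h
  gal := (F.mat (mem_tateTower (p := p) (N := N))).toMonoidHom.comp (galSystem p N)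
  hecke := (F.mat (mem_tateTower (p := p) (N := N))).comp (heckeSystem hNS E Fact.out)
  comm σ t := F.mat_commute mem_tateTower _ _
    (galSystem_commute_heckeSystem hNS E Fact.out hpS h4 h6 h7 σ t)
  gal_level n := (h7 (p ^ n) (pow_pos (Fact.out : p.Prime).pos n)).imp fun _ hL =>
    ⟨hL.1, fun σ hσ => F.exists_mat_eq_one_add mem_tateTower (galSystem p N σ) n
      (galSystem_apply_eq_one σ n (hL.2 σ hσ))⟩
  eichlerShimura ℓ hℓ hℓN hℓS A hA σ hσ := F.mat_quadratic mem_tateTower _ _ ℓ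
    (galSystem_eichlerShimura hNS E Fact.out hpS h4 h6 h7 ℓ hℓ hℓN hℓS A hA σ hσ)
  unram q hq hqN hqp P hP τ hτ := F.mat_eq_one mem_tateTower _
    (galSystem_eq_one τ fun n x hx =>
      h5 (p ^ n) q hq (not_dvd_pow_mul Fact.out hq hqN hqp n) P hP τ hτ x hx)
  faithful := (E.faithful p Fact.out).imp fun c0 hc0 y n hB => hB.elim fun B hB =>
    hc0 y n (F.apply_eq_zero_of_mat_eq_smul mem_tateTower (heckeSystem hNS E Fact.out y) (n + c0) B hB)

/-- Package D-TATE: the Tate module of `J₀(N)` in coordinates from the export contract. -/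
theorem nonempty_tateMatrixData_of_export (hpS : p ∈ S)
    (hNS : ∀ q : ℕ, q.Prime → q ∣ N → q ∈ S) (h : ℕ)
    (hcard : ∀ n : ℕ, Nat.card (JTors N (p ^ n)) = (p ^ n) ^ h)
    (E : HeckeTorsionAction N S) (h4 : GaloisHeckeComm N) (h5 : TorsionUnramified N)
    (h6 : TorsionEichlerShimura N) (h7 : TorsionGalLevel N) :
    Nonempty (TateMatrixData p N S) :=
  (nonempty_compatFrames (J := JZero N) Fact.out h (card_torsSub_JZero h hcard)).map fun F =>
    tateMatrixDataOfFrames hpS hNS h F E h4 h5 h6 h7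

/-- The Tate module of `J₀(N)` in coordinates (a choice). -/
noncomputable def tateMatrixData_of_export (hpS : p ∈ S)
    (hNS : ∀ q : ℕ, q.Prime → q ∣ N → q ∈ S) (h : ℕ)
    (hcard : ∀ n : ℕ, Nat.card (JTors N (p ^ n)) = (p ^ n) ^ h)
    (E : HeckeTorsionAction N S) (h4 : GaloisHeckeComm N) (h5 : TorsionUnramified N)
    (h6 : TorsionEichlerShimura N) (h7 : TorsionGalLevel N) : TateMatrixData p N S :=
  (nonempty_tateMatrixData_of_export hpS hNS h hcard E h4 h5 h6 h7).some

end Final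

end Tate

end Fermat.Agent.Gateway.Assembly
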