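/-
P-GATEWAY (d), S30 block, module Eigen (helper3).

The eigenspace of a system of Hecke eigenvalues in the Tate module (in coordinates, over a field
`E` receiving `ℤ_[p]`), the Galois representation on it and the quadratic relation.
-/
import Fermat.Agent.Gateway.S30.Specs

set_option autoImplicit false

namespace Fermat.Agent.Gateway.Assembly

open Polynomial IsLocalRing Matrix

variable {p : ℕ} [Fact p.Prime] {N : ℕ} [NeZero N] {S : Finset ℕ} (D : TateMatrixData p N S)
  {E : Type*} [Field E] (ι : ℤ_[p] →+* E)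
  (lam : CuspForm.heckeAlgebra N 2 (↑S : Set ℕ) →+* E)

/-- The joint eigenspace of the Hecke matrices for the eigenvalues `lam`. -/
def eigenspace : Submodule E (Fin D.h → E) where
  carrier := {w | ∀ t, ((D.hecke t).map ι).mulVec w = lam t • w}
  add_mem' := fun {a b} ha hb t => by
    rw [Matrix.mulVec_add, ha t, hb t, smul_add]
  zero_mem' := fun t => by rw [Matrix.mulVec_zero, smul_zero]
  smul_mem' := fun c w hw t => by
    rw [Matrix.mulVec_smul, hw t, smul_comm]

theorem mem_eigenspace {w : Fin D.h → E} :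
    w ∈ eigenspace D ι lam ↔ ∀ t, ((D.hecke t).map ι).mulVec w = lam t • w := Iff.rfl

theorem gal_mulVec_mem_eigenspace (g : GQ) {w : Fin D.h → E} (hw : w ∈ eigenspace D ι lam) :
    ((D.gal g).map ι).mulVec w ∈ eigenspace D ι lam := by
  intro t
  rw [Matrix.mulVec_mulVec, ← Matrix.map_mul, ← (D.comm g t).eq, Matrix.map_mul,
    ← Matrix.mulVec_mulVec, hw t, Matrix.mulVec_smul]

/-- Elements of the `ℤ_[p]`-span of the Hecke matrices act on the eigenspace by scalars. -/
theorem exists_scalar_of_mem_span {y : Matrix (Fin D.h) (Fin D.h) ℤ_[p]}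
    (hy : y ∈ Submodule.span ℤ_[p] (Set.range D.hecke)) :
    ∃ c : E, ∀ w ∈ eigenspace D ι lam, (y.map ι).mulVec w = c • w := by
  induction hy using Submodule.span_induction with
  | mem x hx =>
    obtain ⟨t, rfl⟩ := hx
    exact ⟨lam t, fun w hw => hw t⟩
  | zero =>
    refine ⟨0, fun w _ => ?_⟩
    rw [Matrix.map_zero _ (map_zero ι), Matrix.zero_mulVec, zero_smul]
  | add x y _ _ hx hy =>
    obtain ⟨c, hc⟩ := hx
    obtain ⟨d, hd⟩ := hy
    refine ⟨c + d, fun w hw => ?_⟩
    rw [Matrix.map_add _ (map_add ι), Matrix.add_mulVec, hc w hw, hd w hw, add_smul]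
  | smul z x _ hx =>
    obtain ⟨c, hc⟩ := hx
    refine ⟨ι z * c, fun w hw => ?_⟩
    have : (z • x).map ι = ι z • x.map ι := by
      ext i j
      simp [Matrix.map_apply, Matrix.smul_apply]
    rw [this, Matrix.smul_mulVec, hc w hw, smul_smul]

/-- The Galois representation on the eigenspace. -/
noncomputable def galOnEigen : GQ →* Module.End E (eigenspace D ι lam) where
  toFun g := (Matrix.toLin' ((D.gal g).map ι)).restrict (fun w hw => by
    rw [Matrix.toLin'_apply]
    exact gal_mulVec_mem_eigenspace D ι lam g hw)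
  map_one' := by
    ext w
    simp [Matrix.map_one _ (map_zero ι) (map_one ι)]
  map_mul' g g' := by
    ext w
    simp [Matrix.map_mul]

theorem coe_galOnEigen_apply (g : GQ) (w : eigenspace D ι lam) :
    ((galOnEigen D ι lam g w : eigenspace D ι lam) : Fin D.h → E)
      = ((D.gal g).map ι).mulVec (w : Fin D.h → E) := by
  show Matrix.toLin' ((D.gal g).map ι) (w : Fin D.h → E) = _
  rw [Matrix.toLin'_apply]

/-- The quadratic relation on the eigenspace. -/
theorem galOnEigen_quadratic (g : GQ) {y : Matrix (Fin D.h) (Fin D.h) ℤ_[p]}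
    (hrel : D.gal g * D.gal g - y * D.gal g
      + ((cyclo p g : ℤ_[p]ˣ) : ℤ_[p]) • (1 : Matrix (Fin D.h) (Fin D.h) ℤ_[p]) = 0)
    {c : E} (hc : ∀ w ∈ eigenspace D ι lam, (y.map ι).mulVec w = c • w) :
    galOnEigen D ι lam g * galOnEigen D ι lam g - c • galOnEigen D ι lam g
      + ι ((cyclo p g : ℤ_[p]ˣ) : ℤ_[p]) • (1 : Module.End E (eigenspace D ι lam)) = 0 := by
  ext w : 1
  apply Subtype.ext
  have h2 : (((cyclo p g : ℤ_[p]ˣ) : ℤ_[p]) • (1 : Matrix (Fin D.h) (Fin D.h) ℤ_[p])).map ι
      = ι ((cyclo p g : ℤ_[p]ˣ) : ℤ_[p]) • (1 : Matrix (Fin D.h) (Fin D.h) E) := by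
    ext i j
    by_cases hij : i = j
    · subst hij; simp [Matrix.map_apply, Matrix.smul_apply]
    · simp [Matrix.map_apply, Matrix.smul_apply, Matrix.one_apply_ne hij]
  have h0 : (D.gal g).map ι * (D.gal g).map ι - y.map ι * (D.gal g).map ι
      + ι ((cyclo p g : ℤ_[p]ˣ) : ℤ_[p]) • (1 : Matrix (Fin D.h) (Fin D.h) E) = 0 := by
    have h := congrArg ι.mapMatrix hrel
    rw [map_add, map_sub, map_mul, map_mul, map_zero] at h
    simp only [RingHom.mapMatrix_apply] at h
    rw [h2] at h
    exact h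
  have h1 := congrArg (fun M : Matrix (Fin D.h) (Fin D.h) E => M.mulVec (w : Fin D.h → E)) h0
  simp only [Matrix.add_mulVec, Matrix.sub_mulVec, Matrix.zero_mulVec, ← Matrix.mulVec_mulVec,
    Matrix.smul_mulVec, Matrix.one_mulVec] at h1
  rw [hc _ (gal_mulVec_mem_eigenspace D ι lam g w.2)] at h1
  simp only [LinearMap.add_apply, LinearMap.sub_apply, LinearMap.smul_apply,
    Module.End.mul_apply, Module.End.one_apply, LinearMap.zero_apply, Submodule.coe_add,
    Submodule.coe_sub, Submodule.coe_smul, Submodule.coe_zero, coe_galOnEigen_apply]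
  exact h1

end Fermat.Agent.Gateway.Assembly
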