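/-
P-GATEWAY (d), S30 block, module PadicToComplete (helper3).

The canonical ring homomorphism `ℤ_[p] →+* 𝒪` for a complete local ring `𝒪` whose maximal ideal
contains `p`.
-/
import Mathlib

set_option autoImplicit false

namespace Fermat.Agent.Gateway.Assembly

open IsLocalRing

variable (p : ℕ) [hp : Fact p.Prime] (𝒪 : Type*) [CommRing 𝒪] [IsLocalRing 𝒪]

/-- `ℤ/p^n → 𝒪/𝔪^n` when `p ∈ 𝔪`. -/
noncomputable def zmodToQuot (hp𝒪 : (p : 𝒪) ∈ maximalIdeal 𝒪) (n : ℕ) :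
    ZMod (p ^ n) →+* 𝒪 ⧸ maximalIdeal 𝒪 ^ n :=
  (Ideal.Quotient.lift (Ideal.span {((p ^ n : ℕ) : ℤ)})
    (Int.castRingHom (𝒪 ⧸ maximalIdeal 𝒪 ^ n)) (by
      intro a ha
      obtain ⟨b, rfl⟩ := Ideal.mem_span_singleton.mp ha
      rw [map_mul, eq_intCast, eq_intCast]
      have : (((p ^ n : ℕ) : ℤ) : 𝒪 ⧸ maximalIdeal 𝒪 ^ n) = 0 := by
        push_cast
        rw [← map_natCast (Ideal.Quotient.mk (maximalIdeal 𝒪 ^ n)), ← map_pow]
        exact Ideal.Quotient.eq_zero_iff_mem.mpr (Ideal.pow_mem_pow hp𝒪 n)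
      rw [this, zero_mul])).comp
    (Int.quotientSpanNatEquivZMod (p ^ n)).symm.toRingHom

variable [IsAdicComplete (maximalIdeal 𝒪) 𝒪]

/-- The canonical map `ℤ_[p] → 𝒪`. -/
noncomputable def padicToComplete (hp𝒪 : (p : 𝒪) ∈ maximalIdeal 𝒪) : ℤ_[p] →+* 𝒪 :=
  IsAdicComplete.liftRingHom (maximalIdeal 𝒪)
    (fun n => (zmodToQuot p 𝒪 hp𝒪 n).comp (PadicInt.toZModPow n))
    (fun {m n} hle => by
      have h1 : PadicInt.toZModPow (p := p) m
          = (ZMod.castHom (pow_dvd_pow p hle) (ZMod (p ^ m))).comp (PadicInt.toZModPow n) :=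
        (PadicInt.zmod_cast_comp_toZModPow m n hle).symm
      rw [h1, ← RingHom.comp_assoc, ← RingHom.comp_assoc]
      congr 1
      exact Subsingleton.elim _ _)

end Fermat.Agent.Gateway.Assembly
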