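/-
P-GATEWAY (d), S30 block, module Assembly (helper3): package D-ASM.

The frozen statement S30 for fixed `p N S` from Tate module data in coordinates and the
specifications of the work packages.
-/
import Fermat.Agent.Gateway.S30.Specs
import Fermat.Agent.Gateway.S30.Eigen
import Fermat.Agent.Gateway.S30.PadicToComplete

set_option autoImplicit false
set_option linter.unusedSectionVars false

namespace Fermat.Agent.Gateway.Assembly

open Polynomial IsLocalRing Matrix

/-- Package D-DIAG: the sum of two characters as an adic Galois representation. -/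
def DiagSpec : Prop :=
  ∀ (𝒪 : Type) [CommRing 𝒪] [IsLocalRing 𝒪] (ψ e : GQ →* 𝒪ˣ)
    (_hψ : ∀ n : ℕ, ∃ L : IntermediateField ℚ (AlgebraicClosure ℚ), FiniteDimensional ℚ L ∧
      ∀ σ : GQ, (∀ x ∈ L, σ x = x) → ((ψ σ : 𝒪ˣ) : 𝒪) - 1 ∈ maximalIdeal 𝒪 ^ n)
    (_he : ∀ n : ℕ, ∃ L : IntermediateField ℚ (AlgebraicClosure ℚ), FiniteDimensional ℚ L ∧
      ∀ σ : GQ, (∀ x ∈ L, σ x = x) → ((e σ : 𝒪ˣ) : 𝒪) - 1 ∈ maximalIdeal 𝒪 ^ n),
    ∃ ρ : GaloisRepAdic 𝒪,
      (∀ g, LinearMap.charpoly (ρ.ρ g) =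
        X ^ 2 - C (((ψ g : 𝒪ˣ) : 𝒪) + ((e g : 𝒪ˣ) : 𝒪) * (((ψ g)⁻¹ : 𝒪ˣ) : 𝒪)) * X
          + C ((e g : 𝒪ˣ) : 𝒪)) ∧
      (∀ g, ψ g = 1 → e g = 1 → ρ.ρ g = 1)

section RankOne

variable {R M : Type*} [CommRing R] [Nontrivial R] [AddCommGroup M] [Module R M]
  [Module.Free R M] [Module.Finite R M]

/-- An endomorphism of a free module of rank one is the multiplication by its determinant. -/
theorem eq_det_smul_of_finrank_one (h1 : Module.finrank R M = 1) (f : Module.End R M) :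
    f = LinearMap.det f • (1 : Module.End R M) := by
  let b : Module.Basis (Fin 1) R M := Module.finBasisOfFinrankEq R M h1
  have hdet : LinearMap.det f = LinearMap.toMatrix b b f 0 0 := by
    rw [← LinearMap.det_toMatrix b, Matrix.det_fin_one]
  apply b.ext
  intro i
  have hi : i = 0 := Subsingleton.elim _ _
  subst hi
  rw [LinearMap.smul_apply, Module.End.one_apply, hdet, LinearMap.toMatrix_apply]
  conv_lhs => rw [← b.sum_repr (f (b 0))]
  simp

theorem charpoly_of_finrank_one (h1 : Module.finrank R M = 1) (f : Module.End R M) :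
    LinearMap.charpoly f = X - C (LinearMap.det f) := by
  let b : Module.Basis (Fin 1) R M := Module.finBasisOfFinrankEq R M h1
  rw [← LinearMap.charpoly_toMatrix f b, ← LinearMap.det_toMatrix b, Matrix.det_fin_one,
    Matrix.charpoly, Matrix.det_fin_one, Matrix.charmatrix_apply_eq]

/-- An endomorphism of a free module of rank one is a scalar. -/
theorem exists_scalar_of_finrank_one (h1 : Module.finrank R M = 1) (f : Module.End R M) :
    ∃ x : R, f = x • (1 : Module.End R M) ∧ LinearMap.charpoly f = X - C x :=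
  ⟨LinearMap.det f, eq_det_smul_of_finrank_one h1 f, charpoly_of_finrank_one h1 f⟩

end RankOne

section Aux

variable {K V : Type*} [Field K] [AddCommGroup V] [Module K V] [FiniteDimensional K V]

theorem finrank_map_subtype (W : Submodule K V) (U : Submodule K W) :
    Module.finrank K (U.map W.subtype) = Module.finrank K U :=
  (LinearEquiv.finrank_eq (Submodule.equivMapOfInjective W.subtype W.injective_subtype U)).symm

theorem charpoly_restrict_map_subtype (W : Submodule K V) (U : Submodule K W)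
    (F : Module.End K V) (hW : ∀ w ∈ W, F w ∈ W) (hU : ∀ u ∈ U, (F.restrict hW) u ∈ U)
    (hU' : ∀ x ∈ U.map W.subtype, F x ∈ U.map W.subtype) :
    LinearMap.charpoly (F.restrict hU') = LinearMap.charpoly ((F.restrict hW).restrict hU) := by
  let e : U ≃ₗ[K] U.map W.subtype :=
    Submodule.equivMapOfInjective W.subtype W.injective_subtype U
  have he : e.conj ((F.restrict hW).restrict hU) = F.restrict hU' := by
    apply LinearMap.ext
    intro x
    apply Subtype.ext
    obtain ⟨u, rfl⟩ := e.surjective x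
    rw [LinearEquiv.conj_apply_apply, LinearEquiv.symm_apply_apply]
    rfl
  rw [← he, LinearEquiv.charpoly_conj]

/-- The linear coefficient of a quadratic relation satisfied by an invertible endomorphism of a
nonzero space is unique. -/
theorem quadratic_coeff_unique [Nontrivial V] {x x' : Module.End K V} (hx : x * x' = 1)
    {a a' e : K} (h : x * x - a • x + e • (1 : Module.End K V) = 0)
    (h' : x * x - a' • x + e • (1 : Module.End K V) = 0) : a = a' := by
  have h1 : (a' - a) • x = 0 := by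
    have : (a' - a) • x = (x * x - a • x + e • (1 : Module.End K V))
        - (x * x - a' • x + e • (1 : Module.End K V)) := by module
    rw [this, h, h', sub_self]
  by_contra hne
  have h2 : x = 0 := (smul_eq_zero.mp h1).resolve_left (sub_ne_zero.mpr (Ne.symm hne))
  rw [h2, zero_mul] at hx
  exact zero_ne_one hx

end Aux

section Aux2

variable {K V : Type*} [Field K] [AddCommGroup V] [Module K V] [FiniteDimensional K V]

theorem charpoly_restrict_map_subtype' (W : Submodule K V) (U : Submodule K W)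
    (F : Module.End K V) (hW : ∀ w ∈ W, F w ∈ W) (hU : ∀ u ∈ U, (F.restrict hW) u ∈ U)
    (F' : Module.End K V) (hFF' : F' = F)
    (hU' : ∀ x ∈ U.map W.subtype, F' x ∈ U.map W.subtype) :
    LinearMap.charpoly (F'.restrict hU') = LinearMap.charpoly ((F.restrict hW).restrict hU) := by
  subst hFF'
  exact charpoly_restrict_map_subtype W U F' hW hU hU'

end Aux2

section Main

variable {p : ℕ} [Fact p.Prime] {N : ℕ} [NeZero N] {S : Finset ℕ}

theorem natCast_matrix_eq_smul_one {n : Type*} [Fintype n] [DecidableEq n] {R : Type*}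
    [CommRing R] (ℓ : ℕ) : ((ℓ : ℕ) : Matrix n n R) = (ℓ : R) • (1 : Matrix n n R) := by
  rw [Nat.cast_smul_eq_nsmul, nsmul_one]

/-- The image of `p` in a local extension lies in the maximal ideal. -/
theorem natCast_mem_maximalIdeal_of_isLocalHom {A B : Type*} [CommRing A] [IsLocalRing A]
    [CommRing B] [IsLocalRing B] [Algebra A B] [IsLocalHom (algebraMap A B)] {a : A}
    (ha : a ∈ maximalIdeal A) : algebraMap A B a ∈ maximalIdeal B := by
  rw [mem_maximalIdeal, mem_nonunits_iff] at ha ⊢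
  exact fun h => ha (isUnit_of_map_unit (algebraMap A B) a h)

/-- Package D-ASM. -/
theorem s30For_of_specs (hpS : p ∈ S) (D : TateMatrixData p N S) (hOcc : OccursSpec p N S D)
    (hQuad : QuadSpec p N S D) (hCyc : CycloSpec p) (hQR : QuadraticRepSpec)
    (hLD : LatticeDescentSpec) (hDiag : DiagSpec) : S30For p N S := by
  classical
  intro 𝒪' _ _ _ _ _ _ hp𝒪' χ
  obtain ⟨hCyc1, hCyc2, hCyc3⟩ := hCyc
  -- the fields
  let ιp : ℤ_[p] →+* 𝒪' := padicToComplete p 𝒪' hp𝒪'
  let Kb : Type := AlgebraicClosure (FractionRing 𝒪')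
  let κ : 𝒪' →+* Kb := algebraMap 𝒪' Kb
  have hκ : Function.Injective κ := by
    have h1 : κ = (algebraMap (FractionRing 𝒪') Kb).comp (algebraMap 𝒪' (FractionRing 𝒪')) :=
      IsScalarTower.algebraMap_eq _ _ _
    rw [h1]
    exact (algebraMap (FractionRing 𝒪') Kb).injective.comp
      (IsFractionRing.injective 𝒪' (FractionRing 𝒪'))
  have : CharZero Kb := charZero_of_injective_ringHom hκ
  let ι : ℤ_[p] →+* Kb := κ.comp ιp
  let lam : CuspForm.heckeAlgebra N 2 (↑S : Set ℕ) →+* Kb := κ.comp χ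
  obtain ⟨v, hv0, hv⟩ := hOcc Kb ι lam
  let W : Submodule Kb (Fin D.h → Kb) := eigenspace D ι lam
  have : Nontrivial W := ⟨⟨⟨v, hv⟩, 0, fun h => hv0 (congrArg Subtype.val h)⟩⟩
  let ρW : GQ →* Module.End Kb W := galOnEigen D ι lam
  let ε : GQ →* Kbˣ := (Units.map (ι : ℤ_[p] →* Kb)).comp (cyclo p)
  have hε : ∀ g, ((ε g : Kbˣ) : Kb) = ι ((cyclo p g : ℤ_[p]ˣ) : ℤ_[p]) := fun g => rfl
  choose y hy hrel using hQuad
  have hsc := fun g => exists_scalar_of_mem_span D ι lam (hy g)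
  choose c hc using hsc
  have hq : ∀ g, ρW g * ρW g - c g • ρW g + ((ε g : Kbˣ) : Kb) • (1 : Module.End Kb W) = 0 :=
    fun g => galOnEigen_quadratic D ι lam g (hrel g) (hc g)
  obtain ⟨U, hU, hdim⟩ := hQR Kb GQ W ρW ε c hq
  -- the value of `c` at Frobenius lifts
  have hcFrob : ∀ (ℓ : ℕ) (hℓ : ℓ.Prime) (hℓN : ¬ ℓ ∣ N) (hℓS : ℓ ∉ (↑S : Set ℕ))
      (A : ValuationSubring (AlgebraicClosure ℚ)), A.LiesOverPrime ℓ →
      ∀ σ : GQ, A.IsFrobeniusAt σ ℓ →
        c σ = κ (χ (CuspForm.heckeAlgebra.T hℓ hℓN hℓS)) ∧ ((ε σ : Kbˣ) : Kb) = (ℓ : Kb) := by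
    intro ℓ hℓ hℓN hℓS A hA σ hσ
    have hℓp : ℓ ≠ p := by
      rintro rfl
      exact hℓS (Finset.mem_coe.mpr hpS)
    have hcy : ((cyclo p σ : ℤ_[p]ˣ) : ℤ_[p]) = (ℓ : ℤ_[p]) := hCyc2 ℓ hℓ hℓp A hA σ hσ
    have hES := D.eichlerShimura ℓ hℓ hℓN hℓS A hA σ hσ
    rw [natCast_matrix_eq_smul_one, ← hcy] at hES
    have h' := galOnEigen_quadratic D ι lam σ hES
      (c := lam (CuspForm.heckeAlgebra.T hℓ hℓN hℓS)) (fun w hw => hw _)
    have hinv : ρW σ * ρW σ⁻¹ = 1 := by rw [← map_mul, mul_inv_cancel, map_one]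
    refine ⟨quadratic_coeff_unique hinv (hq σ) h', ?_⟩
    rw [hε, hcy, map_natCast]
  -- the matrices over `𝒪'`
  let A' : GQ →* Matrix (Fin D.h) (Fin D.h) 𝒪' := (ιp.mapMatrix (m := Fin D.h)).toMonoidHom.comp D.gal
  have hA' : ∀ g, (A' g).map κ = (D.gal g).map ι := by
    intro g
    show ((D.gal g).map ιp).map κ = _
    rw [Matrix.map_map]
    rfl
  have hW : ∀ g, ∀ w ∈ W, Matrix.toLin' ((D.gal g).map ι) w ∈ W := fun g w hw => by
    rw [Matrix.toLin'_apply]
    exact gal_mulVec_mem_eigenspace D ι lam g hw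
  have hUt : ∀ g, ∀ u ∈ U.map W.subtype,
      Matrix.toLin' ((A' g).map (algebraMap 𝒪' (AlgebraicClosure (FractionRing 𝒪')))) u
        ∈ U.map W.subtype := by
    rintro g _ ⟨u, hu, rfl⟩
    refine ⟨ρW g u, hU g u hu, ?_⟩
    show ((ρW g u : W) : Fin D.h → Kb) = Matrix.toLin' ((A' g).map κ) (u : Fin D.h → Kb)
    rw [hA', coe_galOnEigen_apply, Matrix.toLin'_apply]
  obtain ⟨𝒪'', i1, i2, i3, i4, i5, i6, i7, i8, i9, hinj, j, hjinj, hj, Λ, l1, l2, l3, l4, r,
    hrank, hchar, hcong⟩ := hLD 𝒪' GQ D.h A' (U.map W.subtype) hUt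
  rw [finrank_map_subtype] at hrank
  have : Module.Free Kb U := Module.Free.of_divisionRing Kb U
  have hcharU : ∀ g, (LinearMap.charpoly (r g)).map j
      = LinearMap.charpoly ((ρW g).restrict (hU g)) := by
    intro g
    rw [hchar g]
    exact charpoly_restrict_map_subtype' W U (Matrix.toLin' ((D.gal g).map ι)) (hW g) (hU g) _
      (by rw [← hA' g]) (hUt g)
  -- continuity and unramifiedness of `r`
  have hpmem : ∀ n : ℕ, algebraMap 𝒪' 𝒪'' ((p : 𝒪') ^ n) ∈ maximalIdeal 𝒪'' ^ n := by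
    intro n
    rw [map_pow]
    exact Ideal.pow_mem_pow (natCast_mem_maximalIdeal_of_isLocalHom hp𝒪') n
  have hAcong : ∀ (n : ℕ) (σ : GQ) (B : Matrix (Fin D.h) (Fin D.h) ℤ_[p]),
      D.gal σ = 1 + (p : ℤ_[p]) ^ n • B → A' σ = 1 + (p : 𝒪') ^ n • B.map ιp := by
    intro n σ B hB
    show (D.gal σ).map ιp = _
    rw [hB]
    ext i k
    by_cases hik : i = k
    · subst hik; simp [Matrix.map_apply, Matrix.add_apply, Matrix.smul_apply]
    · simp [Matrix.map_apply, Matrix.add_apply, Matrix.smul_apply, Matrix.one_apply_ne hik]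
  have hcont : GaloisActionIsAdicContinuous 𝒪'' r := by
    intro n
    obtain ⟨L, hL, hσ⟩ := D.gal_level n
    refine ⟨L, hL, fun σ hfix v => ?_⟩
    obtain ⟨B, hB⟩ := hσ σ hfix
    obtain ⟨w, hw⟩ := hcong ((p : 𝒪') ^ n) σ (B.map ιp) (hAcong n σ B hB) v
    rw [hw]
    exact Submodule.smul_mem_smul (hpmem n) Submodule.mem_top
  have hunr : ∀ q : ℕ, q.Prime → ¬ q ∣ N → q ≠ p →
      ∀ P : ValuationSubring (AlgebraicClosure ℚ), P.LiesOverPrime q →
        ∀ τ ∈ P.inertiaSubgroupIn ℚ, r τ = 1 := by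
    intro q hq hqN hqp P hP τ hτ
    have h1 : D.gal τ = 1 := D.unram q hq hqN hqp P hP τ hτ
    have h2 : A' τ = 1 + (0 : 𝒪') • (0 : Matrix (Fin D.h) (Fin D.h) 𝒪') := by
      show (D.gal τ).map ιp = _
      rw [h1, zero_smul, add_zero, Matrix.map_one _ (map_zero ιp) (map_one ιp)]
    apply LinearMap.ext
    intro v
    obtain ⟨w, hw⟩ := hcong 0 τ 0 h2 v
    rw [map_zero, zero_smul] at hw
    rw [Module.End.one_apply]
    exact sub_eq_zero.mp hw
  rcases hdim with h1 | ⟨h2, hcp⟩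
  · -- dimension one: `ρ = ψ ⊕ ε ψ⁻¹`
    have hΛ1 : Module.finrank 𝒪'' Λ = 1 := by rw [hrank, h1]
    let ψ : GQ →* 𝒪''ˣ := (LinearMap.det.comp r).toHomUnits
    have hψ : ∀ g, ((ψ g : 𝒪''ˣ) : 𝒪'') = LinearMap.det (r g) := fun g => rfl
    let e : GQ →* 𝒪''ˣ :=
      (Units.map (((algebraMap 𝒪' 𝒪'').comp ιp : ℤ_[p] →+* 𝒪'') : ℤ_[p] →* 𝒪'')).comp (cyclo p)
    have he : ∀ g, ((e g : 𝒪''ˣ) : 𝒪'')
        = algebraMap 𝒪' 𝒪'' (ιp ((cyclo p g : ℤ_[p]ˣ) : ℤ_[p])) := fun g => rfl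
    have hψc : ∀ n : ℕ, ∃ L : IntermediateField ℚ (AlgebraicClosure ℚ), FiniteDimensional ℚ L ∧
        ∀ σ : GQ, (∀ x ∈ L, σ x = x) → ((ψ σ : 𝒪''ˣ) : 𝒪'') - 1 ∈ maximalIdeal 𝒪'' ^ n := by
      intro n
      obtain ⟨L, hL, hσ⟩ := D.gal_level n
      refine ⟨L, hL, fun σ hfix => ?_⟩
      obtain ⟨B, hB⟩ := hσ σ hfix
      have hr := eq_det_smul_of_finrank_one hΛ1 (r σ)
      let b : Module.Basis (Fin 1) 𝒪'' Λ := Module.finBasisOfFinrankEq 𝒪'' Λ hΛ1
      obtain ⟨w, hw⟩ := hcong ((p : 𝒪') ^ n) σ (B.map ιp) (hAcong n σ B hB) (b 0)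
      have h3 : (LinearMap.det (r σ) - 1) • b 0 = algebraMap 𝒪' 𝒪'' ((p : 𝒪') ^ n) • w := by
        rw [sub_smul, one_smul, ← hw]
        congr 1
        conv_rhs => rw [hr]
        rw [LinearMap.smul_apply, Module.End.one_apply]
      have h4 := congrArg (fun x => b.repr x 0) h3
      simp only [map_smul, Module.Basis.repr_self, Finsupp.smul_apply, Finsupp.single_eq_same,
        smul_eq_mul, mul_one] at h4
      rw [hψ, h4]
      exact Ideal.mul_mem_right _ _ (hpmem n)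
    have hec : ∀ n : ℕ, ∃ L : IntermediateField ℚ (AlgebraicClosure ℚ), FiniteDimensional ℚ L ∧
        ∀ σ : GQ, (∀ x ∈ L, σ x = x) → ((e σ : 𝒪''ˣ) : 𝒪'') - 1 ∈ maximalIdeal 𝒪'' ^ n := by
      intro n
      obtain ⟨L, hL, hσ⟩ := hCyc1 n
      refine ⟨L, hL, fun σ hfix => ?_⟩
      obtain ⟨b, hb⟩ := hσ σ hfix
      have : ((e σ : 𝒪''ˣ) : 𝒪'') - 1 = algebraMap 𝒪' 𝒪'' ((p : 𝒪') ^ n) * algebraMap 𝒪' 𝒪'' (ιp b) := by
        rw [he, hb, map_add, map_add, map_one, map_one, map_mul, map_mul, map_pow, map_pow,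
          map_natCast, map_natCast, map_pow, map_natCast]
        ring
      rw [this]
      exact Ideal.mul_mem_right _ _ (hpmem n)
    obtain ⟨ρ, hρchar, hρone⟩ := hDiag 𝒪'' ψ e hψc hec
    have hUfin : 0 < Module.finrank Kb U := by rw [h1]; exact one_pos
    have : Nontrivial U := Module.nontrivial_of_finrank_pos hUfin
    have hje : ∀ g, j ((e g : 𝒪''ˣ) : 𝒪'') = ((ε g : Kbˣ) : Kb) := by
      intro g
      rw [he, hj, hε]
      rfl
    have key : ∀ g, j (((ψ g : 𝒪''ˣ) : 𝒪'') + ((e g : 𝒪''ˣ) : 𝒪'') * (((ψ g)⁻¹ : 𝒪''ˣ) : 𝒪''))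
        = c g := by
      intro g
      obtain ⟨xg, hb, hcharx⟩ :=
        exists_scalar_of_finrank_one (R := Kb) (M := U) h1 ((ρW g).restrict (hU g))
      have ha : j ((ψ g : 𝒪''ˣ) : 𝒪'') = xg := by
        have h3 := hcharU g
        rw [charpoly_of_finrank_one hΛ1, hcharx, Polynomial.map_sub,
          Polynomial.map_X, Polynomial.map_C] at h3
        have h4 := congrArg (fun q : Kb[X] => q.coeff 0) h3
        simp only [coeff_sub, coeff_X_zero, coeff_C_zero, zero_sub] at h4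
        rw [hψ]
        exact neg_injective h4
      obtain ⟨u, hu0⟩ := exists_ne (0 : U)
      have hu1 : ρW g (u : W) = xg • (u : W) := by
        have := congrArg (fun f : Module.End Kb U => ((f u : U) : W)) hb
        simpa using this
      have hrelU : xg * xg - c g * xg + ((ε g : Kbˣ) : Kb) = 0 := by
        have h5 := congrArg (fun f : Module.End Kb W => f (u : W)) (hq g)
        simp only [LinearMap.add_apply, LinearMap.sub_apply, LinearMap.smul_apply,
          Module.End.mul_apply, Module.End.one_apply, LinearMap.zero_apply, hu1, map_smul,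
          smul_smul] at h5
        rw [← sub_smul, ← add_smul] at h5
        rcases smul_eq_zero.mp h5 with h0 | h0
        · exact h0
        · exact absurd (Subtype.ext h0 : u = 0) hu0
      have hx0 : xg ≠ 0 := by
        intro h0
        rw [h0, mul_zero, mul_zero, sub_zero, zero_add] at hrelU
        exact Units.ne_zero _ hrelU
      have hinvψ : j (((ψ g)⁻¹ : 𝒪''ˣ) : 𝒪'') = xg⁻¹ := by
        have h6 : j ((ψ g : 𝒪''ˣ) : 𝒪'') * j (((ψ g)⁻¹ : 𝒪''ˣ) : 𝒪'') = 1 := by
          rw [← map_mul, Units.mul_inv, map_one]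
        rw [ha] at h6
        exact eq_inv_of_mul_eq_one_right h6
      rw [map_add, map_mul, ha, hje, hinvψ]
      field_simp
      linear_combination hrelU
    refine ⟨𝒪'', i1, i2, i3, i4, i5, i6, i7, i8, i9, hinj, ρ, ?_, ?_⟩
    · intro ℓ hℓ hℓN hℓS A hA σ hσ
      obtain ⟨hc1, hc2⟩ := hcFrob ℓ hℓ hℓN hℓS A hA σ hσ
      rw [hρchar σ]
      have h7 : ((ψ σ : 𝒪''ˣ) : 𝒪'') + ((e σ : 𝒪''ˣ) : 𝒪'') * (((ψ σ)⁻¹ : 𝒪''ˣ) : 𝒪'')
          = algebraMap 𝒪' 𝒪'' (χ (CuspForm.heckeAlgebra.T hℓ hℓN hℓS)) := by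
        apply hjinj
        rw [key σ, hj, hc1]
      have h8 : ((e σ : 𝒪''ˣ) : 𝒪'') = (ℓ : 𝒪'') := by
        apply hjinj
        rw [hje, hc2, map_natCast]
      rw [h7, h8]
    · intro q hq hqN hqp P hP τ hτ
      apply hρone τ
      · apply Units.ext
        rw [hψ, hunr q hq hqN hqp P hP τ hτ, map_one]
        rfl
      · show (Units.map _) (cyclo p τ) = 1
        rw [hCyc3 q hq hqp P hP τ hτ, map_one]
  · -- dimension two
    refine ⟨𝒪'', i1, i2, i3, i4, i5, i6, i7, i8, i9, hinj,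
      { V := Λ, finrank_eq := by rw [hrank, h2], ρ := r, isAdicContinuous := hcont }, ?_, ?_⟩
    · intro ℓ hℓ hℓN hℓS A hA σ hσ
      obtain ⟨hc1, hc2⟩ := hcFrob ℓ hℓ hℓN hℓS A hA σ hσ
      apply Polynomial.map_injective j hjinj
      show (LinearMap.charpoly (r σ)).map j = _
      rw [hcharU σ, hcp σ, hc1, hc2]
      simp only [Polynomial.map_add, Polynomial.map_sub, Polynomial.map_mul, Polynomial.map_pow,
        Polynomial.map_X, Polynomial.map_C, map_natCast, Polynomial.map_natCast, hj]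
      rfl
    · intro q hq hqN hqp P hP τ hτ
      exact hunr q hq hqN hqp P hP τ hτ

end Main

end Fermat.Agent.Gateway.Assembly
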