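/-
P-GATEWAY (d), S30 block, module FromCoreInputs (helper3).

Glue between the producer contract `Export.CoreInputs N` (helper88, parts (a), (b)) together with
the reduction statements E5, E6 (part (c), helper47) and the consumer `TateMatrixData p N S`
(package D-TATE, helper98): the frozen statements S30, S29, S42 from

* `∀ N [NeZero N], Nonempty (Export.CoreInputs N)`   (E1, E2, E3),
* `∀ N [NeZero N], S31Red.TorsionUnramified N`        (E5),
* `∀ N [NeZero N], S31Red.TorsionEichlerShimura N`    (E6).

E4 (`S31Red.galoisHeckeComm`) and E7 (`S31Red.torsionGalLevel_of_finite`) are theorems.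
-/
import Fermat.Agent.Gateway.S30.Final
import Fermat.Agent.Gateway.S30.Tate
import Fermat.Agent.Gateway.Export.Main
import Fermat.Agent.Gateway.S31.Inputs

set_option autoImplicit false

namespace Fermat.Agent.Gateway.Assembly

open Fermat.Agent.Gateway

section Card

/-- Additive homomorphisms out of a free abelian group of rank `k` into `ZMod m`. -/
noncomputable def finsuppHomEquiv (k : ℕ) (B : Type) [AddCommGroup B] :
    ((Fin k →₀ ℤ) →+ B) ≃ (Fin k → B) :=
  (Finsupp.liftAddHom (α := Fin k) (M := ℤ) (N := B)).symm.toEquiv.trans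
    (Equiv.piCongrRight fun _ => (zmultiplesAddHom B).symm.toEquiv)

/-- Precomposition with an additive equivalence. -/
def homCongrLeft {Q Q' : Type} [AddCommGroup Q] [AddCommGroup Q'] (e : Q ≃+ Q') (B : Type)
    [AddCommGroup B] : (Q →+ B) ≃ (Q' →+ B) where
  toFun f := f.comp e.symm.toAddMonoidHom
  invFun f := f.comp e.toAddMonoidHom
  left_inv f := by ext x; simp
  right_inv f := by ext x; simp

theorem card_hom_zmod {Q : Type} [AddCommGroup Q] {k : ℕ} (e : Q ≃+ (Fin k →₀ ℤ)) (m : ℕ)
    (hm : 0 < m) : Nat.card (Q →+ ZMod m) = m ^ k := by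
  have : NeZero m := ⟨hm.ne'⟩
  rw [Nat.card_congr ((homCongrLeft e (ZMod m)).trans (finsuppHomEquiv k (ZMod m))),
    Nat.card_fun, Nat.card_eq_fintype_card, Nat.card_eq_fintype_card, ZMod.card, Fintype.card_fin]

end Card

variable {N : ℕ} [NeZero N]

/-- **E1**: the cardinality of the `m`-torsion of `J₀(N)`, from the core inputs. -/
theorem exists_card_JTors (I : Export.CoreInputs N) :
    ∃ h : ℕ, ∀ m : ℕ, 0 < m → Nat.card (S31Red.JTors N m) = m ^ h := by
  obtain ⟨g, -, ⟨e⟩⟩ := Export.exists_QLat_equiv N
  refine ⟨2 * g, fun m hm => ?_⟩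
  rw [← card_hom_zmod e m hm]
  exact Nat.card_congr (I.xi m hm).toEquiv

/-- The `m`-torsion of `J₀(N)` is finite, from the core inputs. -/
theorem finite_JTors (I : Export.CoreInputs N) (m : ℕ) (hm : 0 < m) :
    Finite (S31Red.JTors N m) := by
  obtain ⟨h, hh⟩ := exists_card_JTors I
  refine Nat.finite_of_card_ne_zero ?_
  rw [hh m hm]
  exact (pow_pos hm h).ne'

/-- **E2 + E3** in the shape of `S31Red.HeckeTorsionAction`, from the core inputs. -/
noncomputable def heckeTorsionActionOfCoreInputs (I : Export.CoreInputs N) (S : Finset ℕ)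
    (hNS : ∀ q : ℕ, q.Prime → q ∣ N → q ∈ S) : S31Red.HeckeTorsionAction N S where
  eta m hm := Export.heckeTors I S hNS m hm
  eta_T m hm _ hℓ hℓN hℓS x := Export.heckeTors_T I S hNS m hm hℓ hℓN hℓS x
  faithful p hp := Export.exists_faithful I S hNS p hp

/-- The three inputs of the S30 block which are not yet theorems. -/
structure ExportInputs : Prop where
  core : ∀ (N : ℕ) [NeZero N], Nonempty (Export.CoreInputs N)
  unram : ∀ (N : ℕ) [NeZero N], S31Red.TorsionUnramified N
  eichlerShimura : ∀ (N : ℕ) [NeZero N], S31Red.TorsionEichlerShimura N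

/-- Tate module data in coordinates at every `p N S`, from the export contract. -/
theorem tateMatrixDataExists_of_export (hE : ExportInputs) : TateMatrixDataExists := by
  intro p _ N _ S hpS hNS
  obtain ⟨I⟩ := hE.core N
  obtain ⟨h, hh⟩ := exists_card_JTors I
  exact nonempty_tateMatrixData_of_export hpS hNS h
    (fun n => hh (p ^ n) (pow_pos (Fact.out : p.Prime).pos n))
    (heckeTorsionActionOfCoreInputs I S hNS) (S31Red.galoisHeckeComm N) (hE.unram N)
    (hE.eichlerShimura N) (S31Red.torsionGalLevel_of_finite N (finite_JTors I))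

/-- The frozen statement S30 from the export contract. -/
theorem s30Statement_of_export (hE : ExportInputs) : S30Statement :=
  s30Statement_of_tateMatrixData (tateMatrixDataExists_of_export hE)

/-- The frozen statement S29 from the export contract. -/
theorem s29Statement_of_export (hE : ExportInputs) : S29Statement :=
  s29Statement_of_tateMatrixData (tateMatrixDataExists_of_export hE)

/-- The frozen statement S42 from the export contract. -/
theorem s42Statement_of_export (hE : ExportInputs) : S42Statement :=
  s42Statement_of_tateMatrixData (tateMatrixDataExists_of_export hE)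

end Fermat.Agent.Gateway.Assembly
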