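/-
P-GATEWAY (d), module S30/ExportGlue (helper3): Tier 1 integrator on the consumer side.

`ExportInputs` (the single input of the frozen statements S29, S30, S31, S42, see
`FromCoreInputs.lean`, `S31/Final.lean`) from the two remaining producer deliverables:

* `CoreInputsExist`  : `Export.CoreInputs N` for every level `N`  (parts (a), (b): E1, E2, E3);
* `GoodLevelKummer`  : (C0) `Kummer.KummerRedInj M A m` at the good levels `M` (`4 ∣ M` for odd
  residue characteristic, `9 ∣ M` for residue characteristic `2`)  (part (c)).

Everything else is plugged in: the descent of (C0) to arbitrary level (helper38,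
`Descent.kummerRedInj_all_of_good`), (Hnorm) `GoodRed.gaussNormalisable` (helper82), (C1) and the
Hecke inputs over `ℚ̄` (helper20, `Hecke.C1Qbar`), and the Kummer exports E5, E6 (helper47).
-/
import Fermat.Agent.Gateway.S30.FromCoreInputs
import Fermat.Agent.Gateway.S31.Final
import Fermat.Agent.Gateway.Kummer.Export
import Fermat.Agent.Gateway.Descent.KummerGlue
import Fermat.Agent.Gateway.GoodRed.GaussNorm
import Fermat.Agent.Gateway.Hecke.C1Qbar

set_option autoImplicit false

namespace Fermat.Agent.Gateway.Assembly

open Fermat.Agent.Gateway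

/-- Parts (a), (b): the core inputs at every level. -/
def CoreInputsExist : Prop :=
  ∀ (N : ℕ) [NeZero N], Nonempty (Export.CoreInputs N)

/-- Part (c): (C0) at the good levels. -/
def GoodLevelKummer : Prop :=
  ∀ (M : ℕ) [NeZero M] (m ℓ : ℕ), ℓ.Prime → ¬ ℓ ∣ m * M →
    ((ℓ ≠ 2 ∧ 4 ∣ M) ∨ (ℓ = 2 ∧ 9 ∣ M)) →
    ∀ A : ValuationSubring (AlgebraicClosure ℚ), A.LiesOverPrime ℓ →
      Kummer.KummerRedInj M A m

/-- **E5** at every level from (C0) at the good levels. -/
theorem torsionUnramified_of_goodLevelKummer (hgood : GoodLevelKummer) (N : ℕ) [NeZero N] :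
    S31Red.TorsionUnramified N :=
  Kummer.torsionUnramified N (GoodRed.gaussNormalisable N)
    (Descent.kummerRedInj_all_of_good N hgood)

/-- **E6** at every level from (C0) at the good levels. -/
theorem torsionEichlerShimura_of_goodLevelKummer (hgood : GoodLevelKummer) (N : ℕ) [NeZero N] :
    S31Red.TorsionEichlerShimura N :=
  Kummer.torsionEichlerShimura N (Hecke.C1Qbar.heckeInputs_Qbar N)
    (Hecke.C1Qbar.exists_normQExpFormula N) (GoodRed.gaussNormalisable N)
    (Descent.kummerRedInj_all_of_good N hgood)

/-- The export contract from the two remaining producer deliverables. -/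
theorem exportInputs_of (hcore : CoreInputsExist) (hgood : GoodLevelKummer) : ExportInputs where
  core := hcore
  unram N _ := torsionUnramified_of_goodLevelKummer hgood N
  eichlerShimura N _ := torsionEichlerShimura_of_goodLevelKummer hgood N

end Fermat.Agent.Gateway.Assembly
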